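import Fermat.Agent.H41.EisTwo
import Fermat.Agent.H1.S16L2.Interfaces

/-!
# P-S16, row L2-EIS (helper41): the weight-2 Eisenstein series of level 3

`F2 = (1/2) (3 E₂(3z) - E₂(z)) = 1 + 12 G'` is a modular form of weight 2 on `Γ₀(3)`, with
`G' = ∑_{n ≥ 1} σ'(n) qⁿ`, `σ'(n)` the sum of the divisors of `n` prime to `3`.

More generally, for a prime `p`, `eisHalf p = (1/2) (p E₂(pz) - E₂(z))` has q-expansion
`(p - 1)/2 + 12 ∑ σ'_p(n) qⁿ`.
-/

open UpperHalfPlane ModularForm CongruenceSubgroup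
open scoped MatrixGroups ModularForm

namespace Fermat.Agent.H41

/-- `(1/2) (N E₂(Nz) - E₂(z))`, a modular form of weight 2 on `Γ₀(N)`. -/
noncomputable def eisHalf (N : ℕ) [NeZero N] : ModularForm (Gamma0 N) 2 :=
  (1 / 2 : ℂ) • eisTwo N

theorem eisHalf_apply (N : ℕ) [NeZero N] (z : ℍ) :
    eisHalf N z = (1 / 2 : ℂ) * eisTwo N z := by
  simp [eisHalf]

theorem hasSum_eisHalf (N : ℕ) [NeZero N] (τ : ℍ) :
    HasSum (fun m : ℕ => ((1 / 2 : ℂ) * eisTwoCoeff N m) • Function.Periodic.qParam 1 τ ^ m)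
      (eisHalf N τ) := by
  rw [eisHalf_apply]
  have h := (hasSum_eisTwo N τ).mul_left (1 / 2 : ℂ)
  simpa only [smul_eq_mul, mul_assoc] using h

theorem qExpansion_eisHalf_coeff (N : ℕ) [NeZero N] (m : ℕ) :
    (qExpansion 1 (eisHalf N)).coeff m = (1 / 2 : ℂ) * eisTwoCoeff N m := by
  have h1 : (1 : ℝ) ∈ ((Gamma0 N : Subgroup SL(2, ℤ)) : Subgroup (GL (Fin 2) ℝ)).strictPeriods :=
    CongruenceSubgroup.one_mem_strictPeriods_Gamma0 N
  exact (ModularFormClass.qExpansion_coeff_unique one_pos h1 (f := eisHalf N)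
    (c := fun m => (1 / 2 : ℂ) * eisTwoCoeff N m) (hasSum_eisHalf N) m).symm

/-- For a prime `p`: the q-expansion of `eisHalf p` is `(p - 1)/2 + 12 ∑_{m ≥ 1} σ'_p(m) q^m`. -/
theorem qExpansion_eisHalf_coeff_prime (p : ℕ) (hp : p.Prime) [NeZero p] (m : ℕ) :
    (qExpansion 1 (eisHalf p)).coeff m =
      if m = 0 then ((p : ℂ) - 1) / 2 else 12 * (sigmaPrime p m : ℂ) := by
  rw [qExpansion_eisHalf_coeff]
  by_cases hm : m = 0
  · subst hm
    simp [eisTwoCoeff]
    ring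
  · rw [if_neg hm, eisTwoCoeff_prime p hp m hm]
    ring

theorem coeff_gPrime (m : ℕ) :
    PowerSeries.coeff m H1.S16L2.gPrime = (sigmaPrime 3 m : ℤ) := by
  rw [H1.S16L2.gPrime, PowerSeries.coeff_mk, sigmaPrime]
  push_cast
  rfl

theorem coeff_one_add_twelve_gPrime (m : ℕ) :
    PowerSeries.coeff m (1 + 12 * H1.S16L2.gPrime) =
      if m = 0 then (1 : ℤ) else 12 * (sigmaPrime 3 m : ℤ) := by
  have h12 : (12 : PowerSeries ℤ) = PowerSeries.C (12 : ℤ) := (map_ofNat PowerSeries.C 12).symm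
  rw [map_add, h12, PowerSeries.coeff_C_mul, coeff_gPrime, PowerSeries.coeff_one]
  by_cases hm : m = 0
  · subst hm
    simp [sigmaPrime]
  · simp [hm]

/-- **(EIS)** the weight-2 Eisenstein series of level 3, `F2 = 1 + 12 G'`. -/
theorem eisThreeStatement : H1.S16L2.EisThreeStatement := by
  have : NeZero (3 : ℕ) := ⟨by norm_num⟩
  refine ⟨eisHalf 3, ?_⟩
  ext m
  rw [qExpansion_eisHalf_coeff_prime 3 Nat.prime_three, PowerSeries.coeff_map,
    coeff_one_add_twelve_gPrime]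
  by_cases hm : m = 0
  · subst hm
    simp
    norm_num
  · rw [if_neg hm, if_neg hm]
    simp

end Fermat.Agent.H41
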