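/-
P-GENUS (S24), analytic side: lemmas shared by GEN-14 (finite points) and GEN-15 (cusp).
helper41.  Everything lives in namespace `Fermat.Agent.H41`.
-/
import Fermat.Agent.H23.BlueprintAn

set_option autoImplicit false

noncomputable section

open UpperHalfPlane
open scoped MatrixGroups Manifold Topology

namespace Fermat.Agent.H41

/-! ### General complex analysis -/

/-- Identity theorem on the upper half plane: two holomorphic functions agreeing for
`R < im z` are equal. -/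
theorem eq_of_mdiff_of_forall_im_gt {f g : ℍ → ℂ} (hf : MDiff f) (hg : MDiff g) (R : ℝ)
    (h : ∀ z : ℍ, R < z.im → f z = g z) : f = g := by
  have hf' := UpperHalfPlane.mdifferentiable_iff.mp hf
  have hg' := UpperHalfPlane.mdifferentiable_iff.mp hg
  have hopen : IsOpen {z : ℂ | 0 < z.im} := isOpen_lt continuous_const Complex.continuous_im
  have hconn : IsPreconnected {z : ℂ | 0 < z.im} :=
    (convex_halfSpace_im_gt 0).isPreconnected
  have hfa := hf'.analyticOnNhd hopen
  have hga := hg'.analyticOnNhd hopen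
  set R' : ℝ := max R 0 + 1 with hR'
  have hR'pos : 0 < R' := by positivity
  have hR'R : R < R' := lt_of_le_of_lt (le_max_left R 0) (lt_add_one _)
  set z₀ : ℂ := ⟨0, R'⟩ with hz₀
  have hz₀mem : z₀ ∈ {z : ℂ | 0 < z.im} := hR'pos
  have hev : (f ∘ ofComplex) =ᶠ[𝓝 z₀] (g ∘ ofComplex) := by
    have hopen2 : IsOpen {z : ℂ | max R 0 < z.im} :=
      isOpen_lt continuous_const Complex.continuous_im
    have hmem2 : z₀ ∈ {z : ℂ | max R 0 < z.im} := by
      change max R 0 < R'
      exact lt_add_one _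
    filter_upwards [hopen2.mem_nhds hmem2] with z hz
    have hz0 : 0 < z.im := lt_of_le_of_lt (le_max_right R 0) hz
    have hzR : R < z.im := lt_of_le_of_lt (le_max_left R 0) hz
    simp only [Function.comp_apply, ofComplex_apply_of_im_pos hz0]
    exact h ⟨z, hz0⟩ hzR
  have hEq := hfa.eqOn_of_preconnected_of_eventuallyEq hga hconn hz₀mem hev
  funext z
  have := hEq z.im_pos
  simpa [Function.comp_apply, ofComplex_apply] using this

/-- The order of a meromorphic function at `0` is invariant under `t ↦ c t`, `c ≠ 0`. -/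
theorem meromorphicOrderAt_comp_mul_left {F : ℂ → ℂ} {c : ℂ} (hc : c ≠ 0) :
    meromorphicOrderAt (fun t => F (c * t)) 0 = meromorphicOrderAt F 0 := by
  have hg : AnalyticAt ℂ (fun t : ℂ => c * t) 0 := analyticAt_const.mul analyticAt_id
  have hd : deriv (fun t : ℂ => c * t) 0 ≠ 0 := by
    have : deriv (fun t : ℂ => c * t) 0 = c := by
      simp
    rw [this]; exact hc
  have := meromorphicOrderAt_comp_of_deriv_ne_zero (f := F) hg hd
  simpa [Function.comp_def] using this

/-- Multiplication by `c ≠ 0` preserves the punctured neighbourhood filter of `0`. -/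
theorem tendsto_mul_left_nhdsNE_zero {c : ℂ} (hc : c ≠ 0) :
    Filter.Tendsto (fun t : ℂ => c * t) (𝓝[≠] 0) (𝓝[≠] 0) := by
  refine tendsto_nhdsWithin_iff.mpr ⟨?_, ?_⟩
  · have : Filter.Tendsto (fun t : ℂ => c * t) (𝓝 0) (𝓝 (c * 0)) :=
      (continuous_const.mul continuous_id).tendsto 0
    rw [mul_zero] at this
    exact this.mono_left nhdsWithin_le_nhds
  · filter_upwards [self_mem_nhdsWithin] with t ht
    exact mul_ne_zero hc ht

/-- If a meromorphic germ at `0` of (finite) order `n` is invariant under `t ↦ c t`, then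
`c ^ n = 1`. -/
theorem zpow_eq_one_of_comp_mul_eq {F : ℂ → ℂ} {c : ℂ} (hc : c ≠ 0) {n : ℤ}
    (hF : MeromorphicAt F 0) (hn : meromorphicOrderAt F 0 = n)
    (hinv : ∀ᶠ t in 𝓝[≠] (0 : ℂ), F (c * t) = F t) : c ^ n = 1 := by
  obtain ⟨g, hg, hg0, hev⟩ := (meromorphicOrderAt_eq_int_iff hF).mp hn
  have hev' : ∀ᶠ t in 𝓝[≠] (0 : ℂ), F (c * t) = (c * t - 0) ^ n • g (c * t) :=
    (tendsto_mul_left_nhdsNE_zero hc).eventually hev
  have hkey : ∀ᶠ t in 𝓝[≠] (0 : ℂ), c ^ n * g (c * t) = g t := by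
    filter_upwards [hev, hev', hinv, self_mem_nhdsWithin] with t h1 h2 h3 ht
    have ht0 : t ≠ 0 := ht
    rw [h3, h1] at h2
    simp only [sub_zero, smul_eq_mul, mul_zpow] at h2
    have htn : t ^ n ≠ 0 := zpow_ne_zero n ht0
    have : t ^ n * (c ^ n * g (c * t)) = t ^ n * g t := by
      rw [h2]; ring
    exact mul_left_cancel₀ htn this
  have hcont1 : Filter.Tendsto (fun t : ℂ => c ^ n * g (c * t)) (𝓝[≠] 0) (𝓝 (c ^ n * g 0)) := by
    have h1 : Filter.Tendsto (fun t : ℂ => c * t) (𝓝[≠] 0) (𝓝 0) :=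
      (tendsto_mul_left_nhdsNE_zero hc).mono_right nhdsWithin_le_nhds
    have h2 : Filter.Tendsto (fun t : ℂ => g (c * t)) (𝓝[≠] 0) (𝓝 (g 0)) :=
      hg.continuousAt.tendsto.comp h1
    exact h2.const_mul _
  have hcont2 : Filter.Tendsto g (𝓝[≠] 0) (𝓝 (g 0)) :=
    hg.continuousAt.tendsto.mono_left nhdsWithin_le_nhds
  have hlim : c ^ n * g 0 = g 0 :=
    tendsto_nhds_unique (hcont1.congr' hkey) hcont2
  have : (c ^ n - 1) * g 0 = 0 := by rw [sub_mul, hlim, one_mul, sub_self]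
  rcases mul_eq_zero.mp this with h | h
  · exact sub_eq_zero.mp h
  · exact absurd h hg0

/-- Holomorphy is preserved by composition with the action of `SL(2,ℤ)`. -/
theorem mdiff_comp_smul {f : ℍ → ℂ} (hf : MDiff f) (γ : SL(2, ℤ)) :
    MDiff (fun z : ℍ => f (γ • z)) := by
  have h1 : MDiff (fun z : ℍ => ((γ : GL (Fin 2) ℝ)) • z) :=
    mdifferentiable_smul (g := (γ : GL (Fin 2) ℝ)) (by simp)
  exact hf.comp h1

/-- A multiplicative, additive family of meromorphic functions defines a ring hom to the field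
of meromorphic germs. -/
def germHom {x : ℂ} (G : H23.MerGermField x) {R : Type} [CommRing R] (H : R → ℂ → ℂ)
    (hmer : ∀ r, MeromorphicAt (H r) x) (hadd : ∀ r s, H (r + s) = H r + H s)
    (hmul : ∀ r s, H (r * s) = H r * H s) (hone : H 1 = fun _ => 1) : R →+* G.M where
  toFun r := G.germ (H r)
  map_one' := by rw [hone]; exact G.germ_one
  map_mul' r s := by rw [hmul]; exact G.germ_mul _ _ (hmer r) (hmer s)
  map_zero' := by
    have h := G.germ_add _ _ (hmer 0) (hmer 0)
    rw [← hadd, add_zero] at h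
    exact left_eq_add.mp h
  map_add' r s := by rw [hadd]; exact G.germ_add _ _ (hmer r) (hmer s)

@[simp] theorem germHom_apply {x : ℂ} (G : H23.MerGermField x) {R : Type} [CommRing R]
    (H : R → ℂ → ℂ) (hmer : ∀ r, MeromorphicAt (H r) x) (hadd : ∀ r s, H (r + s) = H r + H s)
    (hmul : ∀ r s, H (r * s) = H r * H s) (hone : H 1 = fun _ => 1) (r : R) :
    germHom G H hmer hadd hmul hone r = G.germ (H r) := rfl

/-- The germ of a nonzero constant has valuation `0` and derivative `0`. -/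
theorem val_germ_const {x : ℂ} (G : H23.MerGermField x) {c : ℂ} (hc : c ≠ 0) :
    G.val (G.germ (fun _ => c)) = 0 := by
  rw [G.val_germ _ (MeromorphicAt.const c x)]
  have h := (analyticAt_const (𝕜 := ℂ) (v := c) (x := x)).meromorphicOrderAt_eq
  rw [h]
  have h2 : analyticOrderAt (fun _ : ℂ => c) x = 0 := by
    rw [analyticAt_const.analyticOrderAt_eq_zero]
    exact hc
  rw [h2]
  rfl

theorem der_germ_const {x : ℂ} (G : H23.MerGermField x) (c : ℂ) :
    G.der (G.germ (fun _ => c)) = 0 := by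
  rw [G.der_germ _ (MeromorphicAt.const c x)]
  have h0 : deriv (fun _ : ℂ => c) = fun _ => (0 : ℂ) := by
    funext z; simp
  rw [h0]
  have h := G.germ_add (fun _ => (0 : ℂ)) (fun _ => (0 : ℂ)) (MeromorphicAt.const 0 x)
    (MeromorphicAt.const 0 x)
  have h1 : ((fun _ => (0 : ℂ)) + fun _ => (0 : ℂ)) = fun _ : ℂ => (0 : ℂ) := by
    funext z; simp
  rw [h1] at h
  exact left_eq_add.mp h

/-! ### The subalgebra `Rsub N` and extension to the function field -/

variable {N : ℕ} [NeZero N]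

local notation "Kbar" => AlgebraicClosure ℚ
set_option quotPrecheck false in
local notation "FN" => ↥(ModularCurve.modularFunctionFieldBar N)
set_option quotPrecheck false in
local notation "RN" => ↥(H23.Rsub N)

/-- `Γ₀(N)`-invariance of `Θ r` for every `r ∈ Rsub N`. -/
theorem theta_smul_Gamma0 (hS : H23.SeparationStatement N) {ι : Kbar →+* ℂ}
    {Θ : RN →+* (ℍ → ℂ)}
    (hc : ∀ c : Kbar, Θ (algebraMap Kbar RN c) = fun _ => ι c)
    (hj : ∀ (d : ℕ) (_ : NeZero d) (hd : d ∣ N) (h : H23.jBarD N d hd ∈ H23.Rsub N),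
      Θ ⟨H23.jBarD N d hd, h⟩ = fun z => H23.jfun (H23.scaleH d z))
    (r : RN) (β : SL(2, ℤ)) (hβ : β ∈ CongruenceSubgroup.Gamma0 N) (z : ℍ) :
    Θ r (β • z) = Θ r z := by
  obtain ⟨x, hx⟩ := r
  have key : ∀ (h : x ∈ H23.Rsub N) (z : ℍ), Θ ⟨x, h⟩ (β • z) = Θ ⟨x, h⟩ z := by
    refine Algebra.adjoin_induction
      (p := fun x _ => ∀ (h : x ∈ H23.Rsub N) (z : ℍ), Θ ⟨x, h⟩ (β • z) = Θ ⟨x, h⟩ z)
      ?_ ?_ ?_ ?_ hx
    · rintro x ⟨d, hd0, hd, rfl⟩ h z
      rw [hj d hd0 hd h]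
      exact hS.2 d hd0 hd β hβ z
    · intro c h z
      have : (⟨algebraMap Kbar FN c, h⟩ : RN) = algebraMap Kbar RN c := rfl
      rw [this, hc]
    · intro x y hx hy ihx ihy h z
      have : (⟨x + y, h⟩ : RN) = ⟨x, hx⟩ + ⟨y, hy⟩ := rfl
      rw [this, map_add, Pi.add_apply, Pi.add_apply, ihx hx z, ihy hy z]
    · intro x y hx hy ihx ihy h z
      have : (⟨x * y, h⟩ : RN) = ⟨x, hx⟩ * ⟨y, hy⟩ := rfl
      rw [this, map_mul, Pi.mul_apply, Pi.mul_apply, ihx hx z, ihy hy z]
  exact key hx z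

/-- The function field is the fraction field of `Rsub N` (given the last clause of the core
statement). -/
theorem isFractionRing_Rsub
    (hfrac : ∀ f : FN, ∃ r s : RN, s ≠ 0 ∧ f * (s : FN) = r) :
    IsFractionRing RN FN := by
  refine IsFractionRing.of_field RN FN ?_
  intro f
  obtain ⟨r, s, hs, hfs⟩ := hfrac f
  refine ⟨r, s, ?_⟩
  have hs' : (s : FN) ≠ 0 := fun h => hs (Subtype.ext h)
  change f = (r : FN) / (s : FN)
  rw [eq_div_iff hs', hfs]

/-- Extension of an injective ring hom on `Rsub N` to the function field. -/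
def extendHom (hfrac : ∀ f : FN, ∃ r s : RN, s ≠ 0 ∧ f * (s : FN) = r)
    {M : Type} [Field M] (g : RN →+* M) (hg : Function.Injective g) : FN →+* M :=
  haveI := isFractionRing_Rsub hfrac
  IsFractionRing.lift hg

theorem extendHom_coe (hfrac : ∀ f : FN, ∃ r s : RN, s ≠ 0 ∧ f * (s : FN) = r)
    {M : Type} [Field M] (g : RN →+* M) (hg : Function.Injective g) (r : RN) :
    extendHom hfrac g hg (r : FN) = g r := by
  have := isFractionRing_Rsub hfrac
  exact IsFractionRing.lift_algebraMap hg r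

theorem extendHom_algebraMap (hfrac : ∀ f : FN, ∃ r s : RN, s ≠ 0 ∧ f * (s : FN) = r)
    {M : Type} [Field M] (g : RN →+* M) (hg : Function.Injective g) (c : Kbar) :
    extendHom hfrac g hg (algebraMap Kbar FN c) = g (algebraMap Kbar RN c) :=
  extendHom_coe hfrac g hg (algebraMap Kbar RN c)

/-- Two ring homs on the function field agreeing on `Rsub N` are equal. -/
theorem ringHom_ext_Rsub (hfrac : ∀ f : FN, ∃ r s : RN, s ≠ 0 ∧ f * (s : FN) = r)
    {M : Type} [Field M] {σ σ' : FN →+* M} (h : ∀ r : RN, σ (r : FN) = σ' (r : FN)) :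
    σ = σ' := by
  ext f
  obtain ⟨r, s, hs, hfs⟩ := hfrac f
  have hs' : (s : FN) ≠ 0 := fun h => hs (Subtype.ext h)
  have h1 : σ f * σ (s : FN) = σ (r : FN) := by rw [← map_mul, hfs]
  have h2 : σ' f * σ' (s : FN) = σ' (r : FN) := by rw [← map_mul, hfs]
  have hs1 : σ (s : FN) ≠ 0 := (map_ne_zero σ).mpr hs'
  rw [h r, h s, ← h2] at h1
  rw [← h s] at h1
  exact mul_right_cancel₀ hs1 h1

/-- Transfer of equality of valuations from `Rsub N` to the function field. -/
theorem val_eq_of_val_eq_on_Rsub (hfrac : ∀ f : FN, ∃ r s : RN, s ≠ 0 ∧ f * (s : FN) = r)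
    {M : Type} [Field M] (v : AddValuation M (WithTop ℤ)) {σ σ' : FN →+* M}
    (h : ∀ r : RN, v (σ' (r : FN)) = v (σ (r : FN))) (f : FN) :
    v (σ' f) = v (σ f) := by
  obtain ⟨r, s, hs, hfs⟩ := hfrac f
  have hs' : (s : FN) ≠ 0 := fun h => hs (Subtype.ext h)
  have h1 : v (σ f) + v (σ (s : FN)) = v (σ (r : FN)) := by
    rw [← AddValuation.map_mul, ← map_mul, hfs]
  have h2 : v (σ' f) + v (σ' (s : FN)) = v (σ' (r : FN)) := by
    rw [← AddValuation.map_mul, ← map_mul, hfs]
  have hs1 : v (σ (s : FN)) ≠ ⊤ := by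
    rw [Ne, AddValuation.top_iff]
    exact (map_ne_zero σ).mpr hs'
  rw [h r, h s, ← h1] at h2
  exact (WithTop.add_right_inj hs1).mp h2

/-- Transfer of divisibility of valuations from `Rsub N` to the function field. -/
theorem val_dvd_of_val_dvd_on_Rsub (hfrac : ∀ f : FN, ∃ r s : RN, s ≠ 0 ∧ f * (s : FN) = r)
    {M : Type} [Field M] (v : AddValuation M (WithTop ℤ)) {σ : FN →+* M} (e : ℤ)
    (h : ∀ r : RN, r ≠ 0 → ∃ m : ℤ, v (σ (r : FN)) = ((e * m : ℤ) : WithTop ℤ))
    (f : FN) (hf : f ≠ 0) :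
    ∃ m : ℤ, v (σ f) = ((e * m : ℤ) : WithTop ℤ) := by
  obtain ⟨r, s, hs, hfs⟩ := hfrac f
  have hs' : (s : FN) ≠ 0 := fun h => hs (Subtype.ext h)
  have hr : r ≠ 0 := by
    intro hr
    rw [hr] at hfs
    exact (mul_ne_zero hf hs') hfs
  have h1 : v (σ f) + v (σ (s : FN)) = v (σ (r : FN)) := by
    rw [← AddValuation.map_mul, ← map_mul, hfs]
  obtain ⟨ms, hms⟩ := h s hs
  obtain ⟨mr, hmr⟩ := h r hr
  have hf1 : v (σ f) ≠ ⊤ := by
    rw [Ne, AddValuation.top_iff]
    exact (map_ne_zero σ).mpr hf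
  obtain ⟨n, hn⟩ := WithTop.ne_top_iff_exists.mp hf1
  rw [← hn, hms, hmr] at h1
  refine ⟨mr - ms, ?_⟩
  rw [← hn]
  have h2 : n + e * ms = e * mr := by exact_mod_cast h1
  have h3 : n = e * (mr - ms) := by linarith
  rw [h3]

end Fermat.Agent.H41

end
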