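/-
P-GENUS (S24) GEN-15: the analytic datum at the cusp.  helper41.
-/
import Fermat.Agent.H41.AnCommon
import Fermat.Agent.H62.SeparatingForm

set_option autoImplicit false

noncomputable section

open UpperHalfPlane ModularForm CongruenceSubgroup
open scoped MatrixGroups Manifold Topology ModularForm Pointwise

namespace Fermat.Agent.H41

local notation "𝕢" => Function.Periodic.qParam

/-! ### The analytic `j`-function -/

/-- `SL(2,ℤ)`-invariance of `j`. -/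
theorem jfun_smul (γ : SL(2, ℤ)) (z : ℍ) : H23.jfun (γ • z) = H23.jfun z := by
  have hmem : (γ : GL (Fin 2) ℝ) ∈ 𝒮ℒ := ⟨γ, rfl⟩
  have h4 : E₄ (γ • z) = denom (γ : GL (Fin 2) ℝ) z ^ (4 : ℤ) * E₄ z :=
    SlashInvariantForm.slash_action_eqn'' E₄ hmem z
  have h12 : CuspForm.discriminant (γ • z) =
      denom (γ : GL (Fin 2) ℝ) z ^ (12 : ℤ) * CuspForm.discriminant z :=
    SlashInvariantForm.slash_action_eqn'' CuspForm.discriminant hmem z
  have hden : denom (γ : GL (Fin 2) ℝ) z ≠ 0 := denom_ne_zero _ z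
  have hΔ : ModularForm.discriminant z ≠ 0 := ModularForm.discriminant_ne_zero z
  unfold H23.jfun
  rw [CuspForm.coe_discriminant] at h12
  rw [h4, h12]
  field_simp

/-! ### Conjugates of `Γ₀(d)` contain `Γ(N)` -/

theorem Gamma_le_Gamma0_of_dvd {N d : ℕ} (hd : d ∣ N) : Gamma N ≤ Gamma0 d := by
  intro A hA
  rw [Gamma_mem] at hA
  rw [Gamma0_mem]
  have h1 : (N : ℤ) ∣ A 1 0 := (ZMod.intCast_zmod_eq_zero_iff_dvd _ _).mp hA.2.2.1
  have h2 : (d : ℤ) ∣ A 1 0 := dvd_trans (Int.natCast_dvd_natCast.mpr hd) h1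
  exact (ZMod.intCast_zmod_eq_zero_iff_dvd _ _).mpr h2

theorem Gamma_le_conj_Gamma0 {N d : ℕ} (hd : d ∣ N) (γ : SL(2, ℤ)) :
    ((Gamma N : Subgroup SL(2, ℤ)) : Subgroup (GL (Fin 2) ℝ)) ≤
      ConjAct.toConjAct ((γ : GL (Fin 2) ℝ))⁻¹ •
        ((Gamma0 d : Subgroup SL(2, ℤ)) : Subgroup (GL (Fin 2) ℝ)) := by
  rintro _ ⟨δ, hδ, rfl⟩
  rw [Subgroup.mem_pointwise_smul_iff_inv_smul_mem, ← ConjAct.toConjAct_inv, inv_inv,
    ConjAct.toConjAct_smul]
  refine ⟨γ * δ * γ⁻¹, ?_, ?_⟩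
  · exact Gamma_le_Gamma0_of_dvd hd ((Gamma_normal N).conj_mem δ hδ γ)
  · rw [map_mul, map_mul, map_inv]
    rfl

theorem natCast_mem_strictPeriods_conj {N d : ℕ} (hd : d ∣ N) (γ : SL(2, ℤ)) :
    (N : ℝ) ∈ (ConjAct.toConjAct ((γ : GL (Fin 2) ℝ))⁻¹ •
        ((Gamma0 d : Subgroup SL(2, ℤ)) : Subgroup (GL (Fin 2) ℝ))).strictPeriods := by
  have h1 : (N : ℝ) ∈ ((Gamma N : Subgroup SL(2, ℤ)) : Subgroup (GL (Fin 2) ℝ)).strictPeriods := by
    rw [strictPeriods_Gamma]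
    exact AddSubgroup.mem_zmultiples _
  rw [Subgroup.mem_strictPeriods_iff] at h1 ⊢
  exact Gamma_le_conj_Gamma0 hd γ h1

/-! ### Meromorphy at the cusp of `t ↦ j(d γ z(t))` -/

/-- The point of `ℍ` with `q^{1/N}`-parameter `t` (junk unless `0 < ‖t‖ < 1`). -/
def cuspPt (N : ℕ) (t : ℂ) : ℍ := ofComplex (Function.Periodic.invQParam N t)

theorem cuspFunction_eq_cuspPt (N : ℕ) (f : ℍ → ℂ) {t : ℂ} (ht : t ≠ 0) :
    cuspFunction N f t = f (cuspPt N t) := by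
  unfold UpperHalfPlane.cuspFunction
  rw [Function.Periodic.cuspFunction_eq_of_nonzero _ _ ht]
  rfl

theorem scaleH_eq (d : ℕ) [NeZero d] (w : ℍ) : H23.scaleH d w = heckeDiagMatrix d • w := by
  apply UpperHalfPlane.ext
  rw [H62.coe_heckeDiagMatrix_smul']
  rfl

/-- The discriminant as a modular form of level one. -/
def discForm : ModularForm 𝒮ℒ 12 := (CuspForm.discriminant : ModularForm 𝒮ℒ 12)

theorem discForm_apply (z : ℍ) : discForm z = ModularForm.discriminant z := rfl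

theorem jfun_scaleH_eq (d : ℕ) [NeZero d] (w : ℍ) :
    H23.jfun (H23.scaleH d w) = (H62.dilate d E₄ w) ^ 3 / (H62.dilate d discForm w) := by
  rw [H62.dilate_apply, H62.dilate_apply, ← scaleH_eq]
  rfl

theorem jfun_scaleH_smul_eq (d : ℕ) [NeZero d] (γ : SL(2, ℤ)) (w : ℍ) :
    H23.jfun (H23.scaleH d (γ • w)) =
      (ModularForm.translate (H62.dilate d E₄) (γ : GL (Fin 2) ℝ) w) ^ 3 /
        (ModularForm.translate (H62.dilate d discForm) (γ : GL (Fin 2) ℝ) w) := by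
  have hden : denom (γ : GL (Fin 2) ℝ) w ≠ 0 := denom_ne_zero _ w
  have h1 : ModularForm.translate (H62.dilate d E₄) (γ : GL (Fin 2) ℝ) w =
      H62.dilate d E₄ (γ • w) * denom (γ : GL (Fin 2) ℝ) w ^ (-(4 : ℤ)) := by
    rw [ModularForm.coe_translate]
    exact ModularForm.SL_slash_apply (k := 4) (⇑(H62.dilate d E₄)) γ w
  have h2 : ModularForm.translate (H62.dilate d discForm) (γ : GL (Fin 2) ℝ) w =
      H62.dilate d discForm (γ • w) * denom (γ : GL (Fin 2) ℝ) w ^ (-(12 : ℤ)) := by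
    rw [ModularForm.coe_translate]
    exact ModularForm.SL_slash_apply (k := 12) (⇑(H62.dilate d discForm)) γ w
  rw [h1, h2, jfun_scaleH_eq]
  have hΔ : H62.dilate d discForm (γ • w) ≠ 0 := by
    rw [H62.dilate_apply]
    exact ModularForm.discriminant_ne_zero _
  field_simp

theorem meromorphicAt_jfun_scaleH_smul {N d : ℕ} [NeZero N] [NeZero d] (hd : d ∣ N)
    (γ : SL(2, ℤ)) :
    MeromorphicAt (fun t => H23.jfun (H23.scaleH d (γ • cuspPt N t))) 0 := by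
  have hN : (0 : ℝ) < N := by exact_mod_cast Nat.pos_of_ne_zero (NeZero.ne N)
  have ha : AnalyticAt ℂ
      (cuspFunction N (ModularForm.translate (H62.dilate d E₄) (γ : GL (Fin 2) ℝ))) 0 :=
    ModularFormClass.analyticAt_cuspFunction_zero _ hN (natCast_mem_strictPeriods_conj hd γ)
  have hb : AnalyticAt ℂ
      (cuspFunction N (ModularForm.translate (H62.dilate d discForm) (γ : GL (Fin 2) ℝ))) 0 :=
    ModularFormClass.analyticAt_cuspFunction_zero _ hN (natCast_mem_strictPeriods_conj hd γ)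
  have hmer : MeromorphicAt (fun t =>
      (cuspFunction N (ModularForm.translate (H62.dilate d E₄) (γ : GL (Fin 2) ℝ)) t) ^ 3 /
        cuspFunction N (ModularForm.translate (H62.dilate d discForm) (γ : GL (Fin 2) ℝ)) t) 0 :=
    (ha.meromorphicAt.pow 3).div hb.meromorphicAt
  refine hmer.congr ?_
  filter_upwards [self_mem_nhdsWithin] with t ht
  rw [cuspFunction_eq_cuspPt N _ ht, cuspFunction_eq_cuspPt N _ ht, jfun_scaleH_smul_eq]

/-! ### The order of `j` at the cusp -/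

theorem coe_cuspPt {N : ℕ} [NeZero N] {t : ℂ} (ht0 : t ≠ 0) (ht1 : ‖t‖ < 1) :
    (cuspPt N t : ℂ) = Function.Periodic.invQParam N t := by
  have hN : (0 : ℝ) < N := by exact_mod_cast Nat.pos_of_ne_zero (NeZero.ne N)
  have him := Function.Periodic.im_invQParam_pos_of_norm_lt_one hN ht1 ht0
  unfold cuspPt
  rw [ofComplex_apply_of_im_pos him]

theorem qParam_cuspPt {N : ℕ} [NeZero N] {t : ℂ} (ht0 : t ≠ 0) (ht1 : ‖t‖ < 1) :
    𝕢 N (cuspPt N t : ℂ) = t := by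
  have hN : (N : ℝ) ≠ 0 := by exact_mod_cast NeZero.ne N
  rw [coe_cuspPt ht0 ht1, Function.Periodic.qParam_right_inv hN ht0]

theorem qParam_one_eq_pow (N : ℕ) [NeZero N] (z : ℂ) : 𝕢 1 z = (𝕢 N z) ^ N := by
  have hN : (N : ℂ) ≠ 0 := by exact_mod_cast NeZero.ne N
  simp only [Function.Periodic.qParam, ← Complex.exp_nat_mul]
  congr 1
  push_cast
  field_simp

theorem qParam_one_cuspPt {N : ℕ} [NeZero N] {t : ℂ} (ht0 : t ≠ 0) (ht1 : ‖t‖ < 1) :
    𝕢 1 (cuspPt N t : ℂ) = t ^ N := by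
  rw [qParam_one_eq_pow N, qParam_cuspPt ht0 ht1]

/-- `j(z(t)) = t^(-N) * g(t)` with `g` analytic and `g 0 = 1`. -/
theorem exists_jfun_cuspPt_eq (N : ℕ) [NeZero N] :
    ∃ g : ℂ → ℂ, AnalyticAt ℂ g 0 ∧ g 0 ≠ 0 ∧
      ∀ᶠ t in 𝓝[≠] (0 : ℂ), H23.jfun (cuspPt N t) = (t - 0) ^ (-(N : ℤ)) • g t := by
  have hN0 : N ≠ 0 := NeZero.ne N
  set A : ℂ → ℂ := cuspFunction 1 E₄ with hA
  set P : ℂ → ℂ := fun q => ∏' i : ℕ, (1 - q ^ (i + 1)) ^ 24 with hP
  have hAan : AnalyticAt ℂ A 0 :=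
    ModularFormClass.analyticAt_cuspFunction_zero E₄ one_pos one_mem_strictPeriods_SL
  have hA0 : A 0 = 1 := by
    have h := EisensteinSeries.E_qExpansion_coeff_zero (k := 4) (by norm_num) ⟨2, rfl⟩
    have h2 : (qExpansion 1 E₄).coeff 0 = A 0 := by
      simp [qExpansion_coeff, hA]
    rw [← h2]
    exact h
  have hPan : AnalyticAt ℂ P 0 :=
    (differentiableOn_tprod_one_sub_pow_pow 24).analyticAt
      (Metric.ball_mem_nhds (0 : ℂ) one_pos)
  have hP0 : P 0 = 1 := by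
    simp [hP]
  have hpow : AnalyticAt ℂ (fun t : ℂ => t ^ N) 0 := analyticAt_id.pow N
  have hpow0 : (fun t : ℂ => t ^ N) 0 = 0 := by simp [hN0]
  have hA' : AnalyticAt ℂ (fun t : ℂ => A (t ^ N)) 0 := by
    have : AnalyticAt ℂ A ((fun t : ℂ => t ^ N) 0) := by rw [hpow0]; exact hAan
    exact AnalyticAt.comp (g := A) (f := fun t : ℂ => t ^ N) this hpow
  have hP' : AnalyticAt ℂ (fun t : ℂ => P (t ^ N)) 0 := by
    have : AnalyticAt ℂ P ((fun t : ℂ => t ^ N) 0) := by rw [hpow0]; exact hPan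
    exact AnalyticAt.comp (g := P) (f := fun t : ℂ => t ^ N) this hpow
  have hP'0 : (fun t : ℂ => P (t ^ N)) 0 ≠ 0 := by
    simp only [zero_pow hN0, hP0]
    exact one_ne_zero
  refine ⟨fun t => A (t ^ N) ^ 3 / P (t ^ N), (hA'.pow 3).div hP' hP'0, ?_, ?_⟩
  · simp only [zero_pow hN0, hA0, hP0]
    norm_num
  · have hball : Metric.ball (0 : ℂ) 1 ∈ 𝓝 (0 : ℂ) := Metric.ball_mem_nhds _ one_pos
    filter_upwards [self_mem_nhdsWithin, nhdsWithin_le_nhds hball] with t ht0 ht1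
    have ht0' : t ≠ 0 := ht0
    have ht1' : ‖t‖ < 1 := by simpa using ht1
    have hq := qParam_one_cuspPt (N := N) ht0' ht1'
    have hE : E₄ (cuspPt N t) = A (t ^ N) := by
      rw [hA, ← hq]
      exact (SlashInvariantFormClass.eq_cuspFunction E₄ (cuspPt N t)
        one_mem_strictPeriods_SL one_ne_zero).symm
    have hD : ModularForm.discriminant (cuspPt N t) = t ^ N * P (t ^ N) := by
      rw [ModularForm.discriminant_eq_q_prod, hq]
      simp only [hP, ModularForm.eta_q, hq]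
    unfold H23.jfun
    rw [hE, hD]
    simp only [sub_zero, smul_eq_mul, zpow_neg, zpow_natCast]
    rw [div_eq_mul_inv, mul_inv, div_eq_mul_inv]
    ring

/-! ### The parameter `t = q^{1/N}` and translations -/

theorem exists_cuspPt_qParam (N : ℕ) [NeZero N] (z : ℍ) :
    ∃ m : ℤ, cuspPt N (𝕢 N z) = ModularGroup.T ^ (m * (N : ℤ)) • z := by
  have hN : (N : ℝ) ≠ 0 := by exact_mod_cast NeZero.ne N
  have hNpos : (0 : ℝ) < N := by exact_mod_cast Nat.pos_of_ne_zero (NeZero.ne N)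
  obtain ⟨m, hm⟩ := Function.Periodic.qParam_left_inv_mod_period hN (z : ℂ)
  refine ⟨m, ?_⟩
  rw [modular_T_zpow_smul]
  apply UpperHalfPlane.ext
  rw [coe_cuspPt (Function.Periodic.qParam_ne_zero _)
    (Function.Periodic.norm_qParam_lt_one hNpos z.im_pos), hm, coe_vadd]
  push_cast
  ring

theorem qParam_T_zpow_smul (N : ℕ) [NeZero N] (k : ℤ) (z : ℍ) :
    𝕢 N ((ModularGroup.T ^ k • z : ℍ) : ℂ) = 𝕢 N (k : ℂ) * 𝕢 N z := by
  rw [modular_T_zpow_smul, coe_vadd]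
  simp only [Function.Periodic.qParam, ← Complex.exp_add]
  congr 1
  push_cast
  ring

theorem exists_im_of_eventually_nhdsNE (N : ℕ) [NeZero N] {P : ℂ → Prop}
    (h : ∀ᶠ t in 𝓝[≠] (0 : ℂ), P t) : ∃ R : ℝ, ∀ z : ℍ, R < z.im → P (𝕢 N z) := by
  have hNpos : (0 : ℝ) < N := by exact_mod_cast Nat.pos_of_ne_zero (NeZero.ne N)
  have h1 := (Function.Periodic.qParam_tendsto hNpos).eventually h
  rw [Filter.eventually_comap, Filter.eventually_atTop] at h1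
  obtain ⟨R, hR⟩ := h1
  exact ⟨R, fun z hz => hR z.im hz.le (z : ℂ) rfl⟩

theorem eventually_nhdsNE_of_forall {P : ℂ → Prop}
    (h : ∀ t : ℂ, t ≠ 0 → ‖t‖ < 1 → P t) : ∀ᶠ t in 𝓝[≠] (0 : ℂ), P t := by
  have hball : Metric.ball (0 : ℂ) 1 ∈ 𝓝 (0 : ℂ) := Metric.ball_mem_nhds _ one_pos
  filter_upwards [self_mem_nhdsWithin, nhdsWithin_le_nhds hball] with t ht0 ht1
  exact h t ht0 (by simpa using ht1)

/-- If `exp(2πi k / N) ^ n = 1` then `N / gcd(N, k)` divides `n`. -/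
theorem dvd_of_qParam_zpow_eq_one (N : ℕ) [NeZero N] (k : ℕ) (n : ℤ)
    (h : (𝕢 N ((k : ℤ) : ℂ)) ^ n = 1) : ((N / Nat.gcd N k : ℕ) : ℤ) ∣ n := by
  have hN0 : N ≠ 0 := NeZero.ne N
  have hNC : (N : ℂ) ≠ 0 := by exact_mod_cast hN0
  unfold Function.Periodic.qParam at h
  rw [← Complex.exp_int_mul, Complex.exp_eq_one_iff] at h
  obtain ⟨m, hm⟩ := h
  have hpi : (2 * (Real.pi : ℂ) * Complex.I) ≠ 0 := by
    simp [Real.pi_ne_zero]
  have h1 : ((n * k : ℤ) : ℂ) = ((m * N : ℤ) : ℂ) := by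
    push_cast
    have h2 : (n : ℂ) * (2 * Real.pi * Complex.I * ((k : ℤ) : ℂ) / ((N : ℝ) : ℂ)) * (N : ℂ) =
        (m : ℂ) * (2 * Real.pi * Complex.I) * (N : ℂ) := by rw [hm]
    have h3 : (2 * (Real.pi : ℂ) * Complex.I) * ((n : ℂ) * (k : ℂ)) =
        (2 * (Real.pi : ℂ) * Complex.I) * ((m : ℂ) * (N : ℂ)) := by
      have h4 : (n : ℂ) * (2 * Real.pi * Complex.I * ((k : ℤ) : ℂ) / ((N : ℝ) : ℂ)) * (N : ℂ) =
          (2 * (Real.pi : ℂ) * Complex.I) * ((n : ℂ) * (k : ℂ)) := by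
        push_cast
        field_simp
      rw [← h4, h2]
      ring
    exact mul_left_cancel₀ hpi h3
  have h5 : n * (k : ℤ) = m * (N : ℤ) := by exact_mod_cast h1
  have hg : 0 < Nat.gcd N k := Nat.gcd_pos_of_pos_left k (Nat.pos_of_ne_zero hN0)
  have hgZ : ((Nat.gcd N k : ℕ) : ℤ) ≠ 0 := by exact_mod_cast hg.ne'
  have hNg : ((N / Nat.gcd N k : ℕ) : ℤ) * (Nat.gcd N k : ℤ) = (N : ℤ) := by
    exact_mod_cast Nat.div_mul_cancel (Nat.gcd_dvd_left N k)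
  have hkg : ((k / Nat.gcd N k : ℕ) : ℤ) * (Nat.gcd N k : ℤ) = (k : ℤ) := by
    exact_mod_cast Nat.div_mul_cancel (Nat.gcd_dvd_right N k)
  have hcop : IsCoprime ((N / Nat.gcd N k : ℕ) : ℤ) ((k / Nat.gcd N k : ℕ) : ℤ) :=
    Nat.isCoprime_iff_coprime.mpr (Nat.coprime_div_gcd_div_gcd hg)
  refine hcop.dvd_of_dvd_mul_left ?_
  refine Int.dvd_of_mul_dvd_mul_right hgZ ?_
  refine ⟨m, ?_⟩
  calc ((k / Nat.gcd N k : ℕ) : ℤ) * n * (Nat.gcd N k : ℤ)
      = n * (((k / Nat.gcd N k : ℕ) : ℤ) * (Nat.gcd N k : ℤ)) := by ring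
    _ = n * (k : ℤ) := by rw [hkg]
    _ = m * (N : ℤ) := h5
    _ = m * (((N / Nat.gcd N k : ℕ) : ℤ) * (Nat.gcd N k : ℤ)) := by rw [hNg]
    _ = ((N / Nat.gcd N k : ℕ) : ℤ) * (Nat.gcd N k : ℤ) * m := by ring

/-! ### The construction -/

variable {N : ℕ} [NeZero N]

local notation "Kbar" => AlgebraicClosure ℚ
set_option quotPrecheck false in
local notation "FN" => ↥(ModularCurve.modularFunctionFieldBar N)
set_option quotPrecheck false in
local notation "RN" => ↥(H23.Rsub N)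

/-- The data provided by the core statement and the separation statement. -/
structure CoreData (N : ℕ) [NeZero N] where
  ι : AlgebraicClosure ℚ →+* ℂ
  Θ : ↥(H23.Rsub N) →+* (ℍ → ℂ)
  inj : Function.Injective Θ
  md : ∀ r, MDiff (Θ r)
  const : ∀ c : AlgebraicClosure ℚ,
    Θ (algebraMap (AlgebraicClosure ℚ) ↥(H23.Rsub N) c) = fun _ => ι c
  jd : ∀ (d : ℕ) (_ : NeZero d) (hd : d ∣ N) (h : H23.jBarD N d hd ∈ H23.Rsub N),
    Θ ⟨H23.jBarD N d hd, h⟩ = fun z => H23.jfun (H23.scaleH d z)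
  frac : ∀ f : ↥(ModularCurve.modularFunctionFieldBar N), ∃ r s : ↥(H23.Rsub N), s ≠ 0 ∧
    f * (s : ↥(ModularCurve.modularFunctionFieldBar N)) = r
  sep : H23.SeparationStatement N

namespace CoreData

variable (D : CoreData N)

theorem smul_Gamma0 (r : RN) (β : SL(2, ℤ)) (hβ : β ∈ Gamma0 N) (z : ℍ) :
    D.Θ r (β • z) = D.Θ r z :=
  theta_smul_Gamma0 D.sep D.const D.jd r β hβ z

/-- The function of `t = q^{1/N}` attached to `r ∈ Rsub N` and `γ`. -/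
def Hfun (γ : SL(2, ℤ)) (r : RN) (t : ℂ) : ℂ := D.Θ r (γ⁻¹ • cuspPt N t)

theorem Hfun_add (γ : SL(2, ℤ)) (r s : RN) : D.Hfun γ (r + s) = D.Hfun γ r + D.Hfun γ s := by
  funext t
  simp [Hfun]

theorem Hfun_mul (γ : SL(2, ℤ)) (r s : RN) : D.Hfun γ (r * s) = D.Hfun γ r * D.Hfun γ s := by
  funext t
  simp [Hfun]

theorem Hfun_one (γ : SL(2, ℤ)) : D.Hfun γ 1 = fun _ => 1 := by
  funext t
  simp [Hfun]

theorem Hfun_const (γ : SL(2, ℤ)) (c : Kbar) :
    D.Hfun γ (algebraMap Kbar RN c) = fun _ => D.ι c := by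
  funext t
  simp [Hfun, D.const]

theorem Hfun_jd (γ : SL(2, ℤ)) (d : ℕ) [hd0 : NeZero d] (hd : d ∣ N)
    (h : H23.jBarD N d hd ∈ H23.Rsub N) :
    D.Hfun γ ⟨H23.jBarD N d hd, h⟩ = fun t => H23.jfun (H23.scaleH d (γ⁻¹ • cuspPt N t)) := by
  funext t
  simp [Hfun, D.jd d hd0 hd h]

theorem Hfun_qParam (γ : SL(2, ℤ)) (r : RN) (z : ℍ) :
    D.Hfun γ r (𝕢 N z) = D.Θ r (γ⁻¹ • z) := by
  obtain ⟨m, hm⟩ := exists_cuspPt_qParam N z
  unfold Hfun
  rw [hm]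
  have hmem : γ⁻¹ * ModularGroup.T ^ (m * (N : ℤ)) * γ ∈ Gamma0 N := by
    refine Gamma_le_Gamma0_of_dvd (dvd_refl N) ?_
    have h1 : ModularGroup.T ^ (m * (N : ℤ)) ∈ Gamma N := by
      simpa using ModularGroup_T_pow_mem_Gamma N (m * (N : ℤ)) (dvd_mul_left _ _)
    have := (Gamma_normal N).conj_mem _ h1 γ⁻¹
    simpa using this
  have : γ⁻¹ • ModularGroup.T ^ (m * (N : ℤ)) • z =
      (γ⁻¹ * ModularGroup.T ^ (m * (N : ℤ)) * γ) • (γ⁻¹ • z) := by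
    rw [← mul_smul, ← mul_smul]
    congr 1
    group
  rw [this, D.smul_Gamma0 r _ hmem]

theorem Hfun_qParam_mul (γ : SL(2, ℤ)) (r : RN) (k : ℤ) {t : ℂ} (ht0 : t ≠ 0) (ht1 : ‖t‖ < 1) :
    D.Hfun γ r (𝕢 N (k : ℂ) * t) = D.Θ r (γ⁻¹ • ModularGroup.T ^ k • cuspPt N t) := by
  have h := D.Hfun_qParam γ r (ModularGroup.T ^ k • cuspPt N t)
  rw [qParam_T_zpow_smul, qParam_cuspPt ht0 ht1] at h
  exact h

/-- Germs at the cusp are equal iff the functions on `ℍ` are. -/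
theorem Hfun_eventuallyEq_iff (γ γ' : SL(2, ℤ)) (r r' : RN) :
    D.Hfun γ r =ᶠ[𝓝[≠] (0 : ℂ)] D.Hfun γ' r' ↔
      ∀ z : ℍ, D.Θ r (γ⁻¹ • z) = D.Θ r' (γ'⁻¹ • z) := by
  constructor
  · intro h
    obtain ⟨R, hR⟩ := exists_im_of_eventually_nhdsNE N h
    have h1 : (fun z : ℍ => D.Θ r (γ⁻¹ • z)) = fun z : ℍ => D.Θ r' (γ'⁻¹ • z) := by
      refine eq_of_mdiff_of_forall_im_gt (mdiff_comp_smul (D.md r) γ⁻¹)
        (mdiff_comp_smul (D.md r') γ'⁻¹) R ?_
      intro z hz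
      have := hR z hz
      rwa [D.Hfun_qParam, D.Hfun_qParam] at this
    exact fun z => congrFun h1 z
  · intro h
    exact Filter.Eventually.of_forall fun t => h (cuspPt N t)

theorem meromorphicAt_Hfun (γ : SL(2, ℤ)) (r : RN) : MeromorphicAt (D.Hfun γ r) 0 := by
  obtain ⟨x, hx⟩ := r
  have key : ∀ (h : x ∈ H23.Rsub N), MeromorphicAt (D.Hfun γ ⟨x, h⟩) 0 := by
    refine Algebra.adjoin_induction
      (p := fun x _ => ∀ (h : x ∈ H23.Rsub N), MeromorphicAt (D.Hfun γ ⟨x, h⟩) 0)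
      ?_ ?_ ?_ ?_ hx
    · rintro x ⟨d, hd0, hd, rfl⟩ h
      rw [D.Hfun_jd γ d hd h]
      exact meromorphicAt_jfun_scaleH_smul hd γ⁻¹
    · intro c h
      have : (⟨algebraMap Kbar FN c, h⟩ : RN) = algebraMap Kbar RN c := rfl
      rw [this, D.Hfun_const]
      exact MeromorphicAt.const _ _
    · intro x y hx hy ihx ihy h
      have : (⟨x + y, h⟩ : RN) = ⟨x, hx⟩ + ⟨y, hy⟩ := rfl
      rw [this, D.Hfun_add]
      exact (ihx hx).add (ihy hy)
    · intro x y hx hy ihx ihy h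
      have : (⟨x * y, h⟩ : RN) = ⟨x, hx⟩ * ⟨y, hy⟩ := rfl
      rw [this, D.Hfun_mul]
      exact (ihx hx).mul (ihy hy)
  exact key hx

variable (G : H23.MerGermField (0 : ℂ))

/-- The embedding of `Rsub N` into germs at the cusp attached to `γ`. -/
def sigma₀ (γ : SL(2, ℤ)) : RN →+* G.M :=
  germHom G (D.Hfun γ) (D.meromorphicAt_Hfun γ) (D.Hfun_add γ) (D.Hfun_mul γ) (D.Hfun_one γ)

theorem sigma₀_apply (γ : SL(2, ℤ)) (r : RN) : D.sigma₀ G γ r = G.germ (D.Hfun γ r) := rfl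

theorem sigma₀_eq_iff (γ γ' : SL(2, ℤ)) (r r' : RN) :
    D.sigma₀ G γ r = D.sigma₀ G γ' r' ↔ ∀ z : ℍ, D.Θ r (γ⁻¹ • z) = D.Θ r' (γ'⁻¹ • z) := by
  rw [sigma₀_apply, sigma₀_apply,
    G.germ_eq_iff _ _ (D.meromorphicAt_Hfun γ r) (D.meromorphicAt_Hfun γ' r'),
    D.Hfun_eventuallyEq_iff]

theorem sigma₀_injective (γ : SL(2, ℤ)) : Function.Injective (D.sigma₀ G γ) := by
  intro r r' h
  rw [sigma₀_eq_iff] at h
  apply D.inj
  funext z
  have := h (γ • z)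
  rwa [inv_smul_smul] at this

/-- The embedding of the function field into germs at the cusp attached to `γ`. -/
def sigma (γ : SL(2, ℤ)) : FN →+* G.M :=
  extendHom D.frac (D.sigma₀ G γ) (D.sigma₀_injective G γ)

theorem sigma_coe (γ : SL(2, ℤ)) (r : RN) : D.sigma G γ (r : FN) = D.sigma₀ G γ r :=
  extendHom_coe D.frac _ _ r

theorem sigma_algebraMap (γ : SL(2, ℤ)) (c : Kbar) :
    D.sigma G γ (algebraMap Kbar FN c) = G.germ (fun _ => D.ι c) := by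
  rw [sigma, extendHom_algebraMap, sigma₀_apply, D.Hfun_const]

theorem sigma_eq_iff (γ γ' : SL(2, ℤ)) :
    D.sigma G γ = D.sigma G γ' ↔ γ⁻¹ * γ' ∈ Gamma0 N := by
  constructor
  · intro h
    have hmemJ : H23.jBarD N N (dvd_refl N) ∈ H23.Rsub N :=
      Algebra.subset_adjoin ⟨N, inferInstance, dvd_refl N, rfl⟩
    have h1 : D.sigma₀ G γ ⟨_, hmemJ⟩ = D.sigma₀ G γ' ⟨_, hmemJ⟩ := by
      rw [← sigma_coe, ← sigma_coe, h]
    rw [sigma₀_eq_iff, D.jd N inferInstance (dvd_refl N) hmemJ] at h1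
    refine D.sep.1 _ fun z => ?_
    have := h1 (γ' • z)
    simp only [inv_smul_smul] at this
    rw [mul_smul]
    exact this
  · intro h
    refine ringHom_ext_Rsub D.frac fun r => ?_
    rw [sigma_coe, sigma_coe, sigma₀_eq_iff]
    intro z
    have : γ⁻¹ • z = (γ⁻¹ * γ') • (γ'⁻¹ • z) := by
      rw [← mul_smul]
      congr 1
      group
    rw [this, D.smul_Gamma0 r _ h]

theorem jBar_eq : H23.jBar N = H23.jBarD N 1 (one_dvd N) := by
  apply Subtype.ext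
  simp only [H23.jBar, H23.jBarD, ModularCurve.qExpand_one_apply]

theorem jBar_mem : H23.jBar N ∈ H23.Rsub N := by
  rw [jBar_eq]
  exact Algebra.subset_adjoin ⟨1, inferInstance, one_dvd N, rfl⟩

theorem scaleH_one (z : ℍ) : H23.scaleH 1 z = z := by
  apply UpperHalfPlane.ext
  simp [H23.scaleH]

theorem Hfun_jBar (γ : SL(2, ℤ)) :
    D.Hfun γ ⟨H23.jBar N, jBar_mem⟩ = fun t => H23.jfun (cuspPt N t) := by
  have hmem1 : H23.jBarD N 1 (one_dvd N) ∈ H23.Rsub N :=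
    Algebra.subset_adjoin ⟨1, inferInstance, one_dvd N, rfl⟩
  have h1 : (⟨H23.jBar N, jBar_mem⟩ : RN) = ⟨H23.jBarD N 1 (one_dvd N), hmem1⟩ :=
    Subtype.ext jBar_eq
  rw [h1, D.Hfun_jd γ 1 (one_dvd N) hmem1]
  funext t
  rw [scaleH_one, jfun_smul]

theorem sigma_jBar (γ : SL(2, ℤ)) :
    D.sigma G γ (H23.jBar N) = G.germ (fun t => H23.jfun (cuspPt N t)) := by
  have := D.sigma_coe G γ ⟨H23.jBar N, jBar_mem⟩
  rw [sigma₀_apply, D.Hfun_jBar] at this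
  exact this

theorem meromorphicAt_jfun_cuspPt : MeromorphicAt (fun t => H23.jfun (cuspPt N t)) 0 := by
  obtain ⟨g, hg, -, hev⟩ := exists_jfun_cuspPt_eq N
  have h1 : MeromorphicAt (fun t : ℂ => (t - 0) ^ (-(N : ℤ)) • g t) 0 :=
    (((MeromorphicAt.id (0 : ℂ)).sub (MeromorphicAt.const 0 0)).zpow _).smul hg.meromorphicAt
  exact h1.congr (hev.mono fun t ht => ht.symm)

theorem val_sigma_jBar (γ : SL(2, ℤ)) :
    G.val (D.sigma G γ (H23.jBar N)) = ((-(N : ℤ) : ℤ) : WithTop ℤ) := by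
  rw [sigma_jBar, G.val_germ _ meromorphicAt_jfun_cuspPt]
  exact (meromorphicOrderAt_eq_int_iff meromorphicAt_jfun_cuspPt).mpr (exists_jfun_cuspPt_eq N)

theorem val_sigma_jBar_inv (γ : SL(2, ℤ)) :
    G.val (D.sigma G γ (H23.jBar N)⁻¹) = (((N : ℕ) : ℤ) : WithTop ℤ) := by
  rw [map_inv₀, AddValuation.map_inv, val_sigma_jBar,
    ← WithTop.LinearOrderedAddCommGroup.coe_neg, neg_neg]

theorem val_sigma₀_T_mul (γ : SL(2, ℤ)) (r : RN) :
    G.val (D.sigma₀ G (ModularGroup.T * γ) r) = G.val (D.sigma₀ G γ r) := by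
  rw [sigma₀_apply, sigma₀_apply, G.val_germ _ (D.meromorphicAt_Hfun _ r),
    G.val_germ _ (D.meromorphicAt_Hfun _ r)]
  have hc : 𝕢 N (((-1 : ℤ) : ℤ) : ℂ) ≠ 0 := Function.Periodic.qParam_ne_zero _
  have hev : D.Hfun (ModularGroup.T * γ) r =ᶠ[𝓝[≠] (0 : ℂ)]
      fun t => D.Hfun γ r (𝕢 N (((-1 : ℤ) : ℤ) : ℂ) * t) := by
    refine eventually_nhdsNE_of_forall fun t ht0 ht1 => ?_
    beta_reduce
    rw [D.Hfun_qParam_mul γ r (-1) ht0 ht1, zpow_neg_one]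
    unfold Hfun
    rw [mul_inv_rev, mul_smul]
  rw [meromorphicOrderAt_congr hev, meromorphicOrderAt_comp_mul_left hc]

theorem val_sigma₀_dvd (γ : SL(2, ℤ)) (k : ℕ)
    (hk : γ⁻¹ * ModularGroup.T ^ k * γ ∈ Gamma0 N) (r : RN) (hr : r ≠ 0) :
    ∃ m : ℤ, G.val (D.sigma₀ G γ r) =
      ((((N / Nat.gcd N k : ℕ) : ℤ) * m : ℤ) : WithTop ℤ) := by
  have hne : D.sigma₀ G γ r ≠ 0 := by
    intro h
    exact hr (D.sigma₀_injective G γ (by rw [h, map_zero]))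
  have hval : G.val (D.sigma₀ G γ r) ≠ ⊤ := by
    rw [Ne, AddValuation.top_iff]
    exact hne
  obtain ⟨n, hn⟩ := WithTop.ne_top_iff_exists.mp hval
  have hord : meromorphicOrderAt (D.Hfun γ r) 0 = (n : WithTop ℤ) := by
    rw [← G.val_germ _ (D.meromorphicAt_Hfun γ r), ← sigma₀_apply, ← hn]
  have hc : 𝕢 N (((k : ℤ) : ℤ) : ℂ) ≠ 0 := Function.Periodic.qParam_ne_zero _
  have hinv : ∀ᶠ t in 𝓝[≠] (0 : ℂ), D.Hfun γ r (𝕢 N (((k : ℤ) : ℤ) : ℂ) * t) = D.Hfun γ r t := by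
    refine eventually_nhdsNE_of_forall fun t ht0 ht1 => ?_
    rw [D.Hfun_qParam_mul γ r k ht0 ht1, zpow_natCast]
    have : γ⁻¹ • ModularGroup.T ^ k • cuspPt N t =
        (γ⁻¹ * ModularGroup.T ^ k * γ) • (γ⁻¹ • cuspPt N t) := by
      rw [← mul_smul, ← mul_smul]
      congr 1
      group
    rw [this, D.smul_Gamma0 r _ hk]
    rfl
  have h1 := zpow_eq_one_of_comp_mul_eq hc (D.meromorphicAt_Hfun γ r) hord hinv
  obtain ⟨m, hm⟩ := dvd_of_qParam_zpow_eq_one N k n h1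
  exact ⟨m, by rw [← hn, hm]⟩

end CoreData

/-- **GEN-15**: the analytic datum at the cusp. -/
theorem cuspDatum (N : ℕ) [NeZero N] (hG : H23.MerGermStatement) (hC : H23.CoreStatement N)
    (hS : H23.SeparationStatement N) :
    Nonempty (H23.AnalyticDatum N (H23.jBar N)⁻¹ ModularGroup.T N) := by
  obtain ⟨G⟩ := hG 0
  obtain ⟨ι, Θ, hinj, hmd, hconst, hjd, hfrac⟩ := hC
  let D : CoreData N := ⟨ι, Θ, hinj, hmd, hconst, hjd, hfrac, hS⟩
  refine ⟨{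
    M := G.M
    val := G.val
    der := G.der
    der_add := G.der_add
    der_mul := G.der_mul
    val_der := G.val_der
    σ := D.sigma G
    val_const := ?_
    der_const := ?_
    σ_const := ?_
    σ_eq_iff := D.sigma_eq_iff G
    σ_y := ?_
    val_y := D.val_sigma_jBar_inv G
    val_g := ?_
    val_dvd := ?_ }⟩
  · intro γ c hc
    rw [D.sigma_algebraMap]
    exact val_germ_const G ((map_ne_zero D.ι).mpr hc)
  · intro γ c
    rw [D.sigma_algebraMap]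
    exact der_germ_const G _
  · intro γ γ' c
    rw [D.sigma_algebraMap, D.sigma_algebraMap]
  · intro γ γ'
    rw [map_inv₀, map_inv₀, D.sigma_jBar, D.sigma_jBar]
  · intro γ f
    refine val_eq_of_val_eq_on_Rsub D.frac G.val (fun r => ?_) f
    rw [D.sigma_coe, D.sigma_coe]
    exact D.val_sigma₀_T_mul G γ r
  · intro γ k hk f hf
    refine val_dvd_of_val_dvd_on_Rsub D.frac G.val _ (fun r hr => ?_) f hf
    rw [D.sigma_coe]
    exact D.val_sigma₀_dvd G γ k hk r hr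

end Fermat.Agent.H41

end
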