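/-
P-ES / ES-A / PL-3 (helper41): the transparent coset datum at the cusp over `ℂ`
(port of GEN-15, `Fermat.Agent.H41.cuspDatum`, to the function field `FC N` over `ℂ`).
-/
import Fermat.Agent.H41.CuspDatum
import Fermat.Agent.H23.EsA.Lemmas
import Fermat.Agent.H33.MerGerm
import Fermat.Agent.H82.Separation

set_option autoImplicit false

noncomputable section

open UpperHalfPlane ModularForm CongruenceSubgroup
open scoped MatrixGroups Manifold Topology ModularForm Pointwise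

namespace Fermat.Agent.H41

local notation "𝕢" => Function.Periodic.qParam

/-! ### Extension from a subalgebra to its field of fractions (generic) -/

section Frac

variable {K F : Type} [Field K] [Field F] [Algebra K F] {R : Subalgebra K F}

theorem isFractionRing_of_frac
    (hfrac : ∀ f : F, ∃ r s : R, s ≠ 0 ∧ f * (s : F) = r) :
    IsFractionRing R F := by
  refine IsFractionRing.of_field R F ?_
  intro f
  obtain ⟨r, s, hs, hfs⟩ := hfrac f
  refine ⟨r, s, ?_⟩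
  have hs' : (s : F) ≠ 0 := fun h => hs (Subtype.ext h)
  change f = (r : F) / (s : F)
  rw [eq_div_iff hs', hfs]

/-- Extension of an injective ring hom on `R` to the field of fractions `F`. -/
def fracExtend (hfrac : ∀ f : F, ∃ r s : R, s ≠ 0 ∧ f * (s : F) = r)
    {M : Type} [Field M] (g : R →+* M) (hg : Function.Injective g) : F →+* M :=
  haveI := isFractionRing_of_frac hfrac
  IsFractionRing.lift hg

theorem fracExtend_coe (hfrac : ∀ f : F, ∃ r s : R, s ≠ 0 ∧ f * (s : F) = r)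
    {M : Type} [Field M] (g : R →+* M) (hg : Function.Injective g) (r : R) :
    fracExtend hfrac g hg (r : F) = g r := by
  have := isFractionRing_of_frac hfrac
  exact IsFractionRing.lift_algebraMap hg r

theorem fracExtend_algebraMap (hfrac : ∀ f : F, ∃ r s : R, s ≠ 0 ∧ f * (s : F) = r)
    {M : Type} [Field M] (g : R →+* M) (hg : Function.Injective g) (c : K) :
    fracExtend hfrac g hg (algebraMap K F c) = g (algebraMap K R c) :=
  fracExtend_coe hfrac g hg (algebraMap K R c)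

theorem ringHom_ext_of_frac (hfrac : ∀ f : F, ∃ r s : R, s ≠ 0 ∧ f * (s : F) = r)
    {M : Type} [Field M] {σ σ' : F →+* M} (h : ∀ r : R, σ (r : F) = σ' (r : F)) :
    σ = σ' := by
  ext f
  obtain ⟨r, s, hs, hfs⟩ := hfrac f
  have hs' : (s : F) ≠ 0 := fun h => hs (Subtype.ext h)
  have h1 : σ f * σ (s : F) = σ (r : F) := by rw [← map_mul, hfs]
  have h2 : σ' f * σ' (s : F) = σ' (r : F) := by rw [← map_mul, hfs]
  have hs1 : σ (s : F) ≠ 0 := (map_ne_zero σ).mpr hs'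
  rw [h r, h s, ← h2] at h1
  rw [← h s] at h1
  exact mul_right_cancel₀ hs1 h1

theorem val_eq_of_val_eq_of_frac (hfrac : ∀ f : F, ∃ r s : R, s ≠ 0 ∧ f * (s : F) = r)
    {M : Type} [Field M] (v : AddValuation M (WithTop ℤ)) {σ σ' : F →+* M}
    (h : ∀ r : R, v (σ' (r : F)) = v (σ (r : F))) (f : F) :
    v (σ' f) = v (σ f) := by
  obtain ⟨r, s, hs, hfs⟩ := hfrac f
  have hs' : (s : F) ≠ 0 := fun h => hs (Subtype.ext h)
  have h1 : v (σ f) + v (σ (s : F)) = v (σ (r : F)) := by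
    rw [← AddValuation.map_mul, ← map_mul, hfs]
  have h2 : v (σ' f) + v (σ' (s : F)) = v (σ' (r : F)) := by
    rw [← AddValuation.map_mul, ← map_mul, hfs]
  have hs1 : v (σ (s : F)) ≠ ⊤ := by
    rw [Ne, AddValuation.top_iff]
    exact (map_ne_zero σ).mpr hs'
  rw [h r, h s, ← h1] at h2
  exact (WithTop.add_right_inj hs1).mp h2

theorem val_dvd_of_val_dvd_of_frac (hfrac : ∀ f : F, ∃ r s : R, s ≠ 0 ∧ f * (s : F) = r)
    {M : Type} [Field M] (v : AddValuation M (WithTop ℤ)) {σ : F →+* M} (e : ℤ)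
    (h : ∀ r : R, r ≠ 0 → ∃ m : ℤ, v (σ (r : F)) = ((e * m : ℤ) : WithTop ℤ))
    (f : F) (hf : f ≠ 0) :
    ∃ m : ℤ, v (σ f) = ((e * m : ℤ) : WithTop ℤ) := by
  obtain ⟨r, s, hs, hfs⟩ := hfrac f
  have hs' : (s : F) ≠ 0 := fun h => hs (Subtype.ext h)
  have hr : r ≠ 0 := by
    intro hr
    rw [hr] at hfs
    exact (mul_ne_zero hf hs') hfs
  have h1 : v (σ f) + v (σ (s : F)) = v (σ (r : F)) := by
    rw [← AddValuation.map_mul, ← map_mul, hfs]
  obtain ⟨ms, hms⟩ := h s hs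
  obtain ⟨mr, hmr⟩ := h r hr
  have hf1 : v (σ f) ≠ ⊤ := by
    rw [Ne, AddValuation.top_iff]
    exact (map_ne_zero σ).mpr hf
  obtain ⟨n, hn⟩ := WithTop.ne_top_iff_exists.mp hf1
  rw [← hn, hms, hmr] at h1
  refine ⟨mr - ms, ?_⟩
  rw [← hn]
  have h2 : n + e * ms = e * mr := by exact_mod_cast h1
  have h3 : n = e * (mr - ms) := by linarith
  rw [h3]

end Frac

/-! ### The core data over `ℂ` -/

open H23.EsA in
/-- The data provided by `CoreCStatement` and `RsubRepStatement`. -/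
structure CoreDataC (N : ℕ) [NeZero N] where
  Θ : ↥(RsubC N) →+* (ℍ → ℂ)
  rep : ∀ r : ↥(RsubC N), Rep N (Θ r) (r : ↥(FC N))
  inv : ∀ (r : ↥(RsubC N)) (β : SL(2, ℤ)), β ∈ Gamma0 N → ∀ z : ℍ, Θ r (β • z) = Θ r z
  jd : ∀ (d : ℕ) (_ : NeZero d) (hd : d ∣ N) (h : jC N d hd ∈ RsubC N),
    Θ ⟨jC N d hd, h⟩ = fun z => H23.jfun (H23.scaleH d z)
  frac : ∀ f : ↥(FC N), ∃ r s : ↥(RsubC N), s ≠ 0 ∧ f * (s : ↥(FC N)) = r

open H23.EsA in
/-- Construction of the core data from the two interface statements. -/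
theorem exists_coreDataC (N : ℕ) [NeZero N] (hC : CoreCStatement N) (hR : RsubRepStatement N) :
    Nonempty (CoreDataC N) := by
  let φ : ↥(RsubC N) →+* LaurentSeries ℂ :=
    ((FC N).val.toRingHom).comp (RsubC N).val.toRingHom
  have hφ : ∀ r : ↥(RsubC N), ∃ h : ℍ → ℂ, H44.LaurentRel h (φ r) := by
    intro r
    obtain ⟨h, hrep, -, -, -⟩ := hR (r : ↥(FC N)) r.2
    exact ⟨h, hrep⟩
  obtain ⟨Θ, hΘ⟩ := H44.gen11_exists_lift φ hφ
  refine ⟨⟨Θ, hΘ, ?_, ?_, ?_⟩⟩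
  · intro r β hβ z
    obtain ⟨h, hrep, -, hinv, -⟩ := hR (r : ↥(FC N)) r.2
    have : Θ r = h := (hΘ r).unique_left hrep
    rw [this]
    exact hinv β hβ z
  · intro d hd0 hd h
    exact (hΘ ⟨jC N d hd, h⟩).unique_left (hC.1 d hd0 hd)
  · intro f
    obtain ⟨r, s, hr, hs, hs0, hfs⟩ := hC.2 f
    exact ⟨⟨r, hr⟩, ⟨s, hs⟩, fun h => hs0 (congrArg Subtype.val h), hfs⟩

namespace CoreDataC

variable {N : ℕ} [NeZero N] (D : CoreDataC N)

set_option quotPrecheck false in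
local notation "FCN" => ↥(H23.EsA.FC N)
set_option quotPrecheck false in
local notation "RC" => ↥(H23.EsA.RsubC N)

theorem md (r : RC) : MDiff (D.Θ r) := (D.rep r).mdifferentiable

theorem inj : Function.Injective D.Θ := by
  intro r r' h
  have h1 := D.rep r
  rw [h] at h1
  exact Subtype.ext (Subtype.ext (h1.unique_right (D.rep r')))

theorem const (c : ℂ) : D.Θ (algebraMap ℂ RC c) = fun _ => c := by
  refine (D.rep _).unique_left ?_
  have h := H44.laurentRel_const c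
  have e : (((algebraMap ℂ RC c : RC) : FCN) : LaurentSeries ℂ)
      = algebraMap ℂ (LaurentSeries ℂ) c := rfl
  rw [e, ModularCurve.algebraMap_laurentSeries_eq_single]
  exact h

theorem smul_Gamma0 (r : RC) (β : SL(2, ℤ)) (hβ : β ∈ Gamma0 N) (z : ℍ) :
    D.Θ r (β • z) = D.Θ r z := D.inv r β hβ z

/-- The function of `t = q^{1/N}` attached to `r ∈ RsubC N` and `γ`. -/
def Hfun (γ : SL(2, ℤ)) (r : RC) (t : ℂ) : ℂ := D.Θ r (γ⁻¹ • cuspPt N t)

theorem Hfun_add (γ : SL(2, ℤ)) (r s : RC) : D.Hfun γ (r + s) = D.Hfun γ r + D.Hfun γ s := by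
  funext t
  have h := D.Θ.map_add r s
  exact congrFun h _

theorem Hfun_mul (γ : SL(2, ℤ)) (r s : RC) : D.Hfun γ (r * s) = D.Hfun γ r * D.Hfun γ s := by
  funext t
  have h := D.Θ.map_mul r s
  exact congrFun h _

theorem Hfun_one (γ : SL(2, ℤ)) : D.Hfun γ 1 = fun _ => 1 := by
  funext t
  have h := D.Θ.map_one
  exact congrFun h _

theorem Hfun_const (γ : SL(2, ℤ)) (c : ℂ) :
    D.Hfun γ (algebraMap ℂ RC c) = fun _ => c := by
  funext t
  exact congrFun (D.const c) _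

theorem Hfun_jd (γ : SL(2, ℤ)) (d : ℕ) [hd0 : NeZero d] (hd : d ∣ N)
    (h : H23.EsA.jC N d hd ∈ H23.EsA.RsubC N) :
    D.Hfun γ ⟨H23.EsA.jC N d hd, h⟩ =
      fun t => H23.jfun (H23.scaleH d (γ⁻¹ • cuspPt N t)) := by
  funext t
  exact congrFun (D.jd d hd0 hd h) _

theorem Hfun_qParam (γ : SL(2, ℤ)) (r : RC) (z : ℍ) :
    D.Hfun γ r (𝕢 N z) = D.Θ r (γ⁻¹ • z) := by
  obtain ⟨m, hm⟩ := exists_cuspPt_qParam N z
  unfold Hfun
  rw [hm]
  have hmem : γ⁻¹ * ModularGroup.T ^ (m * (N : ℤ)) * γ ∈ Gamma0 N := by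
    refine Gamma_le_Gamma0_of_dvd (dvd_refl N) ?_
    have h1 : ModularGroup.T ^ (m * (N : ℤ)) ∈ Gamma N := by
      simpa using ModularGroup_T_pow_mem_Gamma N (m * (N : ℤ)) (dvd_mul_left _ _)
    have := (Gamma_normal N).conj_mem _ h1 γ⁻¹
    simpa using this
  have : γ⁻¹ • ModularGroup.T ^ (m * (N : ℤ)) • z =
      (γ⁻¹ * ModularGroup.T ^ (m * (N : ℤ)) * γ) • (γ⁻¹ • z) := by
    rw [← mul_smul, ← mul_smul]
    congr 1
    group
  rw [this, D.smul_Gamma0 r _ hmem]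

theorem Hfun_qParam_mul (γ : SL(2, ℤ)) (r : RC) (k : ℤ) {t : ℂ} (ht0 : t ≠ 0) (ht1 : ‖t‖ < 1) :
    D.Hfun γ r (𝕢 N (k : ℂ) * t) = D.Θ r (γ⁻¹ • ModularGroup.T ^ k • cuspPt N t) := by
  have h := D.Hfun_qParam γ r (ModularGroup.T ^ k • cuspPt N t)
  rw [qParam_T_zpow_smul, qParam_cuspPt ht0 ht1] at h
  exact h

/-- Germs at the cusp are equal iff the functions on `ℍ` are. -/
theorem Hfun_eventuallyEq_iff (γ γ' : SL(2, ℤ)) (r r' : RC) :
    D.Hfun γ r =ᶠ[𝓝[≠] (0 : ℂ)] D.Hfun γ' r' ↔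
      ∀ z : ℍ, D.Θ r (γ⁻¹ • z) = D.Θ r' (γ'⁻¹ • z) := by
  constructor
  · intro h
    obtain ⟨R, hR⟩ := exists_im_of_eventually_nhdsNE N h
    have h1 : (fun z : ℍ => D.Θ r (γ⁻¹ • z)) = fun z : ℍ => D.Θ r' (γ'⁻¹ • z) := by
      refine eq_of_mdiff_of_forall_im_gt (mdiff_comp_smul (D.md r) γ⁻¹)
        (mdiff_comp_smul (D.md r') γ'⁻¹) R ?_
      intro z hz
      have := hR z hz
      rwa [D.Hfun_qParam, D.Hfun_qParam] at this
    exact fun z => congrFun h1 z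
  · intro h
    exact Filter.Eventually.of_forall fun t => h (cuspPt N t)

theorem meromorphicAt_Hfun (γ : SL(2, ℤ)) (r : RC) : MeromorphicAt (D.Hfun γ r) 0 := by
  obtain ⟨x, hx⟩ := r
  have key : ∀ (h : x ∈ H23.EsA.RsubC N), MeromorphicAt (D.Hfun γ ⟨x, h⟩) 0 := by
    refine Algebra.adjoin_induction
      (p := fun x _ => ∀ (h : x ∈ H23.EsA.RsubC N), MeromorphicAt (D.Hfun γ ⟨x, h⟩) 0)
      ?_ ?_ ?_ ?_ hx
    · rintro x ⟨d, hd0, hd, rfl⟩ h
      rw [D.Hfun_jd γ d hd h]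
      exact meromorphicAt_jfun_scaleH_smul hd γ⁻¹
    · intro c h
      have : (⟨algebraMap ℂ FCN c, h⟩ : RC) = algebraMap ℂ RC c := rfl
      rw [this, D.Hfun_const]
      exact MeromorphicAt.const _ _
    · intro x y hx hy ihx ihy h
      have : (⟨x + y, h⟩ : RC) = ⟨x, hx⟩ + ⟨y, hy⟩ := rfl
      rw [this, D.Hfun_add]
      exact (ihx hx).add (ihy hy)
    · intro x y hx hy ihx ihy h
      have : (⟨x * y, h⟩ : RC) = ⟨x, hx⟩ * ⟨y, hy⟩ := rfl
      rw [this, D.Hfun_mul]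
      exact (ihx hx).mul (ihy hy)
  exact key hx

variable (G : H23.MerGermField (0 : ℂ))

/-- The embedding of `RsubC N` into germs at the cusp attached to `γ`. -/
def sigma₀ (γ : SL(2, ℤ)) : RC →+* G.M :=
  germHom G (D.Hfun γ) (D.meromorphicAt_Hfun γ) (D.Hfun_add γ) (D.Hfun_mul γ) (D.Hfun_one γ)

theorem sigma₀_apply (γ : SL(2, ℤ)) (r : RC) : D.sigma₀ G γ r = G.germ (D.Hfun γ r) := rfl

theorem sigma₀_eq_iff (γ γ' : SL(2, ℤ)) (r r' : RC) :
    D.sigma₀ G γ r = D.sigma₀ G γ' r' ↔ ∀ z : ℍ, D.Θ r (γ⁻¹ • z) = D.Θ r' (γ'⁻¹ • z) := by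
  rw [sigma₀_apply, sigma₀_apply,
    G.germ_eq_iff _ _ (D.meromorphicAt_Hfun γ r) (D.meromorphicAt_Hfun γ' r'),
    D.Hfun_eventuallyEq_iff]

theorem sigma₀_injective (γ : SL(2, ℤ)) : Function.Injective (D.sigma₀ G γ) := by
  intro r r' h
  rw [sigma₀_eq_iff] at h
  apply D.inj
  funext z
  have := h (γ • z)
  rwa [inv_smul_smul] at this

/-- The embedding of the function field into germs at the cusp attached to `γ`. -/
def sigma (γ : SL(2, ℤ)) : FCN →+* G.M :=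
  fracExtend D.frac (D.sigma₀ G γ) (D.sigma₀_injective G γ)

theorem sigma_coe (γ : SL(2, ℤ)) (r : RC) : D.sigma G γ (r : FCN) = D.sigma₀ G γ r :=
  fracExtend_coe D.frac _ _ r

theorem sigma_algebraMap (γ : SL(2, ℤ)) (c : ℂ) :
    D.sigma G γ (algebraMap ℂ FCN c) = G.germ (fun _ => c) := by
  rw [sigma, fracExtend_algebraMap, sigma₀_apply, D.Hfun_const]

theorem sigma_eq_iff (γ γ' : SL(2, ℤ)) :
    D.sigma G γ = D.sigma G γ' ↔ γ⁻¹ * γ' ∈ Gamma0 N := by
  constructor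
  · intro h
    have hmemJ : H23.EsA.jC N N (dvd_refl N) ∈ H23.EsA.RsubC N :=
      Algebra.subset_adjoin ⟨N, inferInstance, dvd_refl N, rfl⟩
    have h1 : D.sigma₀ G γ ⟨_, hmemJ⟩ = D.sigma₀ G γ' ⟨_, hmemJ⟩ := by
      rw [← sigma_coe, ← sigma_coe, h]
    rw [sigma₀_eq_iff, D.jd N inferInstance (dvd_refl N) hmemJ] at h1
    refine (H82.separation N).1 _ fun z => ?_
    have := h1 (γ' • z)
    simp only [inv_smul_smul] at this
    rw [mul_smul]
    exact this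
  · intro h
    refine ringHom_ext_of_frac D.frac fun r => ?_
    rw [sigma_coe, sigma_coe, sigma₀_eq_iff]
    intro z
    have : γ⁻¹ • z = (γ⁻¹ * γ') • (γ'⁻¹ • z) := by
      rw [← mul_smul]
      congr 1
      group
    rw [this, D.smul_Gamma0 r _ h]

theorem jC_one_mem : H23.EsA.jC N 1 (one_dvd N) ∈ H23.EsA.RsubC N :=
  Algebra.subset_adjoin ⟨1, inferInstance, one_dvd N, rfl⟩

theorem Hfun_jC_one (γ : SL(2, ℤ)) :
    D.Hfun γ ⟨H23.EsA.jC N 1 (one_dvd N), jC_one_mem⟩ = fun t => H23.jfun (cuspPt N t) := by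
  rw [D.Hfun_jd γ 1 (one_dvd N) jC_one_mem]
  funext t
  rw [CoreData.scaleH_one, jfun_smul]

theorem sigma_jC_one (γ : SL(2, ℤ)) :
    D.sigma G γ (H23.EsA.jC N 1 (one_dvd N)) = G.germ (fun t => H23.jfun (cuspPt N t)) := by
  have := D.sigma_coe G γ ⟨H23.EsA.jC N 1 (one_dvd N), jC_one_mem⟩
  rw [sigma₀_apply, D.Hfun_jC_one] at this
  exact this

theorem val_sigma_jC_one (γ : SL(2, ℤ)) :
    G.val (D.sigma G γ (H23.EsA.jC N 1 (one_dvd N))) = ((-(N : ℤ) : ℤ) : WithTop ℤ) := by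
  rw [sigma_jC_one, G.val_germ _ CoreData.meromorphicAt_jfun_cuspPt]
  exact (meromorphicOrderAt_eq_int_iff CoreData.meromorphicAt_jfun_cuspPt).mpr
    (exists_jfun_cuspPt_eq N)

theorem val_sigma_jC_one_inv (γ : SL(2, ℤ)) :
    G.val (D.sigma G γ (H23.EsA.jC N 1 (one_dvd N))⁻¹) = (((N : ℕ) : ℤ) : WithTop ℤ) := by
  rw [map_inv₀, AddValuation.map_inv, val_sigma_jC_one,
    ← WithTop.LinearOrderedAddCommGroup.coe_neg, neg_neg]

theorem val_sigma₀_T_mul (γ : SL(2, ℤ)) (r : RC) :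
    G.val (D.sigma₀ G (ModularGroup.T * γ) r) = G.val (D.sigma₀ G γ r) := by
  rw [sigma₀_apply, sigma₀_apply, G.val_germ _ (D.meromorphicAt_Hfun _ r),
    G.val_germ _ (D.meromorphicAt_Hfun _ r)]
  have hc : 𝕢 N (((-1 : ℤ) : ℤ) : ℂ) ≠ 0 := Function.Periodic.qParam_ne_zero _
  have hev : D.Hfun (ModularGroup.T * γ) r =ᶠ[𝓝[≠] (0 : ℂ)]
      fun t => D.Hfun γ r (𝕢 N (((-1 : ℤ) : ℤ) : ℂ) * t) := by
    refine eventually_nhdsNE_of_forall fun t ht0 ht1 => ?_
    beta_reduce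
    rw [D.Hfun_qParam_mul γ r (-1) ht0 ht1, zpow_neg_one]
    unfold Hfun
    rw [mul_inv_rev, mul_smul]
  rw [meromorphicOrderAt_congr hev, meromorphicOrderAt_comp_mul_left hc]

theorem val_sigma₀_dvd (γ : SL(2, ℤ)) (k : ℕ)
    (hk : γ⁻¹ * ModularGroup.T ^ k * γ ∈ Gamma0 N) (r : RC) (hr : r ≠ 0) :
    ∃ m : ℤ, G.val (D.sigma₀ G γ r) =
      ((((N / Nat.gcd N k : ℕ) : ℤ) * m : ℤ) : WithTop ℤ) := by
  have hne : D.sigma₀ G γ r ≠ 0 := by
    intro h
    exact hr (D.sigma₀_injective G γ (by rw [h, map_zero]))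
  have hval : G.val (D.sigma₀ G γ r) ≠ ⊤ := by
    rw [Ne, AddValuation.top_iff]
    exact hne
  obtain ⟨n, hn⟩ := WithTop.ne_top_iff_exists.mp hval
  have hord : meromorphicOrderAt (D.Hfun γ r) 0 = (n : WithTop ℤ) := by
    rw [← G.val_germ _ (D.meromorphicAt_Hfun γ r), ← sigma₀_apply, ← hn]
  have hc : 𝕢 N (((k : ℤ) : ℤ) : ℂ) ≠ 0 := Function.Periodic.qParam_ne_zero _
  have hinv : ∀ᶠ t in 𝓝[≠] (0 : ℂ), D.Hfun γ r (𝕢 N (((k : ℤ) : ℤ) : ℂ) * t) = D.Hfun γ r t := by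
    refine eventually_nhdsNE_of_forall fun t ht0 ht1 => ?_
    rw [D.Hfun_qParam_mul γ r k ht0 ht1, zpow_natCast]
    have : γ⁻¹ • ModularGroup.T ^ k • cuspPt N t =
        (γ⁻¹ * ModularGroup.T ^ k * γ) • (γ⁻¹ • cuspPt N t) := by
      rw [← mul_smul, ← mul_smul]
      congr 1
      group
    rw [this, D.smul_Gamma0 r _ hk]
    rfl
  have h1 := zpow_eq_one_of_comp_mul_eq hc (D.meromorphicAt_Hfun γ r) hord hinv
  obtain ⟨m, hm⟩ := dvd_of_qParam_zpow_eq_one N k n h1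
  exact ⟨m, by rw [← hn, hm]⟩

/-- **Transparency** of the valuation: `val (σ γ f)` is the order at the cusp of `h ∘ γ⁻¹`, for
every holomorphic `h` representing `f`. -/
theorem val_sigma_eq_cuspOrd (γ : SL(2, ℤ)) (f : FCN) (h : ℍ → ℂ) (_hf : f ≠ 0)
    (hrep : H23.EsA.Rep N h f) :
    G.val (D.sigma G γ f) = H23.EsA.cuspOrd N (fun z => h (γ⁻¹ • z)) := by
  obtain ⟨r, s, hs, hfs⟩ := D.frac f
  -- `h * Θ s = Θ r`
  have hmul : h * D.Θ s = D.Θ r := by
    have h1 : H44.LaurentRel (h * D.Θ s) ((f : LaurentSeries ℂ) * ((s : FCN) : LaurentSeries ℂ)) :=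
      H44.LaurentRel.mul hrep (D.rep s)
    have h2 : (f : LaurentSeries ℂ) * ((s : FCN) : LaurentSeries ℂ)
        = (((r : FCN)) : LaurentSeries ℂ) := by
      rw [← hfs]
      rfl
    rw [h2] at h1
    exact h1.unique_left (D.rep r)
  set Hh : ℂ → ℂ := fun t => h (γ⁻¹ • cuspPt N t) with hHh
  have hprod : Hh * D.Hfun γ s = D.Hfun γ r := by
    funext t
    exact congrFun hmul (γ⁻¹ • cuspPt N t)
  -- orders of `s` and `r`
  have hsne : D.sigma₀ G γ s ≠ 0 := by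
    intro h0
    exact hs (D.sigma₀_injective G γ (by rw [h0, map_zero]))
  have hsval : G.val (D.sigma₀ G γ s) ≠ ⊤ := by
    rw [Ne, AddValuation.top_iff]
    exact hsne
  have hsord : G.val (D.sigma₀ G γ s) = meromorphicOrderAt (D.Hfun γ s) 0 := by
    rw [sigma₀_apply, G.val_germ _ (D.meromorphicAt_Hfun γ s)]
  have hrord : G.val (D.sigma₀ G γ r) = meromorphicOrderAt (D.Hfun γ r) 0 := by
    rw [sigma₀_apply, G.val_germ _ (D.meromorphicAt_Hfun γ r)]
  -- `Hh` is meromorphic at `0`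
  have hsev : ∀ᶠ t in 𝓝[≠] (0 : ℂ), D.Hfun γ s t ≠ 0 := by
    rw [← meromorphicOrderAt_ne_top_iff_eventually_ne_zero (D.meromorphicAt_Hfun γ s), ← hsord]
    exact hsval
  have hmer : MeromorphicAt Hh 0 := by
    have hq : MeromorphicAt (fun t => D.Hfun γ r t / D.Hfun γ s t) 0 :=
      (D.meromorphicAt_Hfun γ r).div (D.meromorphicAt_Hfun γ s)
    refine hq.congr ?_
    filter_upwards [hsev] with t ht
    have := congrFun hprod t
    simp only [Pi.mul_apply] at this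
    rw [← this, mul_div_cancel_right₀ _ ht]
  -- the cusp function agrees with `Hh` off `0`
  have hcusp : Function.Periodic.cuspFunction (N : ℝ) ((fun z : ℍ => h (γ⁻¹ • z)) ∘ ofComplex)
      =ᶠ[𝓝[≠] (0 : ℂ)] Hh := by
    filter_upwards [self_mem_nhdsWithin] with t ht
    exact cuspFunction_eq_cuspPt N (fun z : ℍ => h (γ⁻¹ • z)) ht
  have hordmul : meromorphicOrderAt Hh 0 + meromorphicOrderAt (D.Hfun γ s) 0
      = meromorphicOrderAt (D.Hfun γ r) 0 := by
    rw [← meromorphicOrderAt_mul hmer (D.meromorphicAt_Hfun γ s), hprod]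
  have hvalmul : G.val (D.sigma G γ f) + G.val (D.sigma₀ G γ s) = G.val (D.sigma₀ G γ r) := by
    rw [← sigma_coe, ← sigma_coe, ← AddValuation.map_mul, ← map_mul, hfs]
  rw [H23.EsA.cuspOrd, meromorphicOrderAt_congr hcusp]
  rw [hrord, ← hordmul, ← hsord] at hvalmul
  exact (WithTop.add_right_inj hsval).mp hvalmul

end CoreDataC

open H23.EsA in
/-- **ES-A / PL-3**: the transparent coset datum at the cusp, from the core statements. -/
theorem cuspDatumStatement_of (N : ℕ) [NeZero N] (hC : CoreCStatement N)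
    (hR : RsubRepStatement N) : CuspDatumStatement N := by
  obtain ⟨G⟩ := H33.merGerm_statement 0
  obtain ⟨D⟩ := exists_coreDataC N hC hR
  refine ⟨{
    M := G.M
    val := G.val
    der := G.der
    der_add := G.der_add
    der_mul := G.der_mul
    val_der := G.val_der
    σ := D.sigma G
    val_const := ?_
    der_const := ?_
    σ_const := ?_
    σ_eq_iff := D.sigma_eq_iff G
    σ_y := ?_
    val_y := D.val_sigma_jC_one_inv G
    val_g := ?_
    val_dvd := ?_ }, ?_⟩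
  · intro γ c hc
    rw [D.sigma_algebraMap]
    exact val_germ_const G hc
  · intro γ c
    rw [D.sigma_algebraMap]
    exact der_germ_const G _
  · intro γ γ' c
    rw [D.sigma_algebraMap, D.sigma_algebraMap]
  · intro γ γ'
    rw [map_inv₀, map_inv₀, D.sigma_jC_one, D.sigma_jC_one]
  · intro γ f
    refine val_eq_of_val_eq_of_frac D.frac G.val (fun r => ?_) f
    rw [D.sigma_coe, D.sigma_coe]
    exact D.val_sigma₀_T_mul G γ r
  · intro γ k hk f hf
    refine val_dvd_of_val_dvd_of_frac D.frac G.val _ (fun r hr => ?_) f hf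
    rw [D.sigma_coe]
    exact D.val_sigma₀_dvd G γ k hk r hr
  · intro γ f h hf hrep
    exact D.val_sigma_eq_cuspOrd G γ f h hf hrep

end Fermat.Agent.H41

end
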