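/-
P-ES / ES-E (helper41): the Atkin–Lehner symmetry of the function field of `X₀(N ℓ)`,
`gcd(N, ℓ) = 1`: an automorphism `W` with `W ∘ α = β`, `W ∘ β = α`, where `α` is the inclusion of
the function field of level `N` and `β` is `q ↦ q^ℓ`.

Analytic construction: `W` is composition with `τ ↦ γ₀ (ℓ τ)`, `γ₀ = [[a, b], [N, ℓ]] ∈ SL(2,ℤ)`.
-/
import Fermat.Agent.H41.CuspDatumC

set_option autoImplicit false

noncomputable section

open UpperHalfPlane ModularForm CongruenceSubgroup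
open scoped MatrixGroups Manifold Topology ModularForm Pointwise

namespace Fermat.Agent.H41

/-! ### The analytic key lemma -/

/-- The matrix `[[a, b], [c, d]]` of determinant one. -/
def mkSL (a b c d : ℤ) (h : a * d - b * c = 1) : SL(2, ℤ) :=
  ⟨!![a, b; c, d], by rw [Matrix.det_fin_two_of]; exact h⟩

theorem coe_mkSL_smul (a b c d : ℤ) (h : a * d - b * c = 1) (z : ℍ) :
    ((mkSL a b c d h • z : ℍ) : ℂ) = ((a : ℂ) * z + b) / ((c : ℂ) * z + d) := by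
  rw [coe_specialLinearGroup_apply]
  simp [mkSL]

theorem coe_scaleH (d : ℕ) [NeZero d] (z : ℍ) : ((H23.scaleH d z : ℍ) : ℂ) = (d : ℂ) * z := rfl

theorem mul_add_ne_zero_of_pos {c : ℝ} (hc : 0 < c) (x : ℝ) (z : ℍ) :
    (c : ℂ) * (z : ℂ) + (x : ℂ) ≠ 0 := by
  intro h
  have him := congrArg Complex.im h
  simp at him
  rcases him with h1 | h1
  · exact hc.ne' h1
  · exact z.im_pos.ne' h1

/-- The key identity: `(d e) · γ₀ (ℓ τ) = γ ((d e') τ)` with `γ = [[a e, d b], [d₁, e']]`, where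
`N = d d₁`, `ℓ = e e'`, `γ₀ = [[a, b], [N, ℓ]]`. -/
theorem scaleH_mkSL_smul_scaleH (d d₁ e e' : ℕ) [NeZero d] [NeZero d₁] [NeZero e] [NeZero e']
    (a b : ℤ) (hab : a * ((e * e' : ℕ) : ℤ) - b * ((d * d₁ : ℕ) : ℤ) = 1) (τ : ℍ) :
    H23.scaleH (d * e) (mkSL a b ((d * d₁ : ℕ) : ℤ) ((e * e' : ℕ) : ℤ) hab • H23.scaleH (e * e') τ)
      = mkSL (a * e) (d * b) d₁ e' (by push_cast at hab ⊢; linarith) • H23.scaleH (d * e') τ := by
  apply UpperHalfPlane.ext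
  rw [coe_scaleH, coe_mkSL_smul, coe_mkSL_smul, coe_scaleH, coe_scaleH]
  have hd : (0 : ℝ) < d := by exact_mod_cast Nat.pos_of_ne_zero (NeZero.ne d)
  have hd₁ : (0 : ℝ) < d₁ := by exact_mod_cast Nat.pos_of_ne_zero (NeZero.ne d₁)
  have he : (0 : ℝ) < e := by exact_mod_cast Nat.pos_of_ne_zero (NeZero.ne e)
  have he' : (0 : ℝ) < e' := by exact_mod_cast Nat.pos_of_ne_zero (NeZero.ne e')
  have h1 := mul_add_ne_zero_of_pos (mul_pos (mul_pos hd hd₁) (mul_pos he he')) (e * e') τ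
  have h2 := mul_add_ne_zero_of_pos (mul_pos hd₁ (mul_pos hd he')) e' τ
  have he0 : (e : ℂ) ≠ 0 := by exact_mod_cast NeZero.ne e
  have he'0 : (e' : ℂ) ≠ 0 := by exact_mod_cast NeZero.ne e'
  push_cast at h1 h2 ⊢
  have h1' : (d : ℂ) * d₁ * (e * e' * (τ : ℂ)) + e * e' ≠ 0 := by
    intro h
    apply h1
    rw [← h]
    ring
  have h2' : (d₁ : ℂ) * (d * e' * (τ : ℂ)) + e' ≠ 0 := by
    intro h
    apply h2
    rw [← h]
    ring
  rw [mul_div_assoc', div_eq_div_iff h1' h2']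
  ring

theorem scaleH_congr {d d' : ℕ} [NeZero d] [NeZero d'] (h : d = d') (z : ℍ) :
    H23.scaleH d z = H23.scaleH d' z := by
  subst h
  rfl

/-- The map `τ ↦ γ₀ (ℓ τ)`, `γ₀ = [[a, b], [N, ℓ]]`. -/
def alMap (N ℓ : ℕ) [NeZero ℓ] (a b : ℤ) (hab : a * (ℓ : ℤ) - b * (N : ℤ) = 1) (τ : ℍ) : ℍ :=
  mkSL a b N ℓ hab • H23.scaleH ℓ τ

theorem jfun_scaleH_alMap (N ℓ : ℕ) [NeZero N] [NeZero ℓ] (a b : ℤ)
    (hab : a * (ℓ : ℤ) - b * (N : ℤ) = 1) (d d₁ e e' : ℕ) (hN : N = d * d₁) (hℓ : ℓ = e * e')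
    [NeZero (d * e)] [NeZero (d * e')] (τ : ℍ) :
    H23.jfun (H23.scaleH (d * e) (alMap N ℓ a b hab τ)) = H23.jfun (H23.scaleH (d * e') τ) := by
  subst hN hℓ
  have hd : NeZero d := ⟨fun h => NeZero.ne (d * d₁) (by rw [h, zero_mul])⟩
  have hd₁ : NeZero d₁ := ⟨fun h => NeZero.ne (d * d₁) (by rw [h, mul_zero])⟩
  have he : NeZero e := ⟨fun h => NeZero.ne (e * e') (by rw [h, zero_mul])⟩
  have he' : NeZero e' := ⟨fun h => NeZero.ne (e * e') (by rw [h, mul_zero])⟩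
  rw [alMap, scaleH_mkSL_smul_scaleH d d₁ e e' a b hab τ, jfun_smul]

theorem alMap_surjective (N ℓ : ℕ) [NeZero ℓ] (a b : ℤ)
    (hab : a * (ℓ : ℤ) - b * (N : ℤ) = 1) : Function.Surjective (alMap N ℓ a b hab) := by
  intro z
  set w : ℍ := (mkSL a b N ℓ hab)⁻¹ • z with hw
  have hℓ : (0 : ℝ) < ℓ := by exact_mod_cast Nat.pos_of_ne_zero (NeZero.ne ℓ)
  have hℓ0 : (ℓ : ℂ) ≠ 0 := by exact_mod_cast NeZero.ne ℓ
  have him : 0 < ((w : ℂ) / (ℓ : ℂ)).im := by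
    have : ((w : ℂ) / (ℓ : ℂ)).im = w.im / ℓ := by
      rw [show ((ℓ : ℂ)) = ((ℓ : ℝ) : ℂ) by push_cast; rfl, Complex.div_ofReal_im]
      rfl
    rw [this]
    exact div_pos w.im_pos hℓ
  refine ⟨⟨(w : ℂ) / ℓ, him⟩, ?_⟩
  have h1 : H23.scaleH ℓ ⟨(w : ℂ) / ℓ, him⟩ = w := by
    apply UpperHalfPlane.ext
    rw [coe_scaleH]
    change (ℓ : ℂ) * ((w : ℂ) / ℓ) = w
    field_simp
  rw [alMap, h1, hw, smul_inv_smul]

/-- Decomposition of a divisor of `N ℓ`, `gcd(N, ℓ) = 1`. -/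
theorem exists_dvd_decomp {N ℓ : ℕ} (hcop : Nat.Coprime N ℓ) {d' : ℕ} (hd' : d' ∣ N * ℓ) :
    ∃ d d₁ e e' : ℕ, N = d * d₁ ∧ ℓ = e * e' ∧ d' = d * e := by
  have h1 : Nat.gcd d' (N * ℓ) = Nat.gcd d' N * Nat.gcd d' ℓ := Nat.Coprime.gcd_mul d' hcop
  rw [Nat.gcd_eq_left hd'] at h1
  obtain ⟨d₁, hd₁⟩ := Nat.gcd_dvd_right d' N
  obtain ⟨e', he'⟩ := Nat.gcd_dvd_right d' ℓ
  exact ⟨Nat.gcd d' N, d₁, Nat.gcd d' ℓ, e', hd₁, he', h1⟩

/-! ### The abstract construction -/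

section Abstract

variable {K F : Type} [Field K] [Field F] [Algebra K F] {N ℓ : ℕ} [NeZero N] [NeZero ℓ]

/-- **Atkin–Lehner, abstract form.**  Let `F = Frac R`, `R = K[gen d : d ∣ N ℓ]`, and let
`Θ : R → (ℍ → ℂ)` be an injective ring homomorphism sending `gen d` to `z ↦ j(d z)` and constants
to constants.  Then there is a `K`-automorphism `W` of `F` with `W (gen (d e)) = gen (d e')` for
all `d ∣ N`, `e e' = ℓ`. -/
theorem exists_atkinLehner_abstract (hcop : Nat.Coprime N ℓ)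
    (gen : ∀ (d : ℕ) [NeZero d], d ∣ N * ℓ → F)
    (R : Subalgebra K F)
    (hR : R = Algebra.adjoin K {x | ∃ (d : ℕ) (_ : NeZero d) (hd : d ∣ N * ℓ), x = gen d hd})
    (Θ : R →+* (ℍ → ℂ)) (ι : K →+* ℂ) (hinj : Function.Injective Θ)
    (hconst : ∀ c : K, Θ (algebraMap K R c) = fun _ => ι c)
    (hgen : ∀ (d : ℕ) (_ : NeZero d) (hd : d ∣ N * ℓ) (h : gen d hd ∈ R),
      Θ ⟨gen d hd, h⟩ = fun z => H23.jfun (H23.scaleH d z))
    (hfrac : ∀ f : F, ∃ r s : R, s ≠ 0 ∧ f * (s : F) = r) :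
    ∃ W : F ≃ₐ[K] F, ∀ (d e e' : ℕ) (_ : NeZero (d * e)) (_ : NeZero (d * e')) (_ : d ∣ N)
      (_ : e * e' = ℓ) (h1 : d * e ∣ N * ℓ) (h2 : d * e' ∣ N * ℓ),
      W (gen (d * e) h1) = gen (d * e') h2 := by
  classical
  -- Bezout
  obtain ⟨a, b, hab⟩ : ∃ a b : ℤ, a * (ℓ : ℤ) - b * (N : ℤ) = 1 := by
    obtain ⟨u, v, huv⟩ := Nat.isCoprime_iff_coprime.mpr hcop
    exact ⟨v, -u, by linarith⟩
  have hN0 : N ≠ 0 := NeZero.ne N
  have hℓ0 : ℓ ≠ 0 := NeZero.ne ℓ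
  have hmemgen : ∀ (d : ℕ) (_ : NeZero d) (hd : d ∣ N * ℓ), gen d hd ∈ R := by
    intro d _ hd
    rw [hR]
    exact Algebra.subset_adjoin ⟨d, _, hd, rfl⟩
  -- the action on the generating functions
  have hkey : ∀ (d d₁ e e' : ℕ) (_ : N = d * d₁) (_ : ℓ = e * e') (_ : NeZero (d * e))
      (_ : NeZero (d * e')) (τ : ℍ),
      H23.jfun (H23.scaleH (d * e) (alMap N ℓ a b hab τ)) = H23.jfun (H23.scaleH (d * e') τ) :=
    fun d d₁ e e' hN hℓ _ _ τ => jfun_scaleH_alMap N ℓ a b hab d d₁ e e' hN hℓ τ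
  have hne : ∀ (d d₁ e e' : ℕ), N = d * d₁ → ℓ = e * e' → d * e ≠ 0 := by
    intro d d₁ e e' hN hℓ h
    rcases Nat.mul_eq_zero.mp h with h | h
    · exact hN0 (by rw [hN, h, zero_mul])
    · exact hℓ0 (by rw [hℓ, h, zero_mul])
  have hdvd : ∀ (d d₁ e e' : ℕ), N = d * d₁ → ℓ = e * e' → d * e ∣ N * ℓ := by
    intro d d₁ e e' hN hℓ
    rw [hN, hℓ]
    exact Nat.mul_dvd_mul (dvd_mul_right d d₁) (dvd_mul_right e e')
  have hstep : ∀ (d' : ℕ) (_ : NeZero d') (_ : d' ∣ N * ℓ),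
      ∃ (d'' : ℕ) (_ : NeZero d'') (_ : d'' ∣ N * ℓ),
        ∀ τ, H23.jfun (H23.scaleH d' (alMap N ℓ a b hab τ)) = H23.jfun (H23.scaleH d'' τ) := by
    intro d' _ hd'
    obtain ⟨d, d₁, e, e', hN, hℓ, hde⟩ := exists_dvd_decomp hcop hd'
    have hℓ' : ℓ = e' * e := by rw [hℓ, mul_comm]
    have i1 : NeZero (d * e) := ⟨hne d d₁ e e' hN hℓ⟩
    have i2 : NeZero (d * e') := ⟨hne d d₁ e' e hN hℓ'⟩
    refine ⟨d * e', i2, hdvd d d₁ e' e hN hℓ', fun τ => ?_⟩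
    rw [scaleH_congr hde, hkey d d₁ e e' hN hℓ i1 i2 τ]
  have hstep' : ∀ (d'' : ℕ) (_ : NeZero d'') (_ : d'' ∣ N * ℓ),
      ∃ (d' : ℕ) (_ : NeZero d') (_ : d' ∣ N * ℓ),
        ∀ τ, H23.jfun (H23.scaleH d' (alMap N ℓ a b hab τ)) = H23.jfun (H23.scaleH d'' τ) := by
    intro d'' _ hd''
    obtain ⟨d, d₁, e', e, hN, hℓ, hde⟩ := exists_dvd_decomp hcop hd''
    have hℓ' : ℓ = e * e' := by rw [hℓ, mul_comm]
    have i1 : NeZero (d * e) := ⟨hne d d₁ e e' hN hℓ'⟩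
    have i2 : NeZero (d * e') := ⟨hne d d₁ e' e hN hℓ⟩
    refine ⟨d * e, i1, hdvd d d₁ e e' hN hℓ', fun τ => ?_⟩
    rw [hkey d d₁ e e' hN hℓ' i1 i2 τ, scaleH_congr hde]
  -- the endomorphism `ω` of `R`
  have hex : ∀ r : R, ∃ r' : R, Θ r' = fun τ => Θ r (alMap N ℓ a b hab τ) := by
    rintro ⟨x, hx⟩
    have hx' := hx
    rw [hR] at hx'
    have key : ∀ (h : x ∈ R), ∃ r' : R, Θ r' = fun τ => Θ ⟨x, h⟩ (alMap N ℓ a b hab τ) := by
      refine Algebra.adjoin_induction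
        (p := fun x _ => ∀ (h : x ∈ R), ∃ r' : R,
          Θ r' = fun τ => Θ ⟨x, h⟩ (alMap N ℓ a b hab τ)) ?_ ?_ ?_ ?_ hx'
      · rintro x ⟨d', hd0, hd', rfl⟩ h
        obtain ⟨d'', hd0'', hd'', hτ⟩ := hstep d' hd0 hd'
        refine ⟨⟨gen d'' hd'', hmemgen d'' hd0'' hd''⟩, ?_⟩
        rw [hgen d'' hd0'' hd'' _, hgen d' hd0 hd' h]
        funext τ
        exact (hτ τ).symm
      · intro c h
        refine ⟨algebraMap K R c, ?_⟩
        have : (⟨algebraMap K F c, h⟩ : R) = algebraMap K R c := rfl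
        rw [this, hconst]
      · intro x y hx hy ihx ihy h
        have hxR : x ∈ R := by rw [hR]; exact hx
        have hyR : y ∈ R := by rw [hR]; exact hy
        obtain ⟨rx, hrx⟩ := ihx hxR
        obtain ⟨ry, hry⟩ := ihy hyR
        refine ⟨rx + ry, ?_⟩
        have : (⟨x + y, h⟩ : R) = ⟨x, hxR⟩ + ⟨y, hyR⟩ := rfl
        rw [this, map_add, map_add, hrx, hry]
        rfl
      · intro x y hx hy ihx ihy h
        have hxR : x ∈ R := by rw [hR]; exact hx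
        have hyR : y ∈ R := by rw [hR]; exact hy
        obtain ⟨rx, hrx⟩ := ihx hxR
        obtain ⟨ry, hry⟩ := ihy hyR
        refine ⟨rx * ry, ?_⟩
        have : (⟨x * y, h⟩ : R) = ⟨x, hxR⟩ * ⟨y, hyR⟩ := rfl
        rw [this, map_mul, map_mul, hrx, hry]
        rfl
    exact key hx
  choose ω hω using hex
  have hω_add : ∀ r s, ω (r + s) = ω r + ω s := by
    intro r s
    apply hinj
    rw [hω, map_add, map_add, hω, hω]
    rfl
  have hω_mul : ∀ r s, ω (r * s) = ω r * ω s := by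
    intro r s
    apply hinj
    rw [hω, map_mul, map_mul, hω, hω]
    rfl
  have hω_alg : ∀ c : K, ω (algebraMap K R c) = algebraMap K R c := by
    intro c
    apply hinj
    rw [hω, hconst]
  have hω_one : ω 1 = 1 := by
    have := hω_alg 1
    rwa [map_one] at this
  have hω_zero : ω 0 = 0 := by
    have := hω_alg 0
    rwa [map_zero] at this
  let ωhom : R →+* R :=
    { toFun := ω, map_one' := hω_one, map_mul' := hω_mul, map_zero' := hω_zero,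
      map_add' := hω_add }
  have hω_inj : Function.Injective ω := by
    intro r r' h
    apply hinj
    funext z
    obtain ⟨τ, rfl⟩ := alMap_surjective N ℓ a b hab z
    have h1 := congrFun (hω r) τ
    have h2 := congrFun (hω r') τ
    rw [h] at h1
    rw [← h1, ← h2]
  have hω_surj : Function.Surjective ω := by
    rintro ⟨x, hx⟩
    have hx' := hx
    rw [hR] at hx'
    have key : ∀ (h : x ∈ R), ∃ r₀ : R, ω r₀ = ⟨x, h⟩ := by
      refine Algebra.adjoin_induction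
        (p := fun x _ => ∀ (h : x ∈ R), ∃ r₀ : R, ω r₀ = ⟨x, h⟩) ?_ ?_ ?_ ?_ hx'
      · rintro x ⟨d'', hd0'', hd'', rfl⟩ h
        obtain ⟨d', hd0, hd', hτ⟩ := hstep' d'' hd0'' hd''
        refine ⟨⟨gen d' hd', hmemgen d' hd0 hd'⟩, ?_⟩
        apply hinj
        rw [hω, hgen d'' hd0'' hd'' h, hgen d' hd0 hd' _]
        funext τ
        exact hτ τ
      · intro c h
        exact ⟨algebraMap K R c, hω_alg c⟩
      · intro x y hx hy ihx ihy h
        have hxR : x ∈ R := by rw [hR]; exact hx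
        have hyR : y ∈ R := by rw [hR]; exact hy
        obtain ⟨rx, hrx⟩ := ihx hxR
        obtain ⟨ry, hry⟩ := ihy hyR
        exact ⟨rx + ry, by rw [hω_add, hrx, hry]; rfl⟩
      · intro x y hx hy ihx ihy h
        have hxR : x ∈ R := by rw [hR]; exact hx
        have hyR : y ∈ R := by rw [hR]; exact hy
        obtain ⟨rx, hrx⟩ := ihx hxR
        obtain ⟨ry, hry⟩ := ihy hyR
        exact ⟨rx * ry, by rw [hω_mul, hrx, hry]; rfl⟩
    exact key hx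
  -- extension to the field of fractions
  let g : R →+* F := (R.val.toRingHom).comp ωhom
  have hg_inj : Function.Injective g := fun r r' h => hω_inj (Subtype.ext h)
  let W₀ : F →+* F := fracExtend hfrac g hg_inj
  have hW₀_coe : ∀ r : R, W₀ (r : F) = (ω r : F) := fun r => fracExtend_coe hfrac g hg_inj r
  let W₁ : F →ₐ[K] F :=
    { W₀ with
      commutes' := by
        intro c
        have h1 : W₀ (algebraMap K F c) = ((ω (algebraMap K R c) : R) : F) :=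
          hW₀_coe (algebraMap K R c)
        change W₀ (algebraMap K F c) = algebraMap K F c
        rw [h1, hω_alg]
        rfl }
  have hW₁ : ∀ x, W₁ x = W₀ x := fun _ => rfl
  have hW₁_surj : Function.Surjective W₁ := by
    intro f
    obtain ⟨r, s, hs, hfs⟩ := hfrac f
    obtain ⟨r₀, hr₀⟩ := hω_surj r
    obtain ⟨s₀, hs₀⟩ := hω_surj s
    have hs' : (s : F) ≠ 0 := fun h => hs (Subtype.ext h)
    refine ⟨(r₀ : F) / (s₀ : F), ?_⟩
    rw [hW₁, map_div₀, hW₀_coe, hW₀_coe, hr₀, hs₀, ← hfs, mul_div_cancel_right₀ _ hs']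
  refine ⟨AlgEquiv.ofBijective W₁ ⟨W₁.toRingHom.injective, hW₁_surj⟩, ?_⟩
  intro d e e' i1 i2 hd he h1 h2
  obtain ⟨d₁, hd₁⟩ := hd
  change W₀ (gen (d * e) h1) = gen (d * e') h2
  have h3 := hW₀_coe ⟨gen (d * e) h1, hmemgen _ i1 h1⟩
  have h4 : ω ⟨gen (d * e) h1, hmemgen _ i1 h1⟩ = ⟨gen (d * e') h2, hmemgen _ i2 h2⟩ := by
    apply hinj
    rw [hω, hgen _ i1 h1 _, hgen _ i2 h2 _]
    funext τ
    exact hkey d d₁ e e' hd₁ he.symm i1 i2 τ
  rw [h4] at h3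
  exact h3

end Abstract

end Fermat.Agent.H41

end
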