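/-
P-ES / ES-A / PL-3 (helper41): `CuspDatumStatement N`, unconditional
(from `Fermat.Agent.H41.cuspDatumStatement_of` and helper13's `esaCoreC`, `esaRsubRep`).
-/
import Fermat.Agent.H41.CuspDatumC
import Fermat.Agent.H13.EsACoreC

set_option autoImplicit false

namespace Fermat.Agent.H41

/-- **ES-A / PL-3**: the transparent coset datum at the cusp of `X₀(N)` over `ℂ`. -/
theorem cuspDatumStatement (N : ℕ) [NeZero N] : H23.EsA.CuspDatumStatement N :=
  cuspDatumStatement_of N (H13.esaCoreC N) (H13.esaRsubRep N)

end Fermat.Agent.H41
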