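/-
P-ES / ES-E (helper41): the Atkin–Lehner symmetry of the function field of `X₀(N ℓ)` over `ℚ̄` and
over `ℂ`, in terms of the prelude's degeneracy maps `heckeAlphaBar`, `heckeBetaBar`.
-/
import Fermat.Agent.H41.AtkinLehner
import Fermat.Agent.H41.CuspDatumCFinal
import Fermat.Agent.H44.Gen11.Core
import Fermat.Prelude.Def_ModularCurve_HeckeOperator
import Fermat.Prelude.Thm_ModularCurve_coeffMap_qExpand

set_option autoImplicit false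

noncomputable section

open UpperHalfPlane
open scoped MatrixGroups

namespace Fermat.Agent.H41

open ModularCurve

/-- `j(q^d)` pushed to `L`, then `q ↦ q^ℓ`, is `j(q^(d ℓ))` pushed to `L`. -/
theorem qExpand_coeffEmb_jq (L : Type) [Field L] [Algebra ℚ L] (d ℓ : ℕ) [NeZero d] [NeZero ℓ]
    [NeZero (d * ℓ)] :
    qExpand L ℓ (coeffEmb L (qExpand ℚ d jq)) = coeffEmb L (qExpand ℚ (d * ℓ) jq) := by
  have h1 : qExpand L ℓ (coeffEmb L (qExpand ℚ d jq)) = coeffEmb L (qExpand ℚ ℓ (qExpand ℚ d jq)) :=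
    (coeffMap_qExpand (algebraMap ℚ L) ℓ _).symm
  rw [h1, qExpand_qExpand]
  congr 1
  exact qExpand_congr (mul_comm ℓ d) jq

/-- Two algebra homomorphisms on `F = Frac (K[S])` agreeing on `S` are equal. -/
theorem algHom_eq_of_eqOn_gens {K F F' : Type} [Field K] [Field F] [Field F'] [Algebra K F]
    [Algebra K F'] (S : Set F)
    (hfrac : ∀ f : F, ∃ r s : ↥(Algebra.adjoin K S), s ≠ 0 ∧ f * (s : F) = r)
    (φ₁ φ₂ : F →ₐ[K] F') (h : S.EqOn φ₁ φ₂) (x : F) : φ₁ x = φ₂ x := by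
  have h1 : (φ₁ : F →+* F') = (φ₂ : F →+* F') :=
    ringHom_ext_of_frac hfrac fun r => AlgHom.adjoin_le_equalizer φ₁ φ₂ h r.2
  exact congrArg (fun f : F →+* F' => f x) h1

/-- **Atkin–Lehner over `ℚ̄`**: an automorphism `W` of the function field of `X₀(N ℓ)` with
`W ∘ α = β` and `W ∘ β = α`. -/
theorem exists_atkinLehnerBar (N ℓ : ℕ) [NeZero N] [NeZero ℓ] (hcop : Nat.Coprime N ℓ) :
    ∃ W : ↥(laurentBaseChange (AlgebraicClosure ℚ) (modularFunctionFieldFull (N * ℓ)))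
        ≃ₐ[AlgebraicClosure ℚ]
        ↥(laurentBaseChange (AlgebraicClosure ℚ) (modularFunctionFieldFull (N * ℓ))),
      (∀ x, W (heckeAlphaBar (AlgebraicClosure ℚ) N ℓ x)
        = heckeBetaBar (AlgebraicClosure ℚ) N ℓ x) ∧
      (∀ x, W (heckeBetaBar (AlgebraicClosure ℚ) N ℓ x)
        = heckeAlphaBar (AlgebraicClosure ℚ) N ℓ x) := by
  obtain ⟨ι, Θ, hinj, -, hconst, hjd, hfrac⟩ := H44.core (N * ℓ)
  obtain ⟨W, hW⟩ := exists_atkinLehner_abstract hcop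
    (fun d _ hd => H23.jBarD (N * ℓ) d hd) (H23.Rsub (N * ℓ)) rfl Θ ι hinj hconst hjd hfrac
  obtain ⟨-, -, -, -, -, -, hfracN⟩ := H44.core N
  -- the generators of level `N` inside level `N ℓ`
  have hα : ∀ (d : ℕ) (_ : NeZero d) (hd : d ∣ N) (_ : NeZero (d * 1)) (h1 : d * 1 ∣ N * ℓ),
      heckeAlphaBar (AlgebraicClosure ℚ) N ℓ (H23.jBarD N d hd) = H23.jBarD (N * ℓ) (d * 1) h1 := by
    intro d _ hd _ h1
    apply Subtype.ext
    rw [coe_heckeAlphaBar]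
    change coeffEmb _ (qExpand ℚ d jq) = coeffEmb _ (qExpand ℚ (d * 1) jq)
    congr 1
    exact qExpand_congr (mul_one d).symm jq
  have hβ : ∀ (d : ℕ) (_ : NeZero d) (hd : d ∣ N) (_ : NeZero (d * ℓ)) (h2 : d * ℓ ∣ N * ℓ),
      heckeBetaBar (AlgebraicClosure ℚ) N ℓ (H23.jBarD N d hd) = H23.jBarD (N * ℓ) (d * ℓ) h2 := by
    intro d _ hd _ h2
    apply Subtype.ext
    change qExpand _ ℓ (coeffEmb _ (qExpand ℚ d jq)) = coeffEmb _ (qExpand ℚ (d * ℓ) jq)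
    exact qExpand_coeffEmb_jq _ d ℓ
  have hfracN' : ∀ f : ↥(laurentBaseChange (AlgebraicClosure ℚ) (modularFunctionFieldFull N)),
      ∃ r s : ↥(Algebra.adjoin (AlgebraicClosure ℚ)
        {x | ∃ (d : ℕ) (_ : NeZero d) (hd : d ∣ N), x = H23.jBarD N d hd}),
        s ≠ 0 ∧ f * (s : ↥(laurentBaseChange (AlgebraicClosure ℚ) (modularFunctionFieldFull N)))
          = r := hfracN
  refine ⟨W, ?_, ?_⟩
  · refine algHom_eq_of_eqOn_gens _ hfracN'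
      (W.toAlgHom.comp (heckeAlphaBar (AlgebraicClosure ℚ) N ℓ))
      (heckeBetaBar (AlgebraicClosure ℚ) N ℓ) ?_
    rintro x ⟨d, hd0, hd, rfl⟩
    have i1 : NeZero (d * 1) := ⟨by simpa using NeZero.ne d⟩
    have i2 : NeZero (d * ℓ) := ⟨mul_ne_zero (NeZero.ne d) (NeZero.ne ℓ)⟩
    have h1 : d * 1 ∣ N * ℓ := by simpa using hd.mul_right ℓ
    have h2 : d * ℓ ∣ N * ℓ := Nat.mul_dvd_mul_right hd ℓ
    change W (heckeAlphaBar (AlgebraicClosure ℚ) N ℓ (H23.jBarD N d hd)) = _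
    rw [hα d hd0 hd i1 h1, hβ d hd0 hd i2 h2]
    exact hW d 1 ℓ i1 i2 hd (one_mul ℓ) h1 h2
  · refine algHom_eq_of_eqOn_gens _ hfracN'
      (W.toAlgHom.comp (heckeBetaBar (AlgebraicClosure ℚ) N ℓ))
      (heckeAlphaBar (AlgebraicClosure ℚ) N ℓ) ?_
    rintro x ⟨d, hd0, hd, rfl⟩
    have i1 : NeZero (d * 1) := ⟨by simpa using NeZero.ne d⟩
    have i2 : NeZero (d * ℓ) := ⟨mul_ne_zero (NeZero.ne d) (NeZero.ne ℓ)⟩
    have h1 : d * 1 ∣ N * ℓ := by simpa using hd.mul_right ℓ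
    have h2 : d * ℓ ∣ N * ℓ := Nat.mul_dvd_mul_right hd ℓ
    change W (heckeBetaBar (AlgebraicClosure ℚ) N ℓ (H23.jBarD N d hd)) = _
    rw [hα d hd0 hd i1 h1, hβ d hd0 hd i2 h2]
    exact hW d ℓ 1 i2 i1 hd (mul_one ℓ) h2 h1

/-- **Atkin–Lehner over `ℂ`**: an automorphism `W` of the function field of `X₀(N ℓ)` over `ℂ`
with `W ∘ α = β` and `W ∘ β = α`. -/
theorem exists_atkinLehnerC (N ℓ : ℕ) [NeZero N] [NeZero ℓ] (hcop : Nat.Coprime N ℓ) :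
    ∃ W : ↥(laurentBaseChange ℂ (modularFunctionFieldFull (N * ℓ)))
        ≃ₐ[ℂ] ↥(laurentBaseChange ℂ (modularFunctionFieldFull (N * ℓ))),
      (∀ x, W (heckeAlphaBar ℂ N ℓ x) = heckeBetaBar ℂ N ℓ x) ∧
      (∀ x, W (heckeBetaBar ℂ N ℓ x) = heckeAlphaBar ℂ N ℓ x) := by
  obtain ⟨D⟩ := exists_coreDataC (N * ℓ) (H13.esaCoreC (N * ℓ)) (H13.esaRsubRep (N * ℓ))
  obtain ⟨W, hW⟩ := exists_atkinLehner_abstract hcop
    (fun d _ hd => H23.EsA.jC (N * ℓ) d hd) (H23.EsA.RsubC (N * ℓ)) rfl D.Θ (RingHom.id ℂ)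
    D.inj D.const D.jd D.frac
  obtain ⟨DN⟩ := exists_coreDataC N (H13.esaCoreC N) (H13.esaRsubRep N)
  have hα : ∀ (d : ℕ) (_ : NeZero d) (hd : d ∣ N) (_ : NeZero (d * 1)) (h1 : d * 1 ∣ N * ℓ),
      heckeAlphaBar ℂ N ℓ (H23.EsA.jC N d hd) = H23.EsA.jC (N * ℓ) (d * 1) h1 := by
    intro d _ hd _ h1
    apply Subtype.ext
    rw [coe_heckeAlphaBar]
    change coeffEmb _ (qExpand ℚ d jq) = coeffEmb _ (qExpand ℚ (d * 1) jq)
    congr 1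
    exact qExpand_congr (mul_one d).symm jq
  have hβ : ∀ (d : ℕ) (_ : NeZero d) (hd : d ∣ N) (_ : NeZero (d * ℓ)) (h2 : d * ℓ ∣ N * ℓ),
      heckeBetaBar ℂ N ℓ (H23.EsA.jC N d hd) = H23.EsA.jC (N * ℓ) (d * ℓ) h2 := by
    intro d _ hd _ h2
    apply Subtype.ext
    change qExpand _ ℓ (coeffEmb _ (qExpand ℚ d jq)) = coeffEmb _ (qExpand ℚ (d * ℓ) jq)
    exact qExpand_coeffEmb_jq _ d ℓ
  have hfracN' : ∀ f : ↥(laurentBaseChange ℂ (modularFunctionFieldFull N)),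
      ∃ r s : ↥(Algebra.adjoin ℂ
        {x | ∃ (d : ℕ) (_ : NeZero d) (hd : d ∣ N), x = H23.EsA.jC N d hd}),
        s ≠ 0 ∧ f * (s : ↥(laurentBaseChange ℂ (modularFunctionFieldFull N))) = r := DN.frac
  refine ⟨W, ?_, ?_⟩
  · refine algHom_eq_of_eqOn_gens _ hfracN'
      (W.toAlgHom.comp (heckeAlphaBar ℂ N ℓ)) (heckeBetaBar ℂ N ℓ) ?_
    rintro x ⟨d, hd0, hd, rfl⟩
    have i1 : NeZero (d * 1) := ⟨by simpa using NeZero.ne d⟩
    have i2 : NeZero (d * ℓ) := ⟨mul_ne_zero (NeZero.ne d) (NeZero.ne ℓ)⟩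
    have h1 : d * 1 ∣ N * ℓ := by simpa using hd.mul_right ℓ
    have h2 : d * ℓ ∣ N * ℓ := Nat.mul_dvd_mul_right hd ℓ
    change W (heckeAlphaBar ℂ N ℓ (H23.EsA.jC N d hd)) = _
    rw [hα d hd0 hd i1 h1, hβ d hd0 hd i2 h2]
    exact hW d 1 ℓ i1 i2 hd (one_mul ℓ) h1 h2
  · refine algHom_eq_of_eqOn_gens _ hfracN'
      (W.toAlgHom.comp (heckeBetaBar ℂ N ℓ)) (heckeAlphaBar ℂ N ℓ) ?_
    rintro x ⟨d, hd0, hd, rfl⟩
    have i1 : NeZero (d * 1) := ⟨by simpa using NeZero.ne d⟩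
    have i2 : NeZero (d * ℓ) := ⟨mul_ne_zero (NeZero.ne d) (NeZero.ne ℓ)⟩
    have h1 : d * 1 ∣ N * ℓ := by simpa using hd.mul_right ℓ
    have h2 : d * ℓ ∣ N * ℓ := Nat.mul_dvd_mul_right hd ℓ
    change W (heckeBetaBar ℂ N ℓ (H23.EsA.jC N d hd)) = _
    rw [hα d hd0 hd i1 h1, hβ d hd0 hd i2 h2]
    exact hW d ℓ 1 i2 i1 hd (mul_one ℓ) h2 h1

end Fermat.Agent.H41

end
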