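import Mathlib
import Fermat.Prelude.Def_FLTPrelim_Modularity

/-!
# P-DS block (4a): the elementary Rankin bound, analytic half

For a cusp form `f` of weight `k` on an arithmetic subgroup with strict period `h`, with
`q`-expansion `∑ aₙ qⁿ`:

* `bessel_qExpansion` : `∑_{n ∈ s} ‖aₙ‖² exp (-4π n t / h) ≤ B²` whenever `‖f (u + i t)‖ ≤ B` on the
  horizontal line of height `t` (Parseval on `[0, h]`);
* `sum_norm_sq_qExpansion_le` : `∑_{1 ≤ n ≤ x} ‖aₙ‖² ≤ C x ^ k`;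
* `rankin_partial_sum_bound` : for `f : CuspForm (Gamma1 N) 1`,
  `∑_{1 ≤ n ≤ x} ‖qCoeff f n‖² ≤ C x`.
-/

set_option autoImplicit false

namespace Fermat.Agent.H41

open Complex MeasureTheory Real Filter
open UpperHalfPlane hiding I
open scoped Topology Manifold MatrixGroups

local notation "𝕢" => Function.Periodic.qParam

/-- The horizontal slice `u ↦ f (u + i t)` of a function on the upper half plane. -/
noncomputable def hSlice (f : ℍ → ℂ) (t : ℝ) (ht : 0 < t) (u : ℝ) : ℂ :=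
  f ⟨(u : ℂ) + t * I, by simpa using ht⟩

lemma continuous_hSlice {f : ℍ → ℂ} (hf : Continuous f) (t : ℝ) (ht : 0 < t) :
    Continuous (hSlice f t ht) := by
  unfold hSlice
  refine hf.comp ?_
  refine UpperHalfPlane.isEmbedding_coe.continuous_iff.mpr ?_
  show Continuous fun u : ℝ => (u : ℂ) + t * Complex.I
  fun_prop

/-- The `n`-th `q`-expansion coefficient is `exp (2π n t / h)` times the `n`-th Fourier
coefficient of the horizontal slice at height `t`. -/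
lemma qExpansion_coeff_eq_fourierCoeffOn {f : ℍ → ℂ} {h : ℝ} (hh : 0 < h)
    (hfper : Function.Periodic (f ∘ ofComplex) h) (hfhol : MDiff f)
    (hfbdd : IsBoundedAtImInfty f) (n : ℕ) {t : ℝ} (ht : 0 < t) :
    (qExpansion h f).coeff n =
      (Real.exp (2 * π * n * t / h) : ℂ) * fourierCoeffOn hh (hSlice f t ht) (n : ℤ) := by
  have key : ∫ u in (0 : ℝ)..h, 1 / 𝕢 h ((u : ℂ) + t * Complex.I) ^ n * hSlice f t ht u =
      (Real.exp (2 * π * n * t / h) : ℂ) *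
        ∫ x in (0 : ℝ)..h, fourier (-(n : ℤ)) (x : AddCircle (h - 0)) * hSlice f t ht x := by
    rw [← intervalIntegral.integral_const_mul]
    refine intervalIntegral.integral_congr (μ := volume) fun u _ => ?_
    show 1 / 𝕢 h ((u : ℂ) + t * Complex.I) ^ n * hSlice f t ht u =
      (Real.exp (2 * π * n * t / h) : ℂ) *
        (fourier (-(n : ℤ)) (u : AddCircle (h - 0)) * hSlice f t ht u)
    rw [fourier_coe_apply, ← mul_assoc]
    congr 1
    rw [Function.Periodic.qParam, ← Complex.exp_nat_mul, one_div, ← Complex.exp_neg,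
      Complex.ofReal_exp, ← Complex.exp_add]
    congr 1
    have hI := Complex.I_sq
    have hh' : (h : ℂ) ≠ 0 := by exact_mod_cast hh.ne'
    push_cast
    rw [sub_zero]
    field_simp
    ring_nf
    rw [hI]
    ring
  rw [qExpansion_coeff_eq_intervalIntegral hh hfper hfhol hfbdd n ht, fourierCoeffOn_eq_integral]
  simp only [smul_eq_mul, Complex.real_smul]
  have e : ∫ u in (0 : ℝ)..h, 1 / 𝕢 h ((u : ℂ) + t * ((UpperHalfPlane.I : ℍ) : ℂ)) ^ n *
        f ⟨(u : ℂ) + t * ((UpperHalfPlane.I : ℍ) : ℂ), by simpa using ht⟩ =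
      ∫ u in (0 : ℝ)..h, 1 / 𝕢 h ((u : ℂ) + t * Complex.I) ^ n * hSlice f t ht u := rfl
  rw [e, key]
  push_cast
  rw [sub_zero]
  ring

/-- **Bessel's inequality for `q`-expansions.** -/
theorem bessel_qExpansion {f : ℍ → ℂ} {h : ℝ} (hh : 0 < h)
    (hfper : Function.Periodic (f ∘ ofComplex) h) (hfhol : MDiff f)
    (hfbdd : IsBoundedAtImInfty f) {t : ℝ} (ht : 0 < t) {B : ℝ}
    (hB : ∀ u : ℝ, ‖hSlice f t ht u‖ ≤ B) (s : Finset ℕ) :
    ∑ n ∈ s, ‖(qExpansion h f).coeff n‖ ^ 2 * Real.exp (-(4 * π * n * t / h)) ≤ B ^ 2 := by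
  have hB0 : 0 ≤ B := (norm_nonneg _).trans (hB 0)
  have hcont : Continuous (hSlice f t ht) := continuous_hSlice hfhol.continuous t ht
  have hL2 : MemLp (hSlice f t ht) 2 (volume.restrict (Set.Ioc 0 h)) :=
    MemLp.of_bound hcont.aestronglyMeasurable B (ae_of_all _ hB)
  have hsum := hasSum_sq_fourierCoeffOn hh hL2
  -- the integral bound
  have hint : (h - 0)⁻¹ • ∫ x in (0 : ℝ)..h, ‖hSlice f t ht x‖ ^ 2 ≤ B ^ 2 := by
    have h1 : ∫ x in (0 : ℝ)..h, ‖hSlice f t ht x‖ ^ 2 ≤ ∫ _x in (0 : ℝ)..h, B ^ 2 := by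
      refine intervalIntegral.integral_mono hh.le ?_ ?_ fun x => ?_
      · exact (hcont.norm.pow 2).intervalIntegrable _ _
      · exact continuous_const.intervalIntegrable _ _
      · exact pow_le_pow_left₀ (norm_nonneg _) (hB x) 2
    rw [intervalIntegral.integral_const, sub_zero, smul_eq_mul] at h1
    rw [sub_zero, smul_eq_mul]
    calc h⁻¹ * ∫ x in (0 : ℝ)..h, ‖hSlice f t ht x‖ ^ 2 ≤ h⁻¹ * (h * B ^ 2) := by gcongr
      _ = B ^ 2 := by field_simp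
  -- compare the sums
  have hterm : ∀ n : ℕ, ‖(qExpansion h f).coeff n‖ ^ 2 * Real.exp (-(4 * π * n * t / h)) =
      ‖fourierCoeffOn hh (hSlice f t ht) (n : ℤ)‖ ^ 2 := by
    intro n
    rw [qExpansion_coeff_eq_fourierCoeffOn hh hfper hfhol hfbdd n ht, norm_mul, mul_pow,
      Complex.norm_real, Real.norm_of_nonneg (Real.exp_pos _).le, ← Real.exp_nat_mul, mul_comm,
      ← mul_assoc, ← Real.exp_add]
    have : -(4 * π * n * t / h) + ((2 : ℕ) : ℝ) * (2 * π * n * t / h) = 0 := by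
      push_cast; ring
    rw [this, Real.exp_zero, one_mul]
  calc ∑ n ∈ s, ‖(qExpansion h f).coeff n‖ ^ 2 * Real.exp (-(4 * π * n * t / h))
      = ∑ n ∈ s, ‖fourierCoeffOn hh (hSlice f t ht) (n : ℤ)‖ ^ 2 :=
        Finset.sum_congr rfl fun n _ => hterm n
    _ = ∑ i ∈ s.map ⟨((↑) : ℕ → ℤ), Nat.cast_injective⟩,
          ‖fourierCoeffOn hh (hSlice f t ht) i‖ ^ 2 := by
        rw [Finset.sum_map]; rfl
    _ ≤ (h - 0)⁻¹ • ∫ x in (0 : ℝ)..h, ‖hSlice f t ht x‖ ^ 2 :=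
        sum_le_hasSum _ (fun i _ => by positivity) hsum
    _ ≤ B ^ 2 := hint

/-- **Elementary Rankin bound**, general form: for a cusp form of weight `k` on an arithmetic
subgroup, `∑_{1 ≤ n ≤ x} ‖aₙ‖² = O(x ^ k)`. -/
theorem sum_norm_sq_qExpansion_le {k : ℤ} {Γ : Subgroup (GL (Fin 2) ℝ)} [Γ.IsArithmetic]
    {F : Type*} [FunLike F ℍ ℂ] [CuspFormClass F Γ k] (f : F) {h : ℝ} (hh : 0 < h)
    (hΓ : h ∈ Γ.strictPeriods) :
    ∃ C : ℝ, 0 ≤ C ∧ ∀ x : ℕ,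
      ∑ n ∈ Finset.Icc 1 x, ‖(qExpansion h f).coeff n‖ ^ 2 ≤ C * (x : ℝ) ^ (k : ℝ) := by
  obtain ⟨C, hC⟩ := CuspFormClass.exists_bound (k := k) (Γ := Γ) f
  have hC0 : 0 ≤ C := by
    have := (norm_nonneg _).trans (hC UpperHalfPlane.I)
    simpa using this
  have : Fact (IsCusp OnePoint.infty Γ) := ⟨Γ.isCusp_of_mem_strictPeriods hh hΓ⟩
  have hfper := SlashInvariantFormClass.periodic_comp_ofComplex f hΓ
  have hfhol : MDiff (f : ℍ → ℂ) := ModularFormClass.holo f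
  have hfbdd : IsBoundedAtImInfty (f : ℍ → ℂ) := ModularFormClass.bdd_at_infty f
  refine ⟨Real.exp (4 * π / h) * C ^ 2, by positivity, fun x => ?_⟩
  rcases Nat.eq_zero_or_pos x with rfl | hx
  · simp only [Finset.Icc_eq_empty_of_lt zero_lt_one, Finset.sum_empty]
    positivity
  have hx' : (0 : ℝ) < x := by exact_mod_cast hx
  have ht : (0 : ℝ) < 1 / x := by positivity
  set B : ℝ := C / (1 / (x : ℝ)) ^ ((k : ℝ) / 2) with hBdef
  have hB : ∀ u : ℝ, ‖hSlice (f : ℍ → ℂ) (1 / x) ht u‖ ≤ B := by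
    intro u
    have key := hC ⟨(u : ℂ) + ((1 / x : ℝ) : ℂ) * Complex.I, by simpa using ht⟩
    have him : UpperHalfPlane.im ⟨(u : ℂ) + ((1 / x : ℝ) : ℂ) * Complex.I,
        by simpa using ht⟩ = 1 / (x : ℝ) := by
      simp [UpperHalfPlane.im]
    rw [him] at key
    exact key
  have hbess := bessel_qExpansion hh hfper hfhol hfbdd ht hB (Finset.Icc 1 x)
  have hB2 : B ^ 2 = C ^ 2 * (x : ℝ) ^ (k : ℝ) := by
    have e1 : ((1 / (x : ℝ)) ^ ((k : ℝ) / 2)) ^ 2 = ((x : ℝ) ^ (k : ℝ))⁻¹ := by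
      rw [← Real.rpow_natCast _ 2, ← Real.rpow_mul ht.le, one_div, Real.inv_rpow hx'.le]
      congr 2
      push_cast; ring
    rw [hBdef, div_pow, e1, div_inv_eq_mul]
  have hlow : ∀ n ∈ Finset.Icc 1 x, ‖(qExpansion h f).coeff n‖ ^ 2 * Real.exp (-(4 * π / h)) ≤
      ‖(qExpansion h f).coeff n‖ ^ 2 * Real.exp (-(4 * π * n * (1 / (x : ℝ)) / h)) := by
    intro n hn
    have hn' : (n : ℝ) ≤ x := by exact_mod_cast (Finset.mem_Icc.mp hn).2
    have hle : 4 * π * n * (1 / (x : ℝ)) / h ≤ 4 * π / h := by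
      have : (n : ℝ) / x ≤ 1 := (div_le_one hx').mpr hn'
      have e : 4 * π * n * (1 / (x : ℝ)) = 4 * π * ((n : ℝ) / x) := by ring
      rw [e]
      apply div_le_div_of_nonneg_right _ hh.le
      calc 4 * π * ((n : ℝ) / x) ≤ 4 * π * 1 := by gcongr
        _ = 4 * π := mul_one _
    have hexp_le : Real.exp (-(4 * π / h)) ≤ Real.exp (-(4 * π * n * (1 / (x : ℝ)) / h)) :=
      Real.exp_le_exp.mpr (neg_le_neg hle)
    exact mul_le_mul_of_nonneg_left hexp_le (by positivity)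
  have h1 : (∑ n ∈ Finset.Icc 1 x, ‖(qExpansion h f).coeff n‖ ^ 2) * Real.exp (-(4 * π / h)) ≤
      B ^ 2 := by
    rw [Finset.sum_mul]
    exact (Finset.sum_le_sum hlow).trans hbess
  have hexp : Real.exp (4 * π / h) * Real.exp (-(4 * π / h)) = 1 := by
    rw [← Real.exp_add, add_neg_cancel, Real.exp_zero]
  calc ∑ n ∈ Finset.Icc 1 x, ‖(qExpansion h f).coeff n‖ ^ 2
      = Real.exp (4 * π / h) *
          ((∑ n ∈ Finset.Icc 1 x, ‖(qExpansion h f).coeff n‖ ^ 2) * Real.exp (-(4 * π / h))) := by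
        rw [mul_comm (∑ n ∈ Finset.Icc 1 x, ‖(qExpansion h f).coeff n‖ ^ 2), ← mul_assoc, hexp,
          one_mul]
    _ ≤ Real.exp (4 * π / h) * B ^ 2 := by gcongr
    _ = Real.exp (4 * π / h) * C ^ 2 * (x : ℝ) ^ (k : ℝ) := by rw [hB2, mul_assoc]

open CongruenceSubgroup in
lemma one_mem_strictPeriods_Gamma1' (N : ℕ) :
    (1 : ℝ) ∈ ((Gamma1 N : Subgroup SL(2, ℤ)) : Subgroup (GL (Fin 2) ℝ)).strictPeriods := by
  rw [CongruenceSubgroup.strictPeriods_Gamma1]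
  exact AddSubgroup.mem_zmultiples 1

open CongruenceSubgroup in
/-- **Elementary Rankin bound** (P-DS block (4a)): for a weight one cusp form on `Γ₁(N)`,
`∑_{1 ≤ n ≤ x} ‖aₙ‖² ≤ C x`. -/
theorem rankin_partial_sum_bound (N : ℕ) [NeZero N] (f : CuspForm (Gamma1 N) 1) :
    ∃ C : ℝ, 0 ≤ C ∧ ∀ x : ℕ,
      ∑ n ∈ Finset.Icc 1 x, ‖ModularFormClass.qCoeff f n‖ ^ 2 ≤ C * x := by
  obtain ⟨C, hC0, hC⟩ := sum_norm_sq_qExpansion_le (k := 1)
    (Γ := ((Gamma1 N : Subgroup SL(2, ℤ)) : Subgroup (GL (Fin 2) ℝ))) f one_pos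
    (one_mem_strictPeriods_Gamma1' N)
  refine ⟨C, hC0, fun x => ?_⟩
  have := hC x
  simpa [ModularFormClass.qCoeff] using this

open CongruenceSubgroup in
/-- The same bound for cusp forms of any weight `k` on `Γ₁(N)`: `∑_{1 ≤ n ≤ x} ‖aₙ‖² ≤ C x ^ k`. -/
theorem rankin_partial_sum_bound_weight (N : ℕ) [NeZero N] (k : ℤ)
    (f : CuspForm (Gamma1 N) k) :
    ∃ C : ℝ, 0 ≤ C ∧ ∀ x : ℕ,
      ∑ n ∈ Finset.Icc 1 x, ‖ModularFormClass.qCoeff f n‖ ^ 2 ≤ C * (x : ℝ) ^ (k : ℝ) := by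
  obtain ⟨C, hC0, hC⟩ := sum_norm_sq_qExpansion_le (k := k)
    (Γ := ((Gamma1 N : Subgroup SL(2, ℤ)) : Subgroup (GL (Fin 2) ℝ))) f one_pos
    (one_mem_strictPeriods_Gamma1' N)
  exact ⟨C, hC0, fun x => hC x⟩

open CongruenceSubgroup in
/-- The same bound for cusp forms of any weight `k` on `Γ₀(N)`. -/
theorem rankin_partial_sum_bound_Gamma0 (N : ℕ) [NeZero N] (k : ℤ)
    (f : CuspForm (Gamma0 N) k) :
    ∃ C : ℝ, 0 ≤ C ∧ ∀ x : ℕ,
      ∑ n ∈ Finset.Icc 1 x, ‖ModularFormClass.qCoeff f n‖ ^ 2 ≤ C * (x : ℝ) ^ (k : ℝ) := by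
  have h1 : (1 : ℝ) ∈ ((Gamma0 N : Subgroup SL(2, ℤ)) : Subgroup (GL (Fin 2) ℝ)).strictPeriods := by
    rw [CongruenceSubgroup.strictPeriods_Gamma0]
    exact AddSubgroup.mem_zmultiples 1
  obtain ⟨C, hC0, hC⟩ := sum_norm_sq_qExpansion_le (k := k)
    (Γ := ((Gamma0 N : Subgroup SL(2, ℤ)) : Subgroup (GL (Fin 2) ℝ))) f one_pos h1
  exact ⟨C, hC0, fun x => hC x⟩

end Fermat.Agent.H41
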