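import Fermat.Agent.H41.HolRoot
import Fermat.Agent.H94.EsA.Interfaces
import Fermat.Agent.H23.EsA.Parts

/-!
# P-ES / ES-A/ROOT (helper41): `RootStatement`

Adapter from `Fermat.Agent.H41.exists_holomorphic_root_halfPlane` (Mathlib only) to the interface
statement `Fermat.Agent.H94.EsA.RootStatement`.
-/

open UpperHalfPlane Complex Set
open scoped Manifold Topology

namespace Fermat.Agent.H41

/-- `ℍ`-version of **[ROOT]**: a holomorphic function `f : ℍ → ℂ` all of whose orders of
vanishing are divisible by `m` is an `m`-th power of a holomorphic function (`f = 0` allowed). -/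
theorem exists_mdiff_root (m : ℕ) (hm : m ≠ 0) (f : ℍ → ℂ) (hf : MDiff f)
    (hord : ∀ z : ℍ, m ∣ analyticOrderNatAt (f ∘ ofComplex) (z : ℂ)) :
    ∃ g : ℍ → ℂ, MDiff g ∧ g ^ m = f := by
  rw [UpperHalfPlane.mdifferentiable_iff] at hf
  obtain ⟨G, hGd, hGm⟩ := exists_holomorphic_root_halfPlane m hm (f ∘ ofComplex) hf
    (fun z hz => hord ⟨z, hz⟩)
  refine ⟨fun τ => G τ, ?_, ?_⟩
  · rw [UpperHalfPlane.mdifferentiable_iff]
    refine hGd.congr fun z hz => ?_
    simp only [Function.comp_apply]
    rw [ofComplex_apply_of_im_pos hz]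
  · funext τ
    have h := hGm τ τ.im_pos
    simp only [Function.comp_apply, ofComplex_apply] at h
    simpa using h

/-- **ES-A/ROOT**. -/
theorem rootStatement : H94.EsA.RootStatement := by
  intro m hm f hf _ hord
  refine exists_mdiff_root m hm.ne' f hf fun z => ?_
  obtain ⟨k, hk⟩ := hord z
  refine ⟨k, ?_⟩
  rw [analyticOrderNatAt, hk]
  simp

/-- **ES-A/ROOT**, in the shape of `Fermat.Agent.H23.EsA.RootStatement` (meromorphic orders). -/
theorem rootStatement' : H23.EsA.RootStatement := by
  intro m hm f hf hord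
  refine exists_mdiff_root m hm.ne' f hf fun z => ?_
  obtain ⟨k, hk⟩ := hord z
  refine ⟨k, ?_⟩
  have hfa : AnalyticAt ℂ (f ∘ ofComplex) (z : ℂ) :=
    ((UpperHalfPlane.mdifferentiable_iff.mp hf).analyticOnNhd
      (isOpen_lt continuous_const Complex.continuous_im)) z z.im_pos
  rw [hfa.meromorphicOrderAt_eq] at hk
  have h2 : analyticOrderAt (f ∘ ofComplex) (z : ℂ) = ((m * k : ℕ) : ℕ∞) := by
    cases h : analyticOrderAt (f ∘ ofComplex) (z : ℂ) with
    | top =>
      rw [h, ENat.map_top] at hk
      exact absurd hk WithTop.top_ne_coe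
    | coe n =>
      rw [h, ENat.map_natCast] at hk
      have h3 : (n : ℤ) = ((m * k : ℕ) : ℤ) := by exact_mod_cast hk
      have h4 : n = m * k := by exact_mod_cast h3
      rw [h4]
  rw [analyticOrderNatAt, h2]
  simp

end Fermat.Agent.H41
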