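/-
The weight-2 Eisenstein series of level `N`:  `z ↦ N * E₂(N z) - E₂(z)` as a modular form
on `Γ₀(N)`, with its `q`-expansion.  helper41.
-/
import Fermat.Agent.H62.SeparatingForm
import Fermat.Agent.H15.Ramanujan

set_option autoImplicit false

noncomputable section

open UpperHalfPlane ModularForm CongruenceSubgroup EisensteinSeries
open scoped MatrixGroups Manifold Topology ModularForm Pointwise

namespace Fermat.Agent.H41

local notation "𝕢" => Function.Periodic.qParam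

/-! ### The correction term `D2` -/

theorem norm_denom_ge (γ : SL(2, ℤ)) (z : ℍ) :
    |((γ 1 0 : ℤ) : ℝ)| * z.im ≤ ‖denom (γ : GL (Fin 2) ℝ) z‖ := by
  have h1 : (denom (γ : GL (Fin 2) ℝ) z).im = ((γ 1 0 : ℤ) : ℝ) * z.im := by
    rw [ModularGroup.denom_apply]
    simp
  calc |((γ 1 0 : ℤ) : ℝ)| * z.im = |((γ 1 0 : ℤ) : ℝ) * z.im| := by
        rw [abs_mul, abs_of_pos z.im_pos]
    _ = |(denom (γ : GL (Fin 2) ℝ) z).im| := by rw [h1]
    _ ≤ ‖denom (γ : GL (Fin 2) ℝ) z‖ := Complex.abs_im_le_norm _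

theorem isBoundedAtImInfty_D2 (γ : SL(2, ℤ)) : IsBoundedAtImInfty (D2 γ) := by
  rw [isBoundedAtImInfty_iff]
  refine ⟨2 * Real.pi, 1, fun z hz => ?_⟩
  unfold D2
  rw [norm_div]
  have hden : denom (γ : GL (Fin 2) ℝ) z ≠ 0 := denom_ne_zero _ z
  have hpos : 0 < ‖denom (γ : GL (Fin 2) ℝ) z‖ := norm_pos_iff.mpr hden
  rw [div_le_iff₀ hpos]
  have h1 : ‖(2 * (Real.pi : ℂ) * Complex.I * ((γ 1 0 : ℤ) : ℂ))‖ = 2 * Real.pi * |((γ 1 0 : ℤ) : ℝ)| := by
    simp [abs_of_pos Real.pi_pos]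
  rw [h1]
  have h2 := norm_denom_ge γ z
  have h3 : |((γ 1 0 : ℤ) : ℝ)| ≤ |((γ 1 0 : ℤ) : ℝ)| * z.im := by
    have := abs_nonneg ((γ 1 0 : ℤ) : ℝ)
    nlinarith
  have h4 : (0 : ℝ) ≤ 2 * Real.pi := by positivity
  calc 2 * Real.pi * |((γ 1 0 : ℤ) : ℝ)| ≤ 2 * Real.pi * ‖denom (γ : GL (Fin 2) ℝ) z‖ :=
        mul_le_mul_of_nonneg_left (h3.trans h2) h4

/-! ### Upper triangular matrices -/

theorem im_upperTriangularGL_smul (g b d : ℤ) (had : (g : ℝ) * (d : ℝ) ≠ 0)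
    (hg : 0 < g) (hd : 0 < d) (z : ℍ) :
    (upperTriangularGL g b d had • z).im = (g : ℝ) / (d : ℝ) * z.im := by
  have hdetv : ((upperTriangularGL g b d had).det : ℝ) = (g : ℝ) * d := by
    rw [Matrix.GeneralLinearGroup.val_det_apply, val_upperTriangularGL, Matrix.det_fin_two_of]
    ring
  have hgR : (0 : ℝ) < g := by exact_mod_cast hg
  have hdR : (0 : ℝ) < d := by exact_mod_cast hd
  have hden : UpperHalfPlane.denom (upperTriangularGL g b d had) z = (d : ℂ) := by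
    simp [UpperHalfPlane.denom, val_upperTriangularGL]
  rw [UpperHalfPlane.im_smul_eq_div_normSq, hdetv, hden, abs_of_pos (mul_pos hgR hdR)]
  have : Complex.normSq ((d : ℤ) : ℂ) = (d : ℝ) * d := by
    rw [show ((d : ℤ) : ℂ) = (((d : ℤ) : ℝ) : ℂ) by push_cast; rfl, Complex.normSq_ofReal]
  rw [this]
  field_simp

theorem isBoundedAtImInfty_slash_upperTriangularGL {h : ℍ → ℂ} (hb : IsBoundedAtImInfty h)
    (k : ℤ) (g b d : ℤ) (had : (g : ℝ) * (d : ℝ) ≠ 0) (hg : 0 < g) (hd : 0 < d) :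
    IsBoundedAtImInfty (h ∣[k] upperTriangularGL g b d had) := by
  rw [isBoundedAtImInfty_iff] at hb ⊢
  obtain ⟨M, A, hMA⟩ := hb
  have hgR : (0 : ℝ) < g := by exact_mod_cast hg
  have hdR : (0 : ℝ) < d := by exact_mod_cast hd
  refine ⟨M * ‖((g : ℂ) * (d : ℂ)) ^ (k - 1) * (d : ℂ) ^ (-k)‖, A * ((d : ℝ) / g), fun z hz => ?_⟩
  rw [H62.slash_upperTriangularGL_apply k g b d had hg hd h z, mul_assoc, norm_mul]
  refine mul_le_mul_of_nonneg_right (hMA _ ?_) (norm_nonneg _)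
  rw [im_upperTriangularGL_smul g b d had hg hd]
  have : A = (g : ℝ) / d * (A * ((d : ℝ) / g)) := by field_simp
  rw [this]
  exact mul_le_mul_of_nonneg_left hz (by positivity)

/-! ### The Eisenstein series -/

theorem sub_slash_GL (f g : ℍ → ℂ) (k : ℤ) (A : GL (Fin 2) ℝ) :
    (f - g) ∣[k] A = f ∣[k] A - g ∣[k] A := by
  rw [sub_eq_add_neg, SlashAction.add_slash, SlashAction.neg_slash, ← sub_eq_add_neg]

/-- The real constant `3 / π ^ 2 = 1 / (2 ζ(2))`. -/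
def c₀ : ℝ := 3 / Real.pi ^ 2

theorem c₀_eq : (1 / (2 * riemannZeta 2) : ℂ) = ((c₀ : ℝ) : ℂ) := by
  have hpi : (Real.pi : ℂ) ≠ 0 := by exact_mod_cast Real.pi_ne_zero
  rw [riemannZeta_two, c₀]
  push_cast
  field_simp
  ring

theorem E2_slash_SL (γ : SL(2, ℤ)) :
    E2 ∣[(2 : ℤ)] (γ : GL (Fin 2) ℝ) = E2 - ((c₀ : ℝ) : ℂ) • D2 γ := by
  have h := E2_slash_action γ
  rw [c₀_eq] at h
  exact h

theorem smul_slash_real (k : ℤ) (A : GL (Fin 2) ℝ) (f : ℍ → ℂ) (c : ℝ) :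
    ((c : ℂ) • f) ∣[k] A = (c : ℂ) • f ∣[k] A := by
  rw [ModularForm.smul_slash, σ_ofReal]

/-- The function `z ↦ N E₂(N z) - E₂(z)`. -/
def eisTwoFun (N : ℕ) : ℍ → ℂ := E2 ∣[(2 : ℤ)] heckeDiagMatrix N - E2

theorem eisTwoFun_apply (N : ℕ) [NeZero N] (z : ℍ) :
    eisTwoFun N z = N * E2 (heckeDiagMatrix N • z) - E2 z := by
  simp [eisTwoFun, slash_heckeDiagMatrix_apply 2 (NeZero.ne N)]

theorem mdiff_eisTwoFun (N : ℕ) : MDiff (eisTwoFun N) :=
  (E2_mdifferentiable.slash 2 _).sub E2_mdifferentiable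

/-- General transformation formula: if `diag(N,1) γ = δ β` then
`eisTwoFun ∣ γ = (E₂ ∣ β - E₂) - c₀ (D₂ δ ∣ β - D₂ γ)`. -/
theorem eisTwoFun_slash (N : ℕ) (γ δ : SL(2, ℤ)) (β : GL (Fin 2) ℝ)
    (h : heckeDiagMatrix N * (γ : GL (Fin 2) ℝ) = (δ : GL (Fin 2) ℝ) * β) :
    eisTwoFun N ∣[(2 : ℤ)] (γ : GL (Fin 2) ℝ) =
      (E2 ∣[(2 : ℤ)] β - E2) - ((c₀ : ℝ) : ℂ) • ((D2 δ) ∣[(2 : ℤ)] β - D2 γ) := by
  unfold eisTwoFun
  rw [sub_slash_GL, ← SlashAction.slash_mul, h, SlashAction.slash_mul, E2_slash_SL, E2_slash_SL,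
    sub_slash_GL, smul_slash_real, smul_sub]
  abel

open Matrix.SpecialLinearGroup in
/-- For `γ ∈ Γ₀(N)`: `diag(N,1) γ = δ diag(N,1)` with `δ ∈ SL(2,ℤ)`, `N δ₁₀ = γ₁₀`, `δ₁₁ = γ₁₁`. -/
theorem exists_conj_of_mem_Gamma0 (N : ℕ) [NeZero N] (γ : SL(2, ℤ)) (hγ : γ ∈ Gamma0 N) :
    ∃ δ : SL(2, ℤ), (N : ℤ) * δ 1 0 = γ 1 0 ∧ δ 1 1 = γ 1 1 ∧
      heckeDiagMatrix N * (γ : GL (Fin 2) ℝ) = (δ : GL (Fin 2) ℝ) * heckeDiagMatrix N := by
  rw [Gamma0_mem] at hγ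
  obtain ⟨c', hc'⟩ : (N : ℤ) ∣ γ 1 0 := (ZMod.intCast_zmod_eq_zero_iff_dvd _ _).mp hγ
  have hdet : γ 0 0 * γ 1 1 - γ 0 1 * γ 1 0 = 1 := by
    have := γ.det_coe
    rwa [Matrix.det_fin_two] at this
  let δ : SL(2, ℤ) := ⟨!![γ 0 0, N * γ 0 1; c', γ 1 1], by
    rw [Matrix.det_fin_two_of]
    rw [hc'] at hdet
    linear_combination hdet⟩
  refine ⟨δ, ?_, ?_, ?_⟩
  · simp [δ, hc']
  · simp [δ]
  · have hN : N ≠ 0 := NeZero.ne N
    apply Matrix.GeneralLinearGroup.ext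
    intro i j
    rw [Matrix.GeneralLinearGroup.coe_mul, Matrix.GeneralLinearGroup.coe_mul,
      val_heckeDiagMatrix hN, Matrix.mul_apply, Matrix.mul_apply, Fin.sum_univ_two,
      Fin.sum_univ_two]
    have e1 : ∀ (g : SL(2, ℤ)) (a b : Fin 2),
        ((g : GL (Fin 2) ℝ) : Matrix (Fin 2) (Fin 2) ℝ) a b = ((g a b : ℤ) : ℝ) :=
      fun g a b => H62.mapGL_apply g a b
    simp only [e1]
    fin_cases i <;> fin_cases j <;>
      simp [δ, hc'] <;> ring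

theorem D2_slash_heckeDiagMatrix (N : ℕ) [NeZero N] (γ δ : SL(2, ℤ))
    (h10 : (N : ℤ) * δ 1 0 = γ 1 0) (h11 : δ 1 1 = γ 1 1) :
    (D2 δ) ∣[(2 : ℤ)] heckeDiagMatrix N = D2 γ := by
  funext z
  have hN : N ≠ 0 := NeZero.ne N
  rw [slash_heckeDiagMatrix_apply 2 hN, show (2 : ℤ) - 1 = 1 by norm_num, zpow_one]
  unfold D2
  rw [ModularGroup.denom_apply, ModularGroup.denom_apply, coe_heckeDiagMatrix_smul hN, ← h10,
    h11]
  push_cast
  ring

theorem eisTwoFun_slash_of_mem_Gamma0 (N : ℕ) [NeZero N] (γ : SL(2, ℤ)) (hγ : γ ∈ Gamma0 N) :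
    eisTwoFun N ∣[(2 : ℤ)] (γ : GL (Fin 2) ℝ) = eisTwoFun N := by
  obtain ⟨δ, h10, h11, h⟩ := exists_conj_of_mem_Gamma0 N γ hγ
  rw [eisTwoFun_slash N γ δ _ h, D2_slash_heckeDiagMatrix N γ δ h10 h11, sub_self, smul_zero,
    sub_zero]
  rfl

theorem isBoundedAtImInfty_eisTwoFun_slash (N : ℕ) [NeZero N] (γ : SL(2, ℤ)) :
    IsBoundedAtImInfty (eisTwoFun N ∣[(2 : ℤ)] (γ : GL (Fin 2) ℝ)) := by
  obtain ⟨δ, g, d', b', v, had, hg, hd, -, -, h⟩ := H62.exists_decomp N γ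
  rw [eisTwoFun_slash N γ δ _ h]
  have h1 : IsBoundedAtImInfty (E2 ∣[(2 : ℤ)] upperTriangularGL g b' d' had) :=
    isBoundedAtImInfty_slash_upperTriangularGL isBoundedAtImInfty_E2 2 g b' d' had hg hd
  have h2 : IsBoundedAtImInfty ((D2 δ) ∣[(2 : ℤ)] upperTriangularGL g b' d' had) :=
    isBoundedAtImInfty_slash_upperTriangularGL (isBoundedAtImInfty_D2 δ) 2 g b' d' had hg hd
  have h3 : IsBoundedAtImInfty (E2 ∣[(2 : ℤ)] upperTriangularGL g b' d' had - E2) := by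
    rw [sub_eq_add_neg]
    exact Filter.BoundedAtFilter.add h1 (Filter.BoundedAtFilter.neg isBoundedAtImInfty_E2)
  have h4 : IsBoundedAtImInfty ((D2 δ) ∣[(2 : ℤ)] upperTriangularGL g b' d' had - D2 γ) := by
    rw [sub_eq_add_neg]
    exact Filter.BoundedAtFilter.add h2 (Filter.BoundedAtFilter.neg (isBoundedAtImInfty_D2 γ))
  rw [sub_eq_add_neg]
  exact Filter.BoundedAtFilter.add h3
    (Filter.BoundedAtFilter.neg (Filter.BoundedAtFilter.smul _ h4))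

/-- The weight-2 Eisenstein series of level `N`: `z ↦ N E₂(N z) - E₂(z)`. -/
def eisTwo (N : ℕ) [NeZero N] : ModularForm (Gamma0 N) 2 where
  toFun := eisTwoFun N
  slash_action_eq' := by
    rintro _ ⟨γ, hγ, rfl⟩
    exact eisTwoFun_slash_of_mem_Gamma0 N γ hγ
  holo' := mdiff_eisTwoFun N
  bdd_at_cusps' := by
    intro c hc
    rw [Subgroup.IsArithmetic.isCusp_iff_isCusp_SL2Z] at hc
    rw [OnePoint.isBoundedAt_iff_forall_SL2Z hc]
    intro γ _
    exact isBoundedAtImInfty_eisTwoFun_slash N γ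

theorem eisTwo_apply (N : ℕ) [NeZero N] (z : ℍ) :
    eisTwo N z = N * E2 (heckeDiagMatrix N • z) - E2 z :=
  eisTwoFun_apply N z

/-! ### The `q`-expansion -/

/-- The `q`-coefficients of `eisTwo N`. -/
def eisTwoCoeff (N : ℕ) (m : ℕ) : ℂ :=
  if m = 0 then (N : ℂ) - 1
  else 24 * ((ArithmeticFunction.sigma 1 m : ℂ) -
    (if N ∣ m then (N : ℂ) * (ArithmeticFunction.sigma 1 (m / N) : ℂ) else 0))

theorem hasSum_E2_dilate (N : ℕ) [NeZero N] (τ : ℍ) :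
    HasSum (fun n : ℕ => (if N ∣ n then
        (if n / N = 0 then (1 : ℂ) else -24 * (ArithmeticFunction.sigma 1 (n / N) : ℂ))
        else 0) • 𝕢 1 τ ^ n) (E2 (heckeDiagMatrix N • τ)) := by
  have hg := H15.hasSum_E2 (heckeDiagMatrix N • τ)
  rw [H62.qParam_heckeDiagMatrix_smul] at hg
  have hN : 0 < N := Nat.pos_of_ne_zero (NeZero.ne N)
  have hinj : Function.Injective (fun m : ℕ => N * m) := fun a b h =>
    Nat.eq_of_mul_eq_mul_left hN h
  rw [← hinj.hasSum_iff]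
  · convert hg using 2 with m
    simp only [Function.comp_apply, dvd_mul_right, if_true, Nat.mul_div_cancel_left _ hN,
      smul_eq_mul, pow_mul]
  · intro x hx
    have : ¬ N ∣ x := fun ⟨m, hm⟩ => hx ⟨m, hm.symm⟩
    simp [this]

theorem hasSum_eisTwo (N : ℕ) [NeZero N] (τ : ℍ) :
    HasSum (fun m : ℕ => eisTwoCoeff N m • 𝕢 1 τ ^ m) (eisTwo N τ) := by
  rw [eisTwo_apply]
  have h1 := (hasSum_E2_dilate N τ).mul_left (N : ℂ)
  have h2 := H15.hasSum_E2 τ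
  have h3 := h1.sub h2
  have hN : 0 < N := Nat.pos_of_ne_zero (NeZero.ne N)
  have key : (fun m : ℕ => eisTwoCoeff N m • 𝕢 1 τ ^ m) = fun b : ℕ =>
      (N : ℂ) * (if N ∣ b then
        (if b / N = 0 then (1 : ℂ) else -24 * (ArithmeticFunction.sigma 1 (b / N) : ℂ))
        else 0) • 𝕢 1 τ ^ b -
        (if b = 0 then (1 : ℂ) else -24 * (ArithmeticFunction.sigma 1 b : ℂ)) • 𝕢 1 τ ^ b := by
    funext m
    simp only [eisTwoCoeff, smul_eq_mul]
    by_cases hm : m = 0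
    · subst hm
      simp
    · by_cases hd : N ∣ m
      · have hq : m / N ≠ 0 := by
          intro h0
          rw [Nat.div_eq_zero_iff] at h0
          rcases h0 with h0 | h0
          · exact hN.ne' h0
          · exact absurd (Nat.le_of_dvd (Nat.pos_of_ne_zero hm) hd) (not_le.mpr h0)
        simp only [hm, hd, hq, if_true, if_false]
        ring
      · simp only [hm, hd, if_false]
        ring
  rw [key]
  exact h3

theorem qExpansion_eisTwo_coeff (N : ℕ) [NeZero N] (m : ℕ) :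
    (qExpansion 1 (eisTwo N)).coeff m = eisTwoCoeff N m := by
  have h1 : (1 : ℝ) ∈ ((Gamma0 N : Subgroup SL(2, ℤ)) : Subgroup (GL (Fin 2) ℝ)).strictPeriods :=
    CongruenceSubgroup.one_mem_strictPeriods_Gamma0 N
  exact (ModularFormClass.qExpansion_coeff_unique one_pos h1 (f := eisTwo N)
    (c := eisTwoCoeff N) (hasSum_eisTwo N) m).symm

/-! ### Prime level: the coefficients are `24 σ'(m)`, `σ'(m) = ∑_{d ∣ m, p ∤ d} d` -/

/-- Sum of the divisors of `m` prime to `p`. -/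
def sigmaPrime (p m : ℕ) : ℕ := ∑ d ∈ m.divisors.filter (fun d => ¬ p ∣ d), d

theorem sigma_one_eq_sigmaPrime_add (p : ℕ) (hp : p.Prime) (m : ℕ) (hm : m ≠ 0) :
    ArithmeticFunction.sigma 1 m =
      sigmaPrime p m + (if p ∣ m then p * ArithmeticFunction.sigma 1 (m / p) else 0) := by
  rw [ArithmeticFunction.sigma_one_apply, sigmaPrime,
    ← Finset.sum_filter_not_add_sum_filter (s := m.divisors) (p := fun d => p ∣ d)]
  congr 1
  by_cases hd : p ∣ m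
  · rw [if_pos hd, ArithmeticFunction.sigma_one_apply, Finset.mul_sum]
    obtain ⟨k, rfl⟩ := hd
    have hk : k ≠ 0 := fun h => hm (by rw [h, mul_zero])
    rw [Nat.mul_div_cancel_left k hp.pos]
    refine Finset.sum_bij' (fun d _ => d / p) (fun e _ => p * e) ?_ ?_ ?_ ?_ ?_
    · intro d hd
      rw [Finset.mem_filter, Nat.mem_divisors] at hd
      obtain ⟨⟨hdm, _⟩, e, rfl⟩ := hd
      rw [Nat.mul_div_cancel_left e hp.pos, Nat.mem_divisors]
      exact ⟨(Nat.mul_dvd_mul_iff_left hp.pos).mp hdm, hk⟩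
    · intro e he
      rw [Nat.mem_divisors] at he
      rw [Finset.mem_filter, Nat.mem_divisors]
      exact ⟨⟨Nat.mul_dvd_mul_left p he.1, hm⟩, dvd_mul_right p e⟩
    · intro d hd
      rw [Finset.mem_filter] at hd
      exact Nat.mul_div_cancel' hd.2
    · intro e _
      exact Nat.mul_div_cancel_left e hp.pos
    · intro d hd
      rw [Finset.mem_filter] at hd
      exact (Nat.mul_div_cancel' hd.2).symm
  · rw [if_neg hd]
    apply Finset.sum_eq_zero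
    intro d hd'
    rw [Finset.mem_filter, Nat.mem_divisors] at hd'
    exact absurd (dvd_trans hd'.2 hd'.1.1) hd

theorem eisTwoCoeff_prime (p : ℕ) (hp : p.Prime) (m : ℕ) (hm : m ≠ 0) :
    eisTwoCoeff p m = 24 * (sigmaPrime p m : ℂ) := by
  have h := sigma_one_eq_sigmaPrime_add p hp m hm
  have h' : (ArithmeticFunction.sigma 1 m : ℂ) =
      (sigmaPrime p m : ℂ) +
        (if p ∣ m then (p : ℂ) * (ArithmeticFunction.sigma 1 (m / p) : ℂ) else 0) := by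
    rw [h]
    split_ifs <;> push_cast <;> ring
  rw [eisTwoCoeff, if_neg hm, h']
  ring

end Fermat.Agent.H41

end
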