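import Mathlib

/-!
Sub-lemma D5a of the S22 project (P-HECKEFIN): a holomorphic function on the upper half plane
whose derivative decays like `exp (-a * Im z) * (1 + ‖z‖) ^ n` is bounded on every half-strip
`{B ≤ Im z, |Re z| ≤ M}`.
-/

set_option autoImplicit false

namespace Fermat.Agent.H41

open Real

/-- Elementary bound: polynomial times exponential decay is dominated by half the decay. -/
theorem pow_mul_exp_neg_le (a M : ℝ) (n : ℕ) (ha : 0 < a) (t : ℝ) (ht : 0 ≤ 1 + M + t) :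
    Real.exp (-a * t) * (1 + M + t) ^ n ≤
      ((n.factorial : ℝ) * (2 / a) ^ n * Real.exp (a / 2 * (1 + M))) * Real.exp (-(a / 2) * t) := by
  have hu : 0 ≤ a / 2 * (1 + M + t) := mul_nonneg (by positivity) ht
  have h1 := Real.pow_div_factorial_le_exp (a / 2 * (1 + M + t)) hu n
  have hfact : (0 : ℝ) < n.factorial := by exact_mod_cast n.factorial_pos
  have h2 : (a / 2 * (1 + M + t)) ^ n ≤ (n.factorial : ℝ) * Real.exp (a / 2 * (1 + M + t)) := by
    rw [div_le_iff₀ hfact] at h1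
    linarith [h1]
  have h3 : (1 + M + t) ^ n = (2 / a) ^ n * (a / 2 * (1 + M + t)) ^ n := by
    rw [← mul_pow]
    congr 1
    field_simp
  have h4 : (1 + M + t) ^ n ≤
      (2 / a) ^ n * ((n.factorial : ℝ) * Real.exp (a / 2 * (1 + M + t))) := by
    rw [h3]
    exact mul_le_mul_of_nonneg_left h2 (by positivity)
  have h5 : Real.exp (-a * t) * Real.exp (a / 2 * (1 + M + t)) =
      Real.exp (a / 2 * (1 + M)) * Real.exp (-(a / 2) * t) := by
    rw [← Real.exp_add, ← Real.exp_add]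
    congr 1
    ring
  calc Real.exp (-a * t) * (1 + M + t) ^ n
      ≤ Real.exp (-a * t) * ((2 / a) ^ n * ((n.factorial : ℝ) * Real.exp (a / 2 * (1 + M + t)))) :=
        mul_le_mul_of_nonneg_left h4 (Real.exp_pos _).le
    _ = ((n.factorial : ℝ) * (2 / a) ^ n) * (Real.exp (-a * t) * Real.exp (a / 2 * (1 + M + t))) := by
        ring
    _ = ((n.factorial : ℝ) * (2 / a) ^ n * Real.exp (a / 2 * (1 + M))) * Real.exp (-(a / 2) * t) := by
        rw [h5]; ring

/-- (D5a) growth on a half-strip. -/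
theorem bounded_on_halfstrip (h φ : ℂ → ℂ) (B M a C : ℝ) (n : ℕ) (hB : 0 < B) (ha : 0 < a)
    (hder : ∀ z : ℂ, 0 < z.im → HasDerivAt h (φ z) z)
    (hφ : ∀ z : ℂ, B ≤ z.im → ‖φ z‖ ≤ C * Real.exp (-a * z.im) * (1 + ‖z‖) ^ n) :
    ∃ K : ℝ, ∀ z : ℂ, B ≤ z.im → |z.re| ≤ M → ‖h z‖ ≤ K := by
  -- `C` is nonnegative
  have hC : 0 ≤ C := by
    have h0 := hφ (⟨0, B⟩ : ℂ) (le_refl B)
    have h1 : 0 ≤ C * Real.exp (-a * B) * (1 + ‖(⟨0, B⟩ : ℂ)‖) ^ n := (norm_nonneg _).trans h0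
    have h2 : 0 < Real.exp (-a * B) * (1 + ‖(⟨0, B⟩ : ℂ)‖) ^ n := by positivity
    by_contra hneg
    rw [not_le] at hneg
    have : C * Real.exp (-a * B) * (1 + ‖(⟨0, B⟩ : ℂ)‖) ^ n < 0 := by
      rw [mul_assoc]
      exact mul_neg_of_neg_of_pos hneg h2
    linarith
  -- bound on the bottom edge by compactness
  have hcont : ContinuousOn (fun x : ℝ => ‖h (⟨x, B⟩ : ℂ)‖) (Set.Icc (-M) M) := by
    apply Continuous.continuousOn
    have hc : Continuous (fun x : ℝ => (⟨x, B⟩ : ℂ)) := by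
      have : (fun x : ℝ => (⟨x, B⟩ : ℂ)) = fun x : ℝ => (x : ℂ) + (B : ℂ) * Complex.I := by
        funext x
        apply Complex.ext <;> simp
      rw [this]
      fun_prop
    refine continuous_norm.comp ?_
    rw [continuous_iff_continuousAt]
    intro x
    have hx : HasDerivAt h (φ ⟨x, B⟩) (⟨x, B⟩ : ℂ) := hder _ hB
    exact ContinuousAt.comp (g := h) (f := fun x : ℝ => (⟨x, B⟩ : ℂ)) (hx.continuousAt)
      hc.continuousAt
  obtain ⟨K₀, hK₀⟩ := (isCompact_Icc (a := -M) (b := M)).bddAbove_image hcont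
  set C' : ℝ := C * ((n.factorial : ℝ) * (2 / a) ^ n * Real.exp (a / 2 * (1 + M))) with hC'
  have hC'0 : 0 ≤ C' := by positivity
  refine ⟨K₀ + 2 * C' / a * Real.exp (-(a / 2) * B), ?_⟩
  intro z hz hre
  have hM : 0 ≤ M := (abs_nonneg _).trans hre
  -- the path `t ↦ z.re + t * I`
  set x : ℝ := z.re with hx
  set y : ℝ := z.im with hy
  let f : ℝ → ℂ := fun t => h (⟨x, t⟩ : ℂ)
  let f' : ℝ → ℂ := fun t => φ (⟨x, t⟩ : ℂ) * Complex.I
  have hpath : ∀ t : ℝ, HasDerivAt (fun s : ℝ => (⟨x, s⟩ : ℂ)) Complex.I t := by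
    intro t
    have : (fun s : ℝ => (⟨x, s⟩ : ℂ)) = fun s : ℝ => (x : ℂ) + (s : ℂ) * Complex.I := by
      funext s
      apply Complex.ext <;> simp
    rw [this]
    have h1 : HasDerivAt (fun s : ℝ => (s : ℂ)) 1 t := by
      simpa using (hasDerivAt_id t).ofReal_comp
    have h2 := (h1.mul_const Complex.I).const_add (x : ℂ)
    simpa using h2
  have hf' : ∀ t : ℝ, 0 < t → HasDerivAt f (f' t) t := by
    intro t ht
    have h1 : HasDerivAt h (φ ⟨x, t⟩) ((fun s : ℝ => (⟨x, s⟩ : ℂ)) t) := hder _ ht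
    have h2 := HasDerivAt.comp t h1 (hpath t)
    simpa [f, f', Function.comp_def] using h2
  let Bf : ℝ → ℝ := fun t => K₀ + 2 * C' / a * (Real.exp (-(a / 2) * B) - Real.exp (-(a / 2) * t))
  let Bf' : ℝ → ℝ := fun t => C' * Real.exp (-(a / 2) * t)
  have hBf : ∀ t, HasDerivAt Bf (Bf' t) t := by
    intro t
    have h1 : HasDerivAt (fun s : ℝ => -(a / 2) * s) (-(a / 2)) t := by
      simpa using (hasDerivAt_id t).const_mul (-(a / 2))
    have h2 : HasDerivAt (fun s : ℝ => Real.exp (-(a / 2) * s))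
        (Real.exp (-(a / 2) * t) * (-(a / 2))) t := h1.exp
    have h3 : HasDerivAt Bf (2 * C' / a * (-(Real.exp (-(a / 2) * t) * (-(a / 2))))) t :=
      ((h2.const_sub (Real.exp (-(a / 2) * B))).const_mul (2 * C' / a)).const_add K₀
    refine h3.congr_deriv ?_
    change _ = C' * Real.exp (-(a / 2) * t)
    field_simp
  have hstart : ‖f B‖ ≤ Bf B := by
    have hxmem : x ∈ Set.Icc (-M) M := abs_le.mp hre
    have h1 : ‖h (⟨x, B⟩ : ℂ)‖ ≤ K₀ :=
      hK₀ (Set.mem_image_of_mem (fun x : ℝ => ‖h (⟨x, B⟩ : ℂ)‖) hxmem)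
    have h2 : Bf B = K₀ := by simp [Bf]
    rw [h2]
    exact h1
  have hfcont : ContinuousOn f (Set.Icc B y) := by
    intro t ht
    exact (hf' t (lt_of_lt_of_le hB ht.1)).continuousAt.continuousWithinAt
  have hbound : ∀ t ∈ Set.Ico B y, ‖f' t‖ ≤ Bf' t := by
    intro t ht
    have ht0 : 0 < t := lt_of_lt_of_le hB ht.1
    have h1 : ‖f' t‖ = ‖φ (⟨x, t⟩ : ℂ)‖ := by simp [f']
    rw [h1]
    have h2 := hφ (⟨x, t⟩ : ℂ) ht.1
    have hnorm : ‖(⟨x, t⟩ : ℂ)‖ ≤ M + t := by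
      have := Complex.norm_le_abs_re_add_abs_im (⟨x, t⟩ : ℂ)
      simp only at this
      have hxa : |x| ≤ M := hre
      have hta : |t| = t := abs_of_pos ht0
      linarith
    have h3 : (1 + ‖(⟨x, t⟩ : ℂ)‖) ^ n ≤ (1 + M + t) ^ n := by
      apply pow_le_pow_left₀ (by positivity)
      linarith
    have h4 := pow_mul_exp_neg_le a M n ha t (by linarith)
    calc ‖φ (⟨x, t⟩ : ℂ)‖ ≤ C * Real.exp (-a * t) * (1 + ‖(⟨x, t⟩ : ℂ)‖) ^ n := h2
      _ ≤ C * Real.exp (-a * t) * (1 + M + t) ^ n :=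
          mul_le_mul_of_nonneg_left h3 (by positivity)
      _ = C * (Real.exp (-a * t) * (1 + M + t) ^ n) := by ring
      _ ≤ C * (((n.factorial : ℝ) * (2 / a) ^ n * Real.exp (a / 2 * (1 + M))) *
            Real.exp (-(a / 2) * t)) := mul_le_mul_of_nonneg_left h4 hC
      _ = Bf' t := by simp only [Bf', hC']; ring
  have hmain := image_norm_le_of_norm_deriv_right_le_deriv_boundary (f := f) (f' := f')
    (a := B) (b := y) hfcont
    (fun t ht => (hf' t (lt_of_lt_of_le hB ht.1)).hasDerivWithinAt) hstart hBf hbound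
  have hy_mem : y ∈ Set.Icc B y := ⟨hz, le_refl y⟩
  have hfin := hmain hy_mem
  have hzeq : (⟨x, y⟩ : ℂ) = z := by apply Complex.ext <;> simp [hx, hy]
  have hfy : f y = h z := by simp only [f]; rw [hzeq]
  rw [hfy] at hfin
  refine hfin.trans ?_
  simp only [Bf]
  have hpos : 0 ≤ 2 * C' / a * Real.exp (-(a / 2) * y) := by positivity
  have : 2 * C' / a * (Real.exp (-(a / 2) * B) - Real.exp (-(a / 2) * y)) =
      2 * C' / a * Real.exp (-(a / 2) * B) - 2 * C' / a * Real.exp (-(a / 2) * y) := by ring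
  rw [this]
  linarith

end Fermat.Agent.H41
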