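import Mathlib

/-!
# P-ES / ES-A [ROOT] (helper41): holomorphic `m`-th roots on the upper half plane

If `f` is holomorphic on the upper half plane and the order of vanishing of `f` at every point is
divisible by `m`, then `f = G ^ m` with `G` holomorphic on the upper half plane.

Method: no monodromy theorem.  On a disc with finitely many zeros, divide out the zeros one at a
time (`f = (z - a) ^ (m k) g`), and take a root of the nonvanishing quotient through a primitive
of the logarithmic derivative.  Then exhaust the half plane by discs and glue (the roots on two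
nested discs differ by an `m`-th root of unity, which is normalised at a base point).
-/

open Complex Set Metric Filter Topology

namespace Fermat.Agent.H41

/-! ### Step 1: nonvanishing functions on a disc -/

/-- A nonvanishing holomorphic function on a disc is the exponential of a holomorphic function. -/
theorem exists_log_of_ne_zero_ball (c : ℂ) (r : ℝ) (f : ℂ → ℂ)
    (hf : DifferentiableOn ℂ f (ball c r)) (hne : ∀ z ∈ ball c r, f z ≠ 0) :
    ∃ L : ℂ → ℂ, DifferentiableOn ℂ L (ball c r) ∧ ∀ z ∈ ball c r, Complex.exp (L z) = f z := by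
  by_cases hr : 0 < r
  swap
  · refine ⟨0, by fun_prop, fun z hz => ?_⟩
    rw [ball_eq_empty.mpr (not_lt.mp hr)] at hz
    exact absurd hz (notMem_empty z)
  have hc : c ∈ ball c r := mem_ball_self hr
  have hd : DifferentiableOn ℂ (fun z => deriv f z / f z) (ball c r) :=
    (hf.deriv isOpen_ball).div hf hne
  obtain ⟨F, hF⟩ := hd.isExactOn_ball
  -- `φ = f * exp (-F)` has derivative zero
  have hφ : ∀ z ∈ ball c r, HasDerivAt (fun z => f z * Complex.exp (-F z)) 0 z := by
    intro z hz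
    have h1 : HasDerivAt f (deriv f z) z :=
      (hf.differentiableAt (isOpen_ball.mem_nhds hz)).hasDerivAt
    have h2 : HasDerivAt (fun z => Complex.exp (-F z))
        (Complex.exp (-F z) * -(deriv f z / f z)) z := (hF z hz).neg.cexp
    have h3 : HasDerivAt (fun z => f z * Complex.exp (-F z)) _ z := h1.mul h2
    refine h3.congr_deriv ?_
    have hz0 := hne z hz
    field_simp
    ring
  have hφd : DifferentiableOn ℂ (fun z => f z * Complex.exp (-F z)) (ball c r) :=
    fun z hz => (hφ z hz).differentiableAt.differentiableWithinAt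
  have hconst : ∀ z ∈ ball c r, f z * Complex.exp (-F z) = f c * Complex.exp (-F c) := by
    intro z hz
    exact isOpen_ball.is_const_of_deriv_eq_zero (convex_ball c r).isPreconnected hφd
      (fun w hw => (hφ w hw).deriv) hz hc
  have hC : f c * Complex.exp (-F c) ≠ 0 := mul_ne_zero (hne c hc) (Complex.exp_ne_zero _)
  refine ⟨fun z => F z + Complex.log (f c * Complex.exp (-F c)), ?_, ?_⟩
  · exact fun z hz => ((hF z hz).differentiableAt.add_const _).differentiableWithinAt
  · intro z hz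
    rw [Complex.exp_add, Complex.exp_log hC, ← hconst z hz, mul_comm, mul_assoc,
      ← Complex.exp_add, neg_add_cancel, Complex.exp_zero, mul_one]

/-- A nonvanishing holomorphic function on a disc has a holomorphic `m`-th root. -/
theorem exists_root_of_ne_zero_ball (m : ℕ) (hm : m ≠ 0) (c : ℂ) (r : ℝ) (f : ℂ → ℂ)
    (hf : DifferentiableOn ℂ f (ball c r)) (hne : ∀ z ∈ ball c r, f z ≠ 0) :
    ∃ G : ℂ → ℂ, DifferentiableOn ℂ G (ball c r) ∧ ∀ z ∈ ball c r, G z ^ m = f z := by
  obtain ⟨L, hL, hLf⟩ := exists_log_of_ne_zero_ball c r f hf hne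
  refine ⟨fun z => Complex.exp (L z / m), ?_, ?_⟩
  · exact (hL.div_const _).cexp
  · intro z hz
    rw [← Complex.exp_nat_mul, mul_div_cancel₀ _ (Nat.cast_ne_zero.mpr hm), hLf z hz]

/-! ### Step 2: dividing out a zero -/

/-- Dividing out a zero of finite order `n` at `a`: `f = (z - a) ^ n * g` with `g` holomorphic,
`g a ≠ 0`, and `g` has the same orders as `f` away from `a`. -/
theorem exists_eq_pow_mul_of_order {U : Set ℂ} (hU : IsOpen U) {f : ℂ → ℂ}
    (hf : DifferentiableOn ℂ f U) {a : ℂ} (ha : a ∈ U) {n : ℕ}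
    (hord : analyticOrderAt f a = n) :
    ∃ g : ℂ → ℂ, DifferentiableOn ℂ g U ∧ g a ≠ 0 ∧ (∀ z, f z = (z - a) ^ n * g z) ∧
      ∀ b ∈ U, b ≠ a → analyticOrderAt g b = analyticOrderAt f b := by
  classical
  have hfa : AnalyticAt ℂ f a := (hf.analyticOnNhd hU) a ha
  obtain ⟨g₀, hg₀, hg₀a, hev⟩ := hfa.analyticOrderAt_eq_natCast.mp hord
  let g : ℂ → ℂ := Function.update (fun z => f z / (z - a) ^ n) a (g₀ a)
  have hg_eq : ∀ z, z ≠ a → g z = f z / (z - a) ^ n := fun z hz => Function.update_of_ne hz _ _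
  have hga : g a = g₀ a := Function.update_self _ _ _
  have hgev : g =ᶠ[𝓝 a] g₀ := by
    filter_upwards [hev] with z hz
    by_cases hza : z = a
    · rw [hza, hga]
    · rw [hg_eq z hza, hz, smul_eq_mul,
        mul_div_cancel_left₀ _ (pow_ne_zero n (sub_ne_zero.mpr hza))]
  have hfg : ∀ z, f z = (z - a) ^ n * g z := by
    intro z
    by_cases hza : z = a
    · rw [hza, hga]
      simpa using hev.self_of_nhds
    · rw [hg_eq z hza, mul_div_cancel₀ _ (pow_ne_zero n (sub_ne_zero.mpr hza))]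
  have hgd : DifferentiableOn ℂ g U := by
    intro z hz
    by_cases hza : z = a
    · subst hza
      exact (hg₀.differentiableAt.congr_of_eventuallyEq hgev).differentiableWithinAt
    · have h1 : g =ᶠ[𝓝 z] fun w => f w / (w - a) ^ n := by
        filter_upwards [isOpen_ne.mem_nhds hza] with w hw using hg_eq w hw
      have hd : DifferentiableAt ℂ (fun w => f w / (w - a) ^ n) z :=
        (hf.differentiableAt (hU.mem_nhds hz)).div (by fun_prop)
          (pow_ne_zero n (sub_ne_zero.mpr hza))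
      exact (hd.congr_of_eventuallyEq h1).differentiableWithinAt
  refine ⟨g, hgd, by rw [hga]; exact hg₀a, hfg, ?_⟩
  intro b hb hba
  have hgb : AnalyticAt ℂ g b := (hgd.analyticOnNhd hU) b hb
  have hpb : AnalyticAt ℂ (fun z => (z - a) ^ n) b := by fun_prop
  have h2 : f = (fun z => (z - a) ^ n) * g := funext hfg
  rw [h2, analyticOrderAt_mul hpb hgb,
    hpb.analyticOrderAt_eq_zero.mpr (pow_ne_zero n (sub_ne_zero.mpr hba)), zero_add]

/-! ### Step 3: finitely many zeros on a disc -/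

/-- A holomorphic function on a disc with finitely many zeros, all of order divisible by `m`, has
a holomorphic `m`-th root. -/
theorem exists_root_ball_of_finite_zeros (m : ℕ) (hm : m ≠ 0) (c : ℂ) (r : ℝ) :
    ∀ (S : Finset ℂ) (f : ℂ → ℂ), DifferentiableOn ℂ f (ball c r) →
      (∀ z ∈ ball c r, f z = 0 → z ∈ S) →
      (∀ z ∈ ball c r, ∃ k : ℕ, analyticOrderAt f z = ((m * k : ℕ) : ℕ∞)) →
      ∃ G : ℂ → ℂ, DifferentiableOn ℂ G (ball c r) ∧ ∀ z ∈ ball c r, G z ^ m = f z := by
  classical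
  intro S
  induction S using Finset.induction_on with
  | empty =>
    intro f hf hS _
    exact exists_root_of_ne_zero_ball m hm c r f hf
      (fun z hz h0 => absurd (hS z hz h0) (Finset.notMem_empty z))
  | insert a S' _ ih =>
    intro f hf hS hord
    by_cases ha : a ∈ ball c r ∧ f a = 0
    · obtain ⟨hab, -⟩ := ha
      obtain ⟨k, hk⟩ := hord a hab
      obtain ⟨g, hgd, hga, hfg, hgord⟩ := exists_eq_pow_mul_of_order isOpen_ball hf hab hk
      have hS' : ∀ z ∈ ball c r, g z = 0 → z ∈ S' := by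
        intro z hz hgz
        have hfz : f z = 0 := by rw [hfg z, hgz, mul_zero]
        rcases Finset.mem_insert.mp (hS z hz hfz) with h | h
        · exact absurd (h ▸ hgz) hga
        · exact h
      have hord' : ∀ z ∈ ball c r, ∃ k : ℕ, analyticOrderAt g z = ((m * k : ℕ) : ℕ∞) := by
        intro z hz
        by_cases hza : z = a
        · refine ⟨0, ?_⟩
          rw [hza, mul_zero, Nat.cast_zero,
            ((hgd.analyticOnNhd isOpen_ball) a hab).analyticOrderAt_eq_zero]
          exact hga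
        · rw [hgord z hz hza]
          exact hord z hz
      obtain ⟨G, hG, hGm⟩ := ih g hgd hS' hord'
      refine ⟨fun z => (z - a) ^ k * G z, ?_, ?_⟩
      · exact (by fun_prop : DifferentiableOn ℂ (fun z => (z - a) ^ k) (ball c r)).mul hG
      · intro z hz
        simp only
        rw [mul_pow, hGm z hz, hfg z, ← pow_mul, mul_comm k m]
    · refine ih f hf ?_ hord
      intro z hz hfz
      rcases Finset.mem_insert.mp (hS z hz hfz) with h | h
      · exact absurd ⟨h ▸ hz, h ▸ hfz⟩ ha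
      · exact h

/-- A holomorphic function on an open set `U`, all of whose orders are finite and divisible by
`m`, has a holomorphic `m`-th root on every disc whose closure lies in `U`. -/
theorem exists_root_ball (m : ℕ) (hm : m ≠ 0) {U : Set ℂ} (hU : IsOpen U) (f : ℂ → ℂ)
    (hf : DifferentiableOn ℂ f U) (c : ℂ) (r : ℝ) (hK : closedBall c r ⊆ U)
    (hord : ∀ z ∈ U, ∃ k : ℕ, analyticOrderAt f z = ((m * k : ℕ) : ℕ∞)) :
    ∃ G : ℂ → ℂ, DifferentiableOn ℂ G (ball c r) ∧ ∀ z ∈ ball c r, G z ^ m = f z := by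
  have hfa : AnalyticOnNhd ℂ f (closedBall c r) := (hf.analyticOnNhd hU).mono hK
  have hfin := (isCompact_closedBall c r).finite_sdiff_of_mem_codiscreteWithin
    hfa.codiscreteWithin_setOfPred_analyticOrderAt_eq_zero_or_top
  refine exists_root_ball_of_finite_zeros m hm c r hfin.toFinset f
    (hf.mono (ball_subset_closedBall.trans hK)) ?_
    (fun z hz => hord z (hK (ball_subset_closedBall hz)))
  intro z hz hfz
  rw [Set.Finite.mem_toFinset]
  refine ⟨ball_subset_closedBall hz, ?_⟩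
  rintro (h | h)
  · exact (analyticOrderAt_ne_zero.mpr ⟨hfa z (ball_subset_closedBall hz), hfz⟩) h
  · obtain ⟨k, hk⟩ := hord z (hK (ball_subset_closedBall hz))
    rw [hk] at h
    exact ENat.natCast_ne_top _ h

/-! ### Step 4: uniqueness up to a root of unity -/

theorem finite_setOf_pow_eq_one (m : ℕ) (hm : m ≠ 0) : {w : ℂ | w ^ m = 1}.Finite := by
  classical
  refine Set.Finite.subset (Polynomial.nthRoots m (1 : ℂ)).toFinset.finite_toSet ?_
  intro w hw
  simpa [Polynomial.mem_nthRoots (Nat.pos_of_ne_zero hm)] using hw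

/-- Two holomorphic functions on a connected open set with the same `m`-th power which agree at
one point where they do not vanish are equal. -/
theorem eqOn_of_pow_eq {U : Set ℂ} (hU : IsOpen U) (hUc : IsPreconnected U) (m : ℕ) (hm : m ≠ 0)
    {G₁ G₂ : ℂ → ℂ} (h₁ : DifferentiableOn ℂ G₁ U) (h₂ : DifferentiableOn ℂ G₂ U)
    (hpow : ∀ z ∈ U, G₁ z ^ m = G₂ z ^ m) {z₀ : ℂ} (hz₀ : z₀ ∈ U) (h0 : G₁ z₀ ≠ 0)
    (heq : G₁ z₀ = G₂ z₀) : EqOn G₁ G₂ U := by
  -- a small disc around `z₀` on which `G₁` does not vanish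
  have hev : ∀ᶠ z in 𝓝 z₀, z ∈ U ∧ G₁ z ≠ 0 :=
    Filter.Eventually.and (hU.mem_nhds hz₀)
      ((h₁.continuousOn.continuousAt (hU.mem_nhds hz₀)).eventually_ne h0)
  obtain ⟨ε, hε, hball⟩ := Metric.eventually_nhds_iff_ball.mp hev
  -- on this disc the quotient takes values in the roots of unity, hence is constant
  have hq : ContinuousOn (fun z => G₂ z / G₁ z) (ball z₀ ε) :=
    ContinuousOn.div (h₂.continuousOn.mono fun z hz => (hball z hz).1)
      (h₁.continuousOn.mono fun z hz => (hball z hz).1) fun z hz => (hball z hz).2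
  have hmaps : MapsTo (fun z => G₂ z / G₁ z) (ball z₀ ε) {w : ℂ | w ^ m = 1} := by
    intro z hz
    change (G₂ z / G₁ z) ^ m = 1
    rw [div_pow]
    rw [← hpow z (hball z hz).1, div_self (pow_ne_zero m (hball z hz).2)]
  have hdisc : IsDiscrete {w : ℂ | w ^ m = 1} := (finite_setOf_pow_eq_one m hm).isDiscrete
  have hconst : ∀ z ∈ ball z₀ ε, G₂ z / G₁ z = 1 := by
    intro z hz
    have := (convex_ball z₀ ε).isPreconnected.constant_of_mapsTo hdisc hq hmaps hz
      (mem_ball_self hε)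
    rw [this, ← heq, div_self h0]
  have hloc : G₁ =ᶠ[𝓝 z₀] G₂ := by
    filter_upwards [ball_mem_nhds z₀ hε] with z hz
    have h := hconst z hz
    rw [div_eq_one_iff_eq (hball z hz).2] at h
    exact h.symm
  exact (h₁.analyticOnNhd hU).eqOn_of_preconnected_of_eventuallyEq (h₂.analyticOnNhd hU) hUc hz₀
    hloc

/-! ### Step 5: gluing along an exhaustion -/

/-- Gluing roots along an increasing sequence of connected open sets. -/
theorem exists_root_of_exhaustion (m : ℕ) (hm : m ≠ 0) (f : ℂ → ℂ) (B : ℕ → Set ℂ)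
    (hBo : ∀ n, IsOpen (B n)) (hBc : ∀ n, IsPreconnected (B n)) (hBmono : Monotone B)
    (z₀ : ℂ) (hz₀ : z₀ ∈ B 0) (hfz₀ : f z₀ ≠ 0)
    (hG : ∀ n, ∃ G : ℂ → ℂ, DifferentiableOn ℂ G (B n) ∧ ∀ z ∈ B n, G z ^ m = f z) :
    ∃ G : ℂ → ℂ, DifferentiableOn ℂ G (⋃ n, B n) ∧ ∀ z ∈ ⋃ n, B n, G z ^ m = f z := by
  classical
  choose G hGd hGm using hG
  have hz₀n : ∀ n, z₀ ∈ B n := fun n => hBmono (Nat.zero_le n) hz₀
  have hGz₀ : ∀ n, G n z₀ ≠ 0 := by
    intro n h
    have := hGm n z₀ (hz₀n n)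
    rw [h, zero_pow hm] at this
    exact hfz₀ this.symm
  -- normalise at the base point
  set w₀ : ℂ := G 0 z₀ with hw₀
  let G' : ℕ → ℂ → ℂ := fun n z => w₀ / G n z₀ * G n z
  have hG'z₀ : ∀ n, G' n z₀ = w₀ := fun n => div_mul_cancel₀ _ (hGz₀ n)
  have hG'd : ∀ n, DifferentiableOn ℂ (G' n) (B n) := fun n => (hGd n).const_mul _
  have hG'm : ∀ n, ∀ z ∈ B n, G' n z ^ m = f z := by
    intro n z hz
    simp only [G']
    rw [mul_pow, div_pow, hw₀, hGm 0 z₀ hz₀, hGm n z₀ (hz₀n n), div_self hfz₀, one_mul,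
      hGm n z hz]
  have hcompat : ∀ k n, k ≤ n → EqOn (G' k) (G' n) (B k) := by
    intro k n hkn
    refine eqOn_of_pow_eq (hBo k) (hBc k) m hm (hG'd k) ((hG'd n).mono (hBmono hkn)) ?_ (hz₀n k)
      ?_ ?_
    · intro z hz
      rw [hG'm k z hz, hG'm n z (hBmono hkn hz)]
    · rw [hG'z₀ k]
      exact hGz₀ 0
    · rw [hG'z₀ k, hG'z₀ n]
  let Gf : ℂ → ℂ := fun z => if h : ∃ n, z ∈ B n then G' (Nat.find h) z else 0
  have hGf : ∀ n, EqOn Gf (G' n) (B n) := by
    intro n z hz
    have h : ∃ n, z ∈ B n := ⟨n, hz⟩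
    simp only [Gf, dif_pos h]
    exact hcompat _ _ (Nat.find_min' h hz) (Nat.find_spec h)
  refine ⟨Gf, ?_, ?_⟩
  · intro z hz
    obtain ⟨n, hn⟩ := mem_iUnion.mp hz
    have h1 : DifferentiableAt ℂ (G' n) z := (hG'd n).differentiableAt ((hBo n).mem_nhds hn)
    have h2 : Gf =ᶠ[𝓝 z] G' n := by
      filter_upwards [(hBo n).mem_nhds hn] with w hw using hGf n hw
    exact (h1.congr_of_eventuallyEq h2).differentiableWithinAt
  · intro z hz
    obtain ⟨n, hn⟩ := mem_iUnion.mp hz
    rw [hGf n hn, hG'm n z hn]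

/-! ### Step 6: exhaustion of the upper half plane by discs -/

theorem dist_sq_mul_I (R : ℝ) (z : ℂ) :
    dist z ((R : ℂ) * I) ^ 2 = Complex.normSq z + 1 - 2 * R * z.im + (R ^ 2 - 1) := by
  rw [Complex.dist_eq, Complex.sq_norm, Complex.normSq_apply, Complex.normSq_apply]
  simp
  ring

/-- The disc with centre `R i` and radius `√(R² - 1)` is `{z | |z|² + 1 < 2 R Im z}`. -/
theorem mem_ball_mul_I_iff (R : ℝ) (z : ℂ) :
    z ∈ ball ((R : ℂ) * I) (√(R ^ 2 - 1)) ↔ Complex.normSq z + 1 < 2 * R * z.im := by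
  rw [mem_ball, Real.lt_sqrt dist_nonneg, dist_sq_mul_I]
  constructor <;> intro h <;> linarith

theorem im_pos_of_mem_closedBall_mul_I {R : ℝ} (hR : 1 ≤ R) {z : ℂ}
    (hz : z ∈ closedBall ((R : ℂ) * I) (√(R ^ 2 - 1))) : 0 < z.im := by
  have hR2 : 0 ≤ R ^ 2 - 1 := by nlinarith
  rw [mem_closedBall, Real.le_sqrt dist_nonneg hR2, dist_sq_mul_I] at hz
  have h1 : 0 < 2 * R * z.im := by
    have := Complex.normSq_nonneg z
    linarith
  by_contra hneg
  rw [not_lt] at hneg
  nlinarith

/-! ### The main theorem -/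

/-- **[ROOT]** A holomorphic function on the upper half plane all of whose orders of vanishing
are divisible by `m` is the `m`-th power of a holomorphic function. -/
theorem exists_holomorphic_root_halfPlane (m : ℕ) (hm : m ≠ 0) (f : ℂ → ℂ)
    (hf : DifferentiableOn ℂ f {z : ℂ | 0 < z.im})
    (hord : ∀ z : ℂ, 0 < z.im → m ∣ analyticOrderNatAt f z) :
    ∃ G : ℂ → ℂ, DifferentiableOn ℂ G {z : ℂ | 0 < z.im} ∧
      ∀ z : ℂ, 0 < z.im → G z ^ m = f z := by
  have hUo : IsOpen {z : ℂ | 0 < z.im} := isOpen_lt continuous_const Complex.continuous_im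
  have hUc : IsPreconnected {z : ℂ | 0 < z.im} := (convex_halfSpace_im_gt 0).isPreconnected
  have hfa : AnalyticOnNhd ℂ f {z : ℂ | 0 < z.im} := hf.analyticOnNhd hUo
  by_cases htop : ∃ z : ℂ, 0 < z.im ∧ analyticOrderAt f z = ⊤
  · obtain ⟨z₁, hz₁, hz₁top⟩ := htop
    have h0 : EqOn f 0 {z : ℂ | 0 < z.im} :=
      hfa.eqOn_zero_of_preconnected_of_eventuallyEq_zero hUc hz₁ (analyticOrderAt_eq_top.mp hz₁top)
    refine ⟨0, differentiableOn_const 0, fun z hz => ?_⟩
    rw [h0 hz]
    simp [hm]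
  · have hfin : ∀ z : ℂ, 0 < z.im → analyticOrderAt f z ≠ ⊤ := fun z hz h => htop ⟨z, hz, h⟩
    have hord' : ∀ z ∈ {z : ℂ | 0 < z.im}, ∃ k : ℕ, analyticOrderAt f z = ((m * k : ℕ) : ℕ∞) := by
      intro z hz
      obtain ⟨k, hk⟩ := hord z hz
      exact ⟨k, by rw [← hk, Nat.cast_analyticOrderNatAt (hfin z hz)]⟩
    -- a base point where `f` does not vanish
    obtain ⟨z₀, hz₀, hfz₀⟩ : ∃ z₀ : ℂ, 0 < z₀.im ∧ f z₀ ≠ 0 := by
      have hI : (0 : ℝ) < Complex.I.im := by simp
      have h1 : ¬ ∀ᶠ z in 𝓝 Complex.I, f z = 0 := fun h =>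
        hfin Complex.I hI (analyticOrderAt_eq_top.mpr h)
      have h2 : ∃ᶠ z in 𝓝 Complex.I, f z ≠ 0 := by
        rw [Filter.Frequently]
        simpa using h1
      obtain ⟨z₀, h3, h4⟩ := (h2.and_eventually (hUo.mem_nhds hI)).exists
      exact ⟨z₀, h4, h3⟩
    -- the exhaustion
    set R₀ : ℝ := max 1 ((Complex.normSq z₀ + 1) / (2 * z₀.im) + 1) with hR₀
    have hR₀1 : 1 ≤ R₀ := le_max_left _ _
    have hR₀z : Complex.normSq z₀ + 1 < 2 * R₀ * z₀.im := by
      have h1 : (Complex.normSq z₀ + 1) / (2 * z₀.im) < R₀ :=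
        lt_of_lt_of_le (lt_add_one _) (le_max_right _ _)
      rw [div_lt_iff₀ (by positivity)] at h1
      linarith
    let B : ℕ → Set ℂ := fun n =>
      ball (((n + R₀ : ℝ) : ℂ) * I) (√((n + R₀ : ℝ) ^ 2 - 1))
    have hBU : ∀ n, B n ⊆ {z : ℂ | 0 < z.im} := fun n z hz =>
      im_pos_of_mem_closedBall_mul_I (by linarith [Nat.cast_nonneg (α := ℝ) n])
        (ball_subset_closedBall hz)
    have hBmono : Monotone B := by
      intro k n hkn z hz
      have hzim : 0 < z.im := hBU k hz
      simp only [B] at hz ⊢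
      rw [mem_ball_mul_I_iff] at hz ⊢
      have h1 : (k : ℝ) ≤ n := Nat.cast_le.mpr hkn
      have h2 : (k + R₀) * z.im ≤ (n + R₀) * z.im :=
        mul_le_mul_of_nonneg_right (by linarith) hzim.le
      linarith
    have hz₀B : z₀ ∈ B 0 := by
      simp only [B]
      rw [mem_ball_mul_I_iff]
      simpa using hR₀z
    have hG : ∀ n, ∃ G : ℂ → ℂ, DifferentiableOn ℂ G (B n) ∧ ∀ z ∈ B n, G z ^ m = f z := by
      intro n
      refine exists_root_ball m hm hUo f hf _ _ ?_ hord'
      intro z hz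
      exact im_pos_of_mem_closedBall_mul_I (by linarith [Nat.cast_nonneg (α := ℝ) n]) hz
    obtain ⟨G, hGd, hGm⟩ := exists_root_of_exhaustion m hm f B (fun n => isOpen_ball)
      (fun n => (convex_ball _ _).isPreconnected) hBmono z₀ hz₀B hfz₀ hG
    have hcover : {z : ℂ | 0 < z.im} ⊆ ⋃ n, B n := by
      intro z hz
      obtain ⟨n, hn⟩ := exists_nat_gt ((Complex.normSq z + 1) / (2 * z.im))
      refine mem_iUnion.mpr ⟨n, ?_⟩
      simp only [B]
      rw [mem_ball_mul_I_iff]
      have hz' : (0 : ℝ) < z.im := hz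
      rw [div_lt_iff₀ (by positivity)] at hn
      nlinarith
    exact ⟨G, hGd.mono hcover, fun z hz => hGm z (hcover hz)⟩

end Fermat.Agent.H41
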