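import Fermat.Agent.H78.MatDefs

/-!
# P-DEFRING, subtask H78-MAT-U: uniqueness of normalized lifts (helper41)

Two normalized lifts which are conjugate by an invertible matrix are equal.
-/

set_option autoImplicit false

namespace Fermat.Agent.H41

open IsLocalRing Matrix Fermat.Agent.H78

section EntryMem

variable {A : Type} [CommRing A]

/-- All entries of a `2 × 2` matrix lie in an ideal. -/
def EntryMem (I : Ideal A) (M : M2 A) : Prop := ∀ a b, M a b ∈ I

theorem EntryMem.add {I : Ideal A} {M M' : M2 A} (h : EntryMem I M) (h' : EntryMem I M') :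
    EntryMem I (M + M') := fun a b => by
  rw [Matrix.add_apply]; exact I.add_mem (h a b) (h' a b)

theorem EntryMem.sub {I : Ideal A} {M M' : M2 A} (h : EntryMem I M) (h' : EntryMem I M') :
    EntryMem I (M - M') := fun a b => by
  rw [Matrix.sub_apply]; exact I.sub_mem (h a b) (h' a b)

theorem EntryMem.mul_right {I : Ideal A} {M : M2 A} (h : EntryMem I M) (M' : M2 A) :
    EntryMem I (M * M') := fun a b => by
  rw [Matrix.mul_apply]
  exact I.sum_mem fun c _ => I.mul_mem_right _ (h a c)

theorem EntryMem.mul_left {I : Ideal A} {M : M2 A} (h : EntryMem I M) (M' : M2 A) :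
    EntryMem I (M' * M) := fun a b => by
  rw [Matrix.mul_apply]
  exact I.sum_mem fun c _ => I.mul_mem_left _ (h c b)

/-- A matrix commuting with a companion-type matrix `N` (first column `(0,1)ᵗ`) is of the form
`x • 1 + y • N`, where `(x, y)ᵗ` is its first column. -/
theorem eq_smul_one_add_smul_of_commute {U N : M2 A} (h0 : N 0 0 = 0) (h1 : N 1 0 = 1)
    (hc : U * N = N * U) : U = U 0 0 • (1 : M2 A) + U 1 0 • N := by
  have e00 := congrFun (congrFun hc 0) 0
  have e10 := congrFun (congrFun hc 1) 0
  simp only [Matrix.mul_apply, Fin.sum_univ_two, h0, h1] at e00 e10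
  ext a b
  fin_cases a <;> fin_cases b
  · simp [Matrix.add_apply, Matrix.smul_apply, h0]
  · simp [Matrix.add_apply, Matrix.smul_apply]
    linear_combination e00
  · simp [Matrix.add_apply, Matrix.smul_apply, h1]
  · simp [Matrix.add_apply, Matrix.smul_apply]
    linear_combination e10

end EntryMem

section Local

variable {A : Type} [CommRing A] [IsLocalRing A]

theorem isUnit_of_sub_mem_maximalIdeal {a u : A} (hu : IsUnit u)
    (h : a - u ∈ maximalIdeal A) : IsUnit a := by
  by_contra ha
  have ha' : a ∈ maximalIdeal A := (IsLocalRing.mem_maximalIdeal a).mpr ha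
  have hu' : u ∈ maximalIdeal A := by
    have := (maximalIdeal A).sub_mem ha' h
    simpa using this
  exact ((IsLocalRing.mem_maximalIdeal u).mp hu') hu

end Local

variable {𝒪 : Type} [CommRing 𝒪] [IsLocalRing 𝒪]
variable {A : Type} [CommRing A] [IsLocalRing A] [Algebra 𝒪 A] [IsLocalHom (algebraMap 𝒪 A)]

/-- **H78-MAT-U**: uniqueness of normalized lifts in a conjugacy class. -/
theorem IsNormLift.eq_of_conj {G : Gauge 𝒪} {r r' : GalQ →* M2 A}
    (hr : IsNormLift G r) (hr' : IsNormLift G r') (U : (M2 A)ˣ)
    (h : ∀ σ, r' σ = (U : M2 A) * r σ * ((U⁻¹ : (M2 A)ˣ) : M2 A)) : r' = r := by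
  -- basic consequences of conjugacy
  have hUinv : ((U⁻¹ : (M2 A)ˣ) : M2 A) * (U : M2 A) = 1 := by
    rw [← Units.val_mul, inv_mul_cancel, Units.val_one]
  have hUinv' : (U : M2 A) * ((U⁻¹ : (M2 A)ˣ) : M2 A) = 1 := by
    rw [← Units.val_mul, mul_inv_cancel, Units.val_one]
  have hcomm : ∀ σ, r' σ * (U : M2 A) = (U : M2 A) * r σ := by
    intro σ
    rw [h σ, mul_assoc, hUinv, mul_one]
  set N : M2 A := r G.ga with hN
  set N' : M2 A := r' G.ga with hN'
  set B : M2 A := r G.gb with hB
  set B' : M2 A := r' G.gb with hB'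
  have hN0 : N 0 0 = 0 := hr.col0
  have hN1 : N 1 0 = 1 := hr.col1
  have hN'0 : N' 0 0 = 0 := hr'.col0
  have hN'1 : N' 1 0 = 1 := hr'.col1
  -- `N' = N` via trace and determinant
  have htr : N'.trace = N.trace := by
    rw [hN', h G.ga]
    exact Matrix.trace_units_conj U N
  have hdet : N'.det = N.det := by
    rw [hN', h G.ga]
    exact Matrix.det_units_conj U N
  have hNN' : N' = N := by
    rw [Matrix.trace_fin_two, Matrix.trace_fin_two, hN0, hN'0] at htr
    rw [Matrix.det_fin_two, Matrix.det_fin_two, hN0, hN'0, hN1, hN'1] at hdet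
    ext a b
    fin_cases a <;> fin_cases b
    · simp [hN0, hN'0]
    · simp only [Fin.zero_eta, Fin.mk_one, Fin.isValue]
      linear_combination -hdet
    · simp [hN1, hN'1]
    · simp only [Fin.mk_one, Fin.isValue]
      linear_combination htr
  -- `U` commutes with `N`
  have hUN : (U : M2 A) * N = N * (U : M2 A) := by
    have := hcomm G.ga
    rw [← hN', hNN'] at this
    exact this.symm
  set x : A := (U : M2 A) 0 0 with hx
  set y : A := (U : M2 A) 1 0 with hy
  have hUxy : (U : M2 A) = x • (1 : M2 A) + y • N :=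
    eq_smul_one_add_smul_of_commute hN0 hN1 hUN
  -- the key identity for `D = B' - B`
  set D : M2 A := B' - B with hD
  have hkey : x • D = y • (N * B - B * N - D * N) := by
    have h1 := hcomm G.gb
    rw [← hB', ← hB] at h1
    have hB'eq : B' = B + D := by rw [hD]; abel
    rw [hB'eq, hUxy] at h1
    have h2 : (B + D) * (x • (1 : M2 A) + y • N) =
        x • B + y • (B * N) + x • D + y • (D * N) := by
      simp only [mul_add, add_mul, Matrix.mul_smul, mul_one]
      abel
    have h3 : (x • (1 : M2 A) + y • N) * B = x • B + y • (N * B) := by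
      simp only [add_mul, Matrix.smul_mul, one_mul]
    rw [h2, h3] at h1
    have h4 : x • D = y • (N * B) - y • (B * N) - y • (D * N) := by
      have h1' : x • B + y • (B * N) + x • D + y • (D * N) - x • B - y • (B * N) - y • (D * N)
          = x • B + y • (N * B) - x • B - y • (B * N) - y • (D * N) := by rw [h1]
      have e1 : x • B + y • (B * N) + x • D + y • (D * N) - x • B - y • (B * N) - y • (D * N)
          = x • D := by abel
      have e2 : x • B + y • (N * B) - x • B - y • (B * N) - y • (D * N)
          = y • (N * B) - y • (B * N) - y • (D * N) := by abel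
      rw [e1, e2] at h1'
      exact h1'
    rw [h4, smul_sub, smul_sub]
  -- entrywise congruences
  let La : M2 A := (G.lift G.ga).map (algebraMap 𝒪 A)
  let Lb : M2 A := (G.lift G.gb).map (algebraMap 𝒪 A)
  have hNa : EntryMem (maximalIdeal A) (N - La) := fun a b => by
    simpa [La, Matrix.sub_apply, Matrix.map_apply] using hr.red G.ga a b
  have hBb : EntryMem (maximalIdeal A) (B - Lb) := fun a b => by
    simpa [Lb, Matrix.sub_apply, Matrix.map_apply] using hr.red G.gb a b
  have hB'b : EntryMem (maximalIdeal A) (B' - Lb) := fun a b => by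
    simpa [Lb, Matrix.sub_apply, Matrix.map_apply] using hr'.red G.gb a b
  have hDm : EntryMem (maximalIdeal A) D := by
    have : D = (B' - Lb) - (B - Lb) := by rw [hD]; abel
    rw [this]
    exact hB'b.sub hBb
  have hW : EntryMem (maximalIdeal A) ((N * B - B * N - D * N) - (La * Lb - Lb * La)) := by
    have : (N * B - B * N - D * N) - (La * Lb - Lb * La) =
        ((N - La) * B + La * (B - Lb)) - ((B - Lb) * N + Lb * (N - La)) - D * N := by
      simp only [sub_mul, mul_sub]
      abel
    rw [this]
    exact (((hNa.mul_right B).add (hBb.mul_left La)).sub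
      ((hBb.mul_right N).add (hNa.mul_left Lb))).sub (hDm.mul_right N)
  have hLunit : IsUnit ((La * Lb - Lb * La) G.i G.j) := by
    have hmap : La * Lb - Lb * La =
        (G.lift G.ga * G.lift G.gb - G.lift G.gb * G.lift G.ga).map (algebraMap 𝒪 A) := by
      simp only [La, Lb]
      rw [Matrix.map_sub (f := algebraMap 𝒪 A) (map_sub _), Matrix.map_mul, Matrix.map_mul]
    rw [hmap, Matrix.map_apply]
    exact G.comm_unit.map (algebraMap 𝒪 A)
  have hwunit : IsUnit ((N * B - B * N - D * N) G.i G.j) := by
    refine isUnit_of_sub_mem_maximalIdeal hLunit ?_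
    have := hW G.i G.j
    rwa [Matrix.sub_apply] at this
  -- hence `y = 0`
  have hDij : D G.i G.j = 0 := by
    rw [hD, Matrix.sub_apply, hB', hB, hr'.entry, hr.entry, sub_self]
  have hy0 : y = 0 := by
    have := congrFun (congrFun hkey G.i) G.j
    rw [Matrix.smul_apply, Matrix.smul_apply, hDij, smul_zero, smul_eq_mul] at this
    exact (hwunit.mul_left_eq_zero).mp this.symm
  -- so `U` is scalar and conjugation by `U` is trivial
  have hUx : (U : M2 A) = x • (1 : M2 A) := by
    rw [hUxy, hy0, zero_smul, add_zero]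
  refine MonoidHom.ext fun σ => ?_
  have h5 : (U : M2 A) * r σ = r σ * (U : M2 A) := by
    rw [hUx, Matrix.smul_mul, Matrix.mul_smul, one_mul, mul_one]
  rw [h σ, h5, mul_assoc, hUinv', mul_one]

end Fermat.Agent.H41
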