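/-
P-ES / ES-A / PL-1 (helper41, second attempt): germ embedding of the function field `FC N` at an
arbitrary point of `ℍ`, with transparent valuation.
-/
import Fermat.Agent.H41.CuspDatumCFinal

set_option autoImplicit false

noncomputable section

open UpperHalfPlane ModularForm CongruenceSubgroup
open scoped MatrixGroups Manifold Topology ModularForm Pointwise

namespace Fermat.Agent.H41

/-- A holomorphic function on `ℍ`, extended by `ofComplex`, is analytic at every point of `ℍ`. -/
theorem analyticAt_comp_ofComplex {h : ℍ → ℂ} (hh : MDiff h) (z₀ : ℍ) :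
    AnalyticAt ℂ (h ∘ ofComplex) (z₀ : ℂ) :=
  ((UpperHalfPlane.mdifferentiable_iff.mp hh).analyticOnNhd
    (isOpen_lt continuous_const Complex.continuous_im)) z₀ z₀.im_pos

/-- Identity theorem: two holomorphic functions on `ℍ` with the same germ at a point are equal. -/
theorem eq_of_mdiff_of_eventuallyEq_nhdsNE {f g : ℍ → ℂ} (hf : MDiff f) (hg : MDiff g) (z₀ : ℍ)
    (h : (f ∘ ofComplex) =ᶠ[𝓝[≠] (z₀ : ℂ)] (g ∘ ofComplex)) : f = g := by
  have hopen : IsOpen {z : ℂ | 0 < z.im} := isOpen_lt continuous_const Complex.continuous_im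
  have hconn : IsPreconnected {z : ℂ | 0 < z.im} := (convex_halfSpace_im_gt 0).isPreconnected
  have hfa := (UpperHalfPlane.mdifferentiable_iff.mp hf).analyticOnNhd hopen
  have hga := (UpperHalfPlane.mdifferentiable_iff.mp hg).analyticOnNhd hopen
  have hEq := hfa.eqOn_of_preconnected_of_frequently_eq hga hconn z₀.im_pos h.frequently
  funext z
  have := hEq z.im_pos
  simpa [Function.comp_apply, ofComplex_apply] using this

namespace CoreDataC

variable {N : ℕ} [NeZero N] (D : CoreDataC N)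

set_option quotPrecheck false in
local notation "FCN" => ↥(H23.EsA.FC N)
set_option quotPrecheck false in
local notation "RC" => ↥(H23.EsA.RsubC N)

/-- The function on `ℂ` attached to `r ∈ RsubC N`. -/
def Pfun (r : RC) : ℂ → ℂ := D.Θ r ∘ ofComplex

theorem Pfun_add (r s : RC) : D.Pfun (r + s) = D.Pfun r + D.Pfun s := by
  funext t
  exact congrFun (D.Θ.map_add r s) _

theorem Pfun_mul (r s : RC) : D.Pfun (r * s) = D.Pfun r * D.Pfun s := by
  funext t
  exact congrFun (D.Θ.map_mul r s) _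

theorem Pfun_one : D.Pfun 1 = fun _ => 1 := by
  funext t
  exact congrFun D.Θ.map_one _

theorem Pfun_const (c : ℂ) : D.Pfun (algebraMap ℂ RC c) = fun _ => c := by
  funext t
  exact congrFun (D.const c) _

theorem meromorphicAt_Pfun (z₀ : ℍ) (r : RC) : MeromorphicAt (D.Pfun r) (z₀ : ℂ) :=
  (analyticAt_comp_ofComplex (D.md r) z₀).meromorphicAt

variable (z₀ : ℍ) (G : H23.MerGermField (z₀ : ℂ))

/-- The embedding of `RsubC N` into germs at `z₀`. -/
def psigma₀ : RC →+* G.M :=
  germHom G D.Pfun (D.meromorphicAt_Pfun z₀) D.Pfun_add D.Pfun_mul D.Pfun_one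

theorem psigma₀_apply (r : RC) : D.psigma₀ z₀ G r = G.germ (D.Pfun r) := rfl

theorem psigma₀_injective : Function.Injective (D.psigma₀ z₀ G) := by
  intro r r' h
  rw [psigma₀_apply, psigma₀_apply,
    G.germ_eq_iff _ _ (D.meromorphicAt_Pfun z₀ r) (D.meromorphicAt_Pfun z₀ r')] at h
  exact D.inj (eq_of_mdiff_of_eventuallyEq_nhdsNE (D.md r) (D.md r') z₀ h)

/-- The embedding of the function field into germs at `z₀`. -/
def psigma : FCN →+* G.M :=
  fracExtend D.frac (D.psigma₀ z₀ G) (D.psigma₀_injective z₀ G)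

theorem psigma_coe (r : RC) : D.psigma z₀ G (r : FCN) = D.psigma₀ z₀ G r :=
  fracExtend_coe D.frac _ _ r

theorem psigma_algebraMap (c : ℂ) :
    D.psigma z₀ G (algebraMap ℂ FCN c) = G.germ (fun _ => c) := by
  rw [psigma, fracExtend_algebraMap, psigma₀_apply, D.Pfun_const]

/-- **Transparency**: `val (σ f)` is the order at `z₀` of every holomorphic `h` representing
`f`. -/
theorem val_psigma_eq_order (f : FCN) (h : ℍ → ℂ) (hrep : H23.EsA.Rep N h f) :
    G.val (D.psigma z₀ G f) = meromorphicOrderAt (h ∘ ofComplex) (z₀ : ℂ) := by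
  obtain ⟨r, s, hs, hfs⟩ := D.frac f
  have hmul : h * D.Θ s = D.Θ r := by
    have h1 : H44.LaurentRel (h * D.Θ s) ((f : LaurentSeries ℂ) * ((s : FCN) : LaurentSeries ℂ)) :=
      H44.LaurentRel.mul hrep (D.rep s)
    have h2 : (f : LaurentSeries ℂ) * ((s : FCN) : LaurentSeries ℂ)
        = (((r : FCN)) : LaurentSeries ℂ) := by
      rw [← hfs]
      rfl
    rw [h2] at h1
    exact h1.unique_left (D.rep r)
  have hprod : (h ∘ ofComplex) * D.Pfun s = D.Pfun r := by
    funext t
    exact congrFun hmul (ofComplex t)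
  have hmer : MeromorphicAt (h ∘ ofComplex) (z₀ : ℂ) :=
    (analyticAt_comp_ofComplex hrep.mdifferentiable z₀).meromorphicAt
  have hsne : D.psigma₀ z₀ G s ≠ 0 := by
    intro h0
    exact hs (D.psigma₀_injective z₀ G (by rw [h0, map_zero]))
  have hsval : G.val (D.psigma₀ z₀ G s) ≠ ⊤ := by
    rw [Ne, AddValuation.top_iff]
    exact hsne
  have hsord : G.val (D.psigma₀ z₀ G s) = meromorphicOrderAt (D.Pfun s) (z₀ : ℂ) := by
    rw [psigma₀_apply, G.val_germ _ (D.meromorphicAt_Pfun z₀ s)]
  have hrord : G.val (D.psigma₀ z₀ G r) = meromorphicOrderAt (D.Pfun r) (z₀ : ℂ) := by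
    rw [psigma₀_apply, G.val_germ _ (D.meromorphicAt_Pfun z₀ r)]
  have hordmul : meromorphicOrderAt (h ∘ ofComplex) (z₀ : ℂ)
      + meromorphicOrderAt (D.Pfun s) (z₀ : ℂ) = meromorphicOrderAt (D.Pfun r) (z₀ : ℂ) := by
    rw [← meromorphicOrderAt_mul hmer (D.meromorphicAt_Pfun z₀ s), hprod]
  have hvalmul : G.val (D.psigma z₀ G f) + G.val (D.psigma₀ z₀ G s)
      = G.val (D.psigma₀ z₀ G r) := by
    rw [← psigma_coe, ← psigma_coe, ← AddValuation.map_mul, ← map_mul, hfs]
  rw [hrord, ← hordmul, ← hsord] at hvalmul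
  exact (WithTop.add_right_inj hsval).mp hvalmul

end CoreDataC

open H23.EsA in
/-- **ES-A / PL-1**: germ embedding at an arbitrary point of `ℍ`. -/
theorem pointEmbeddingStatement (N : ℕ) [NeZero N] : PointEmbeddingStatement N := by
  intro z₀
  obtain ⟨G⟩ := H33.merGerm_statement (z₀ : ℂ)
  obtain ⟨D⟩ := exists_coreDataC N (H13.esaCoreC N) (H13.esaRsubRep N)
  refine ⟨G.M, G.fieldM, G.val, D.psigma z₀ G, ?_, ?_⟩
  · intro c hc
    rw [D.psigma_algebraMap]
    exact val_germ_const G hc
  · intro f h _ hrep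
    exact D.val_psigma_eq_order z₀ G f h hrep

end Fermat.Agent.H41

end
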