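import Fermat.Agent.H41.RankinBound
import Fermat.Agent.H6.DS.Interfaces

/-!
# P-DS block (4a): adapter to `Fermat.Agent.H6.DS.ParsevalStatement`
-/

set_option autoImplicit false

namespace Fermat.Agent.H41

open CongruenceSubgroup
open scoped MatrixGroups

/-- The zeroth `q`-coefficient of a cusp form on `Γ₁(N)` vanishes. -/
theorem qCoeff_zero_of_cuspForm_Gamma1 (N : ℕ) (k : ℤ) (f : CuspForm (Gamma1 N) k) :
    ModularFormClass.qCoeff f 0 = 0 :=
  CuspFormClass.qExpansion_coeff_zero (Γ := ((Gamma1 N : Subgroup SL(2, ℤ)) :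
    Subgroup (GL (Fin 2) ℝ))) (k := k) f one_pos (one_mem_strictPeriods_Gamma1' N)

/-- (DS-4A) in the shape of helper6's interface. -/
theorem parsevalStatement : Fermat.Agent.H6.DS.ParsevalStatement := by
  intro N _ f
  obtain ⟨C, -, hC⟩ := rankin_partial_sum_bound N f
  refine ⟨C, fun x => ?_⟩
  have h0 : ModularFormClass.qCoeff f 0 = 0 := qCoeff_zero_of_cuspForm_Gamma1 N 1 f
  have hsplit : ∑ n ∈ Finset.range (x + 1), ‖ModularFormClass.qCoeff f n‖ ^ 2 =
      ∑ n ∈ Finset.Icc 1 x, ‖ModularFormClass.qCoeff f n‖ ^ 2 := by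
    rw [Finset.range_eq_Ico, Finset.sum_eq_sum_Ico_succ_bot (Nat.succ_pos x), h0]
    simp only [norm_zero, ne_eq, OfNat.ofNat_ne_zero, not_false_eq_true, zero_pow, zero_add]
    rfl
  rw [hsplit]
  exact hC x

end Fermat.Agent.H41
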